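import Fermat.Agent.DS.N8.ChebFinal
import Fermat.Agent.GJ.Frob.Alg

/-!
# GATE-P / S56 [P-TW] leaf (helper24): Chebotarev in EXISTENCE form, in the shape of S56

On top of `DS/N8` (`chebotarev_lower`, `chebInputs`, `FrobAt.isConj`):

* `exists_prime_mem_of_lowerLogDensityGE` : a set of primes of positive lower logarithmic density
  is nonempty;
* `primeBelow E A` : the prime of `𝓞 E` below a valuation subring `A` of `ℚ̄`;
* `frobAt_restrict` : at a rational prime `q` unramified in `E`, EVERY Frobenius lift at EVERY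
  place of `ℚ̄` over `q` restricts to a `FrobAt E q` element;
* `exists_unramified_finset` : all but finitely many rational primes are unramified in `E`;
* `exists_prime_forall_frob_field` : for a finite Galois `E ⊆ ℚ̄`, `σ₀ ∈ G_ℚ` and a finite set `B`
  there is a prime `q ∉ B` such that every Frobenius lift at every place over `q` restricts on `E`
  to a conjugate of `σ₀`;
* `exists_prime_forall_frob` : the same for a finite-level homomorphism `ρ : G_ℚ →* M`;
* `infinite_setOf_prime_forall_frob` : ... and there are infinitely many such primes.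
-/

set_option autoImplicit false

open NumberField
open Fermat.Agent.Common_helper32
open Fermat.Agent.GJ.FrobLift
open Fermat.Agent.DS.N8

namespace Fermat.Agent.GP.TW.ChebExist

/-- A set of primes of positive lower logarithmic density is nonempty. -/
theorem exists_prime_mem_of_lowerLogDensityGE {S : Set ℕ} {d : ℝ}
    (h : LowerLogDensityGE S d) (hd : 0 < d) : ∃ p : ℕ, p.Prime ∧ p ∈ S := by
  obtain ⟨δ, hδ, hs⟩ := h (d / 2) (by positivity)
  have hm : 0 < min δ 1 := lt_min hδ one_pos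
  have hs1 : 1 < 1 + min δ 1 / 2 := by linarith
  have hs2 : 1 + min δ 1 / 2 < 1 + δ := by have := min_le_left δ 1; linarith
  have hs3 : 1 + min δ 1 / 2 < 2 := by have := min_le_right δ 1; linarith
  obtain ⟨T, hT, hsum⟩ := hs _ hs1 hs2
  have hlog := log_inv_pos hs1 hs3
  have hpos : 0 < (d - d / 2) * Real.log (1 / (1 + min δ 1 / 2 - 1)) :=
    mul_pos (by linarith) hlog
  have hne : T.Nonempty := by
    by_contra hT0
    rw [Finset.not_nonempty_iff_eq_empty] at hT0
    rw [hT0, Finset.sum_empty] at hsum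
    linarith
  obtain ⟨p, hp⟩ := hne
  exact ⟨p, hT p hp⟩

section Below

variable (E : IntermediateField ℚ Qb)

theorem coe_mem_valuationSubring (A : ValuationSubring Qb) (x : 𝓞 E) : ((x : E) : Qb) ∈ A :=
  isIntegral_mem_valuationSubring A _
    ((isIntegral_algebraMap_iff (algebraMap E Qb).injective).mpr x.2)

theorem valuation_coe_le_one (A : ValuationSubring Qb) (x : 𝓞 E) :
    A.valuation ((x : E) : Qb) ≤ 1 :=
  (A.valuation_le_one_iff _).2 (coe_mem_valuationSubring E A x)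

/-- The prime of `𝓞 E` below a valuation subring of `ℚ̄`. -/
noncomputable def primeBelow (A : ValuationSubring Qb) : Ideal (𝓞 E) where
  carrier := {x | ((x : E) : Qb) ∈ A.nonunits}
  add_mem' {a b} ha hb := by
    have ha' : A.valuation ((a : E) : Qb) < 1 := A.mem_nonunits_iff.1 ha
    have hb' : A.valuation ((b : E) : Qb) < 1 := A.mem_nonunits_iff.1 hb
    show (((a + b : 𝓞 E) : E) : Qb) ∈ A.nonunits
    rw [A.mem_nonunits_iff]
    push_cast
    exact (A.valuation).map_add_lt ha' hb'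
  zero_mem' := by
    show (((0 : 𝓞 E) : E) : Qb) ∈ A.nonunits
    rw [A.mem_nonunits_iff]
    push_cast
    rw [map_zero]
    exact zero_lt_one
  smul_mem' c x hx := by
    have hx' : A.valuation ((x : E) : Qb) < 1 := A.mem_nonunits_iff.1 hx
    show (((c * x : 𝓞 E) : E) : Qb) ∈ A.nonunits
    rw [A.mem_nonunits_iff]
    push_cast
    rw [map_mul]
    calc A.valuation ((c : E) : Qb) * A.valuation ((x : E) : Qb)
        ≤ 1 * A.valuation ((x : E) : Qb) := mul_le_mul' (valuation_coe_le_one E A c) le_rfl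
      _ = A.valuation ((x : E) : Qb) := one_mul _
      _ < 1 := hx'

variable {E}

theorem mem_primeBelow {A : ValuationSubring Qb} {x : 𝓞 E} :
    x ∈ primeBelow E A ↔ ((x : E) : Qb) ∈ A.nonunits := Iff.rfl

instance primeBelow_isPrime (A : ValuationSubring Qb) : (primeBelow E A).IsPrime where
  ne_top' := by
    rw [Ne, Ideal.eq_top_iff_one, mem_primeBelow, ValuationSubring.mem_nonunits_iff]
    push_cast
    rw [map_one]
    exact lt_irrefl _
  mem_or_mem' := by
    intro a b hab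
    by_contra h
    rw [not_or] at h
    simp only [mem_primeBelow, ValuationSubring.mem_nonunits_iff, not_lt] at h hab
    have ha : A.valuation ((a : E) : Qb) = 1 := le_antisymm (valuation_coe_le_one E A a) h.1
    have hb : A.valuation ((b : E) : Qb) = 1 := le_antisymm (valuation_coe_le_one E A b) h.2
    have : A.valuation (((a * b : 𝓞 E) : E) : Qb) = 1 := by
      push_cast
      rw [map_mul, ha, hb, one_mul]
    rw [this] at hab
    exact lt_irrefl _ hab

theorem natCast_mem_primeBelow {A : ValuationSubring Qb} {q : ℕ} (hA : A.LiesOverPrime q) :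
    ((q : ℕ) : 𝓞 E) ∈ primeBelow E A := by
  rw [mem_primeBelow]
  have : ((((q : ℕ) : 𝓞 E) : E) : Qb) = (q : Qb) := by push_cast; rfl
  rw [this]
  exact hA

theorem primeBelow_ne_bot {A : ValuationSubring Qb} {q : ℕ} (hq : q.Prime)
    (hA : A.LiesOverPrime q) : primeBelow E A ≠ ⊥ := by
  intro h
  have h1 := natCast_mem_primeBelow (E := E) hA
  rw [h, Ideal.mem_bot] at h1
  have : ((q : ℕ) : 𝓞 E) ≠ 0 := by
    exact_mod_cast hq.ne_zero
  exact this h1

theorem absNorm_under_primeBelow [FiniteDimensional ℚ E] {A : ValuationSubring Qb} {q : ℕ}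
    (hq : q.Prime)
    (hA : A.LiesOverPrime q) :
    Ideal.absNorm ((primeBelow E A).under (𝓞 ℚ)) = q := by
  have hmem : ((q : ℕ) : 𝓞 ℚ) ∈ (primeBelow E A).under (𝓞 ℚ) := by
    rw [Ideal.under_def, Ideal.mem_comap, map_natCast]
    exact natCast_mem_primeBelow hA
  have hprime : Prime ((q : ℕ) : 𝓞 ℚ) := by
    rw [← MulEquiv.prime_iff Rat.ringOfIntegersEquiv]
    rw [map_natCast]
    exact Nat.prime_iff_prime_int.mp hq
  have hne : ((q : ℕ) : 𝓞 ℚ) ≠ 0 := hprime.ne_zero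
  have hsp : (Ideal.span {((q : ℕ) : 𝓞 ℚ)}).IsPrime := (Ideal.span_singleton_prime hne).mpr hprime
  have hmax : (Ideal.span {((q : ℕ) : 𝓞 ℚ)}).IsMaximal :=
    hsp.isMaximal (by rwa [Ne, Ideal.span_singleton_eq_bot])
  have hpr : ((primeBelow E A).under (𝓞 ℚ)).IsPrime := Ideal.IsPrime.under (𝓞 ℚ) _
  have heq : Ideal.span {((q : ℕ) : 𝓞 ℚ)} = (primeBelow E A).under (𝓞 ℚ) :=
    hmax.eq_of_le hpr.ne_top (by rwa [Ideal.span_singleton_le_iff_mem])
  rw [← heq, Ideal.absNorm_span_singleton]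
  have : ((q : ℕ) : 𝓞 ℚ) = algebraMap ℤ (𝓞 ℚ) (q : ℤ) := by simp
  rw [this, Algebra.norm_algebraMap, RingOfIntegers.rank, Module.finrank_self, pow_one]
  simp

end Below

section Main

variable (E : IntermediateField ℚ Qb) [FiniteDimensional ℚ E] [IsGalois ℚ E]

/-- At a rational prime `q` unramified in `E`, EVERY Frobenius lift at EVERY place of `ℚ̄` over `q`
restricts to a `FrobAt E q` element. -/
theorem frobAt_restrict {q : ℕ} (hq : q.Prime)
    (hunr : ∀ P : Ideal (𝓞 E), P.IsPrime → P ≠ ⊥ → Ideal.absNorm (P.under (𝓞 ℚ)) = q →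
      P.inertia (E ≃ₐ[ℚ] E) = ⊥)
    {A : ValuationSubring Qb} {τ : GQ} (hA : A.LiesOverPrime q) (hτ : A.IsFrobeniusAt τ q) :
    FrobAt E q ((AlgEquiv.restrictNormalHom E τ : E ≃ₐ[ℚ] E)) := by
  have hP := primeBelow_isPrime (E := E) A
  have hP0 := primeBelow_ne_bot (E := E) hq hA
  have hN := absNorm_under_primeBelow (E := E) hq hA
  refine ⟨primeBelow E A, hP, hP0, hN, hunr _ hP hP0 hN, ?_⟩
  refine isArithFrobAt_restrict E A q (primeBelow E A) (fun x => mem_primeBelow) ?_ τ hτ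
  rw [← hN, Ideal.absNorm_apply, Submodule.cardQuot_apply]

/-- All but finitely many rational primes are unramified in `E`. -/
theorem exists_unramified_finset :
    ∃ B₀ : Finset ℕ, ∀ q : ℕ, q ∉ B₀ → ∀ P : Ideal (𝓞 E), P.IsPrime → P ≠ ⊥ →
      Ideal.absNorm (P.under (𝓞 ℚ)) = q → P.inertia (E ≃ₐ[ℚ] E) = ⊥ := by
  classical
  have hfin := Fermat.Agent.GJ.FrobAlg.finite_ramified_under ℚ E
  refine ⟨hfin.toFinset.image (fun 𝔭 => Ideal.absNorm 𝔭), fun q hq P hP hP0 hN => ?_⟩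
  by_contra hI
  apply hq
  rw [Finset.mem_image]
  exact ⟨P.under (𝓞 ℚ), hfin.mem_toFinset.2 ⟨P, hP, hP0, rfl, hI⟩, hN⟩

/-- **Chebotarev, existence form, field level**: for a finite Galois `E ⊆ ℚ̄`, `σ₀ ∈ G_ℚ` and a
finite set `B` of primes there is a prime `q ∉ B` such that EVERY Frobenius lift at EVERY place of
`ℚ̄` over `q` restricts on `E` to a conjugate of `σ₀`. -/
theorem exists_prime_forall_frob_field (σ₀ : GQ) (B : Finset ℕ) :
    ∃ q : ℕ, q.Prime ∧ q ∉ B ∧ ∀ (A : ValuationSubring Qb) (τ : GQ), A.LiesOverPrime q →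
      A.IsFrobeniusAt τ q → ∃ g : GQ,
        AlgEquiv.restrictNormalHom E τ = AlgEquiv.restrictNormalHom E (g * σ₀ * g⁻¹) := by
  classical
  obtain ⟨B₀, hB₀⟩ := exists_unramified_finset E
  set s₀ : E ≃ₐ[ℚ] E := AlgEquiv.restrictNormalHom E σ₀ with hs₀
  set C : Set (E ≃ₐ[ℚ] E) := {g | IsConj s₀ g} with hCdef
  have hC : ∀ g h : E ≃ₐ[ℚ] E, g ∈ C → h * g * h⁻¹ ∈ C := by
    intro g h hg
    exact IsConj.trans hg (isConj_iff.2 ⟨h, rfl⟩)
  have hdens := chebotarev_lower (L := E) (chebInputs E) C hC (B ∪ B₀)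
  have hmem : s₀ ∈ C := IsConj.refl s₀
  have hpos : (0 : ℝ) < (C.ncard : ℝ) / (Nat.card (E ≃ₐ[ℚ] E) : ℝ) := by
    have h1 : 0 < C.ncard := (Set.ncard_pos (Set.toFinite C)).2 ⟨s₀, hmem⟩
    have h2 : 0 < Nat.card (E ≃ₐ[ℚ] E) := Nat.card_pos
    positivity
  obtain ⟨q, hq, -, hqB, g, hgC, hF⟩ := exists_prime_mem_of_lowerLogDensityGE hdens hpos
  rw [Finset.mem_union, not_or] at hqB
  refine ⟨q, hq, hqB.1, fun A τ hA hτ => ?_⟩
  have hF' := frobAt_restrict E hq (hB₀ q hqB.2) hA hτ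
  have hconj : IsConj s₀ (AlgEquiv.restrictNormalHom E τ) :=
    IsConj.trans hgC (hF.isConj hq hF')
  obtain ⟨h, hh⟩ := isConj_iff.1 hconj
  obtain ⟨g', rfl⟩ := AlgEquiv.restrictNormalHom_surjective (F := ℚ) (K₁ := E) Qb h
  refine ⟨g', ?_⟩
  rw [map_mul, map_mul, map_inv, ← hh]

end Main

section Rep

variable {M : Type} [Monoid M]

/-- **Chebotarev, existence form, Prelude language**: for a finite-level `ρ : G_ℚ →* M`,
`σ₀ ∈ G_ℚ` and a finite set `B` of primes there is a prime `q ∉ B` such that for EVERY Frobenius lift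
`τ` at EVERY place of `ℚ̄` over `q`, `ρ τ` is the `ρ`-image of a conjugate of `σ₀`. -/
theorem exists_prime_forall_frob (ρ : GQ →* M) (hρ : GaloisFactorsThroughFiniteLevel ρ)
    (σ₀ : GQ) (B : Finset ℕ) :
    ∃ q : ℕ, q.Prime ∧ q ∉ B ∧ ∀ (A : ValuationSubring Qb) (τ : GQ), A.LiesOverPrime q →
      A.IsFrobeniusAt τ q → ∃ g : GQ, ρ τ = ρ (g * σ₀ * g⁻¹) := by
  obtain ⟨E, hfin, hgal, hlevel⟩ := exists_galois_level ρ hρ
  obtain ⟨q, hq, hqB, h⟩ := exists_prime_forall_frob_field E σ₀ B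
  refine ⟨q, hq, hqB, fun A τ hA hτ => ?_⟩
  obtain ⟨g, hg⟩ := h A τ hA hτ
  exact ⟨g, hlevel _ _ hg⟩

/-- ... and there are infinitely many such primes. -/
theorem infinite_setOf_prime_forall_frob (ρ : GQ →* M) (hρ : GaloisFactorsThroughFiniteLevel ρ)
    (σ₀ : GQ) :
    {q : ℕ | q.Prime ∧ ∀ (A : ValuationSubring Qb) (τ : GQ), A.LiesOverPrime q →
      A.IsFrobeniusAt τ q → ∃ g : GQ, ρ τ = ρ (g * σ₀ * g⁻¹)}.Infinite := by
  intro hfin
  obtain ⟨q, hq, hqB, h⟩ := exists_prime_forall_frob ρ hρ σ₀ hfin.toFinset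
  exact hqB (hfin.mem_toFinset.2 ⟨hq, h⟩)

/-- Two finite-level homomorphisms are jointly finite-level (so that `exists_prime_forall_frob`
applies to `ρ₁.prod ρ₂`, e.g. a residual representation and a cyclotomic character). -/
theorem factorsThroughFiniteLevel_prod {M₁ M₂ : Type} [Monoid M₁] [Monoid M₂] (ρ₁ : GQ →* M₁)
    (ρ₂ : GQ →* M₂) (h₁ : GaloisFactorsThroughFiniteLevel ρ₁)
    (h₂ : GaloisFactorsThroughFiniteLevel ρ₂) :
    GaloisFactorsThroughFiniteLevel (ρ₁.prod ρ₂) := by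
  obtain ⟨L₁, hL₁, h1⟩ := h₁
  obtain ⟨L₂, hL₂, h2⟩ := h₂
  refine ⟨L₁ ⊔ L₂, inferInstance, fun σ hσ => ?_⟩
  rw [MonoidHom.prod_apply, Prod.mk_eq_one]
  exact ⟨h1 σ fun x hx => hσ x ((le_sup_left : L₁ ≤ L₁ ⊔ L₂) hx),
    h2 σ fun x hx => hσ x ((le_sup_right : L₂ ≤ L₁ ⊔ L₂) hx)⟩

end Rep

end Fermat.Agent.GP.TW.ChebExist
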