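import Fermat.Agent.GP.TW.Export

/-!
# S56, node [P-TW]: the EXPORT at CHOSEN Frobenius elements (helper55)

`Export.tw_export` concludes `∀ w, (∀ i, w ∈ locKerF … (qv i)) → w = 0`, where membership in
`locKerF` quantifies over ALL places `A` over `q` and ALL Frobenius lifts at `A`.  A consumer that
works with ONE fixed decomposition group per prime (e.g. the image of `Gal(ℚ̄_q/ℚ_q)` under
`localGaloisToGlobal q`, i.e. the place `padicPlace q`) needs the stronger form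

  `∀ w, (∀ i, cz w (fr (qv i)) ∈ range (act (fr (qv i)) - 1)) → w = 0`

for a chosen Frobenius lift `fr q` at a chosen place over each prime `q`.  It holds because the
Taylor–Wiles primes produced by Chebotarev have the required property at EVERY Frobenius lift at
EVERY place.  (`tw_export_at` implies `tw_export`.)
-/

set_option autoImplicit false

open Matrix Polynomial

namespace Fermat.Agent.GP.TW.Export

open Fermat.Agent.GP.TW.SigmaLemma Fermat.Agent.GP.TW.TWPrime Fermat.Agent.GP.TW.GTGlue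
open Fermat.Agent.GP.TW.Grp

local notation "Qb" => AlgebraicClosure ℚ
local notation "GQ" => (AlgebraicClosure ℚ ≃ₐ[ℚ] AlgebraicClosure ℚ)

section TwoFields

variable {F : Type*} [Field F] {k : Type} [Field k] [Algebra F k]
variable {M : Type} [AddCommGroup M] [Module k M] [Module F M] [IsScalarTower F k M]
variable {W : Type*} [AddCommGroup W] [Module F W]

/-- the members of the family `cz` that are trivial at the chosen Frobenius element `fr q` -/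
def locKerAt (act : GQ →* Module.End k M) (cz : W →ₗ[F] (GQ → M)) (fr : ℕ → GQ) (q : ℕ) :
    Submodule F W where
  carrier := {w | cz w (fr q) ∈ LinearMap.range (act (fr q) - 1)}
  add_mem' := by
    intro a b ha hb
    show cz (a + b) (fr q) ∈ LinearMap.range (act (fr q) - 1)
    rw [map_add, Pi.add_apply]
    exact Submodule.add_mem _ ha hb
  zero_mem' := by
    show cz 0 (fr q) ∈ LinearMap.range (act (fr q) - 1)
    rw [map_zero, Pi.zero_apply]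
    exact Submodule.zero_mem _
  smul_mem' := by
    intro a w hw
    show cz (a • w) (fr q) ∈ LinearMap.range (act (fr q) - 1)
    rw [map_smul, Pi.smul_apply, ← algebraMap_smul k a (cz w (fr q))]
    exact Submodule.smul_mem _ _ hw

theorem mem_locKerAt {act : GQ →* Module.End k M} {cz : W →ₗ[F] (GQ → M)} {fr : ℕ → GQ} {q : ℕ}
    {w : W} : w ∈ locKerAt act cz fr q ↔ cz w (fr q) ∈ LinearMap.range (act (fr q) - 1) := Iff.rfl

theorem locKerF_le_locKerAt (act : GQ →* Module.End k M) (cz : W →ₗ[F] (GQ → M)) (fr : ℕ → GQ)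
    (q : ℕ) (hfr : ∃ A : ValuationSubring Qb, A.LiesOverPrime q ∧ A.IsFrobeniusAt (fr q) q) :
    locKerF act cz q ≤ locKerAt act cz fr q := by
  intro w hw
  obtain ⟨A, hA, hτ⟩ := hfr
  exact hw A (fr q) hA hτ

variable [FiniteDimensional F W]

/-- `exists_tw_primes_two` at chosen Frobenius elements -/
theorem exists_tw_primes_at (ρbar : ResidualGaloisRep k) (p : ℕ) [Fact p.Prime] (n : ℕ)
    (act : GQ →* Module.End k M) (hact : GaloisFactorsThroughFiniteLevel act)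
    (cz : W →ₗ[F] (GQ → M)) (hcz : ∀ w, IsCocycle act (cz w))
    (hcl : ∀ w, ∃ L : IntermediateField ℚ Qb, FiniteDimensional ℚ L ∧
      ∀ σ : GQ, (∀ x ∈ L, σ x = x) → cz w σ = 0)
    (hGT : ∀ w : W, w ≠ 0 → ∃ σ₀ : GQ, (∀ ζ : Qb, ζ ^ p ^ (n + 1) = 1 → σ₀ ζ = ζ) ∧
      (∃ α β : k, α ≠ β ∧ LinearMap.charpoly (ρbar.ρ σ₀) = (X - C α) * (X - C β)) ∧
      cz w σ₀ ∉ LinearMap.range (act σ₀ - 1))
    (fr : ℕ → GQ)
    (hfr : ∀ q : ℕ, q.Prime →
      ∃ A : ValuationSubring Qb, A.LiesOverPrime q ∧ A.IsFrobeniusAt (fr q) q)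
    (B₀ : Finset ℕ) :
    ∃ qv : Fin (Module.finrank F W) → ℕ, Function.Injective qv ∧
      (∀ i, (qv i).Prime ∧ qv i ∉ B₀ ∧ p ^ (n + 1) ∣ qv i - 1) ∧
      (∀ i, ∀ (A : ValuationSubring Qb) (τ : GQ), A.LiesOverPrime (qv i) →
        A.IsFrobeniusAt τ (qv i) →
        ∃ α β : k, α ≠ β ∧ LinearMap.charpoly (ρbar.ρ τ) = (X - C α) * (X - C β)) ∧
      ∀ w : W, (∀ i, cz w (fr (qv i)) ∈ LinearMap.range (act (fr (qv i)) - 1)) → w = 0 := by
  classical
  set Adm : ℕ → Prop := fun q => q.Prime ∧ p ^ (n + 1) ∣ q - 1 ∧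
    ∀ (A : ValuationSubring Qb) (τ : GQ), A.LiesOverPrime q → A.IsFrobeniusAt τ q →
      ∃ α β : k, α ≠ β ∧ LinearMap.charpoly (ρbar.ρ τ) = (X - C α) * (X - C β) with hAdm
  have hsel : ∀ w : W, w ≠ 0 → ∀ B : Finset ℕ, ∃ q : ℕ, q ∉ B ∧ Adm q ∧
      w ∉ locKerAt act cz fr q := by
    intro w hw B
    obtain ⟨σ₀, hcyc, hss, hns⟩ := hGT w hw
    obtain ⟨q, hq, hqB, hdvd, hF⟩ :=
      exists_tw_prime ρbar p n act hact (cz w) (hcz w) (hcl w) σ₀ hcyc hss hns B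
    refine ⟨q, hqB, ⟨hq, hdvd, fun A τ hA hτ => (hF A τ hA hτ).1⟩, fun hmem => ?_⟩
    obtain ⟨A, hA, hτ⟩ := hfr q hq
    exact (hF A (fr q) hA hτ).2 hmem
  obtain ⟨qv, hinj, hqv, hbot⟩ :=
    exists_injective_iInf_eq_bot (locKerAt act cz fr) Adm B₀ hsel
  refine ⟨qv, hinj, fun i => ⟨(hqv i).1.1, (hqv i).2, (hqv i).1.2.1⟩,
    fun i => (hqv i).1.2.2, fun w hw => ?_⟩
  have : w ∈ (⨅ i, locKerAt act cz fr (qv i)) := (Submodule.mem_iInf _).2 hw
  rw [hbot] at this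
  exact (Submodule.mem_bot F).1 this

end TwoFields

section Export

variable {k : Type} [Field k]

local notation "M2" => Matrix (Fin 2) (Fin 2) k

variable {F : Type*} [Field F] [Algebra F k]
variable {W : Type*} [AddCommGroup W] [Module F W] [FiniteDimensional F W]

/-- the `hGT` binder from the frozen hypotheses and `GT1` (extracted from `tw_export`) -/
theorem hGT_of_frozen (p : ℕ) [Fact p.Prime] (hp2 : p ≠ 2) (ρbar : ResidualGaloisRep k)
    (habs : ρbar.IsAbsolutelyIrreducible)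
    (hdet : (GaloisRepAdic.ofResidualGaloisRep ρbar).DetIsCyclotomic p)
    (hsplit : ∀ σ : GQ, ∃ α β : k, LinearMap.charpoly (ρbar.ρ σ) = (X - C α) * (X - C β))
    (hTW : ∀ (K : Type) [Field K] [Algebra k K] (G : Subgroup GQ), G.index = 2 →
      ∀ V : Submodule K (ρbar.baseChange K).V,
        (∀ σ ∈ G, ∀ x ∈ V, (ρbar.baseChange K).ρ σ x ∈ V) → V = ⊥ ∨ V = ⊤)
    (b : Module.Basis (Fin 2) k ρbar.V) (hGT1 : GT1 (matRep ρbar b))
    (c : GQ → M2) (hc : IsCocycle (adAct (matRep ρbar b)) c) (hctr : ∀ g, (c g).trace = 0)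
    (hnb : ¬ ∃ m : M2, m.trace = 0 ∧ ∀ g, c g = adAct (matRep ρbar b) g m - m) (n : ℕ) :
    ∃ σ₀ : GQ, (∀ ζ : Qb, ζ ^ p ^ (n + 1) = 1 → σ₀ ζ = ζ) ∧
      (∃ α β : k, α ≠ β ∧ LinearMap.charpoly (ρbar.ρ σ₀) = (X - C α) * (X - C β)) ∧
      c σ₀ ∉ LinearMap.range (adAct (matRep ρbar b) σ₀ - 1) := by
  obtain ⟨h2, -, hL, hQ, hsp, hC, -, -, hd1⟩ := matrix_hyps p hp2 ρbar habs hdet hsplit hTW b
  set R := matRep ρbar b with hR
  have hRb : ∀ σ, LinearMap.toMatrix b b (ρbar.ρ σ) = R σ := fun σ => rfl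
  have hinv : ∀ m : M2, m.trace = 0 → (∀ g, adAct R g m = m) → m = 0 :=
    inv_eq_zero (noEigen_of_noStableLine hL) hQ
  have hp : p.Prime := Fact.out
  have : NeZero (p ^ (n + 1)) := ⟨pow_ne_zero _ hp.ne_zero⟩
  set Γ1 : Subgroup GQ := (Fermat.Agent.DS.P5.cycM (p ^ (n + 1))).ker with hΓ1
  have hfix : ∀ σ ∈ Γ1, ∀ ζ : Qb, ζ ^ p ^ (n + 1) = 1 → σ ζ = ζ := fun σ hσ =>
    fixes_of_cycM_eq_one (MonoidHom.mem_ker.1 hσ)
  have hab : ∀ g h : GQ, g * h * g⁻¹ * h⁻¹ ∈ Γ1 := by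
    intro g h
    rw [hΓ1, MonoidHom.mem_ker, map_mul, map_mul, map_mul, map_inv, map_inv,
      mul_comm (Fermat.Agent.DS.P5.cycM (p ^ (n + 1)) g), mul_inv_cancel_right, mul_inv_cancel]
  obtain ⟨σ₀, hσ₀Γ, ⟨α, β, hne, hcp⟩, hns⟩ :=
    exists_sigma0 (R := R) h2 Γ1 hab (fun σ hσ => hd1 n σ (hfix σ hσ)) (hC Γ1 hab).2 hsp hinv
      hGT1 c hctr hc hnb
  refine ⟨σ₀, hfix σ₀ hσ₀Γ, ⟨α, β, hne, ?_⟩, hns⟩
  rw [← LinearMap.charpoly_toMatrix (ρbar.ρ σ₀) b, hRb, hcp]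

/-- **[P-TW] EXPORT at chosen Frobenius elements.** -/
theorem tw_export_at (p : ℕ) [Fact p.Prime] (hp2 : p ≠ 2) (ρbar : ResidualGaloisRep k)
    (habs : ρbar.IsAbsolutelyIrreducible)
    (hdet : (GaloisRepAdic.ofResidualGaloisRep ρbar).DetIsCyclotomic p)
    (hsplit : ∀ σ : GQ, ∃ α β : k, LinearMap.charpoly (ρbar.ρ σ) = (X - C α) * (X - C β))
    (hTW : ∀ (K : Type) [Field K] [Algebra k K] (G : Subgroup GQ), G.index = 2 →
      ∀ V : Submodule K (ρbar.baseChange K).V,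
        (∀ σ ∈ G, ∀ x ∈ V, (ρbar.baseChange K).ρ σ x ∈ V) → V = ⊥ ∨ V = ⊤)
    (b : Module.Basis (Fin 2) k ρbar.V) (hGT1 : GT1 (matRep ρbar b))
    (cz : W →ₗ[F] (GQ → M2)) (hcz : ∀ w, IsCocycle (adAct (matRep ρbar b)) (cz w))
    (hctr : ∀ w g, (cz w g).trace = 0)
    (hcl : ∀ w, ∃ L : IntermediateField ℚ Qb, FiniteDimensional ℚ L ∧
      ∀ σ : GQ, (∀ x ∈ L, σ x = x) → cz w σ = 0)
    (hW : ∀ w : W, w ≠ 0 →
      ¬ ∃ m : M2, m.trace = 0 ∧ ∀ g, cz w g = adAct (matRep ρbar b) g m - m)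
    (fr : ℕ → GQ)
    (hfr : ∀ q : ℕ, q.Prime →
      ∃ A : ValuationSubring Qb, A.LiesOverPrime q ∧ A.IsFrobeniusAt (fr q) q)
    (n : ℕ) (B₀ : Finset ℕ) :
    ∃ qv : Fin (Module.finrank F W) → ℕ, Function.Injective qv ∧
      (∀ i, (qv i).Prime ∧ qv i ∉ B₀ ∧ p ^ (n + 1) ∣ qv i - 1) ∧
      (∀ i, ∀ (A : ValuationSubring Qb) (τ : GQ), A.LiesOverPrime (qv i) →
        A.IsFrobeniusAt τ (qv i) →
        ∃ α β : k, α ≠ β ∧ LinearMap.charpoly (ρbar.ρ τ) = (X - C α) * (X - C β)) ∧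
      ∀ w : W, (∀ i, cz w (fr (qv i)) ∈
        LinearMap.range (adAct (matRep ρbar b) (fr (qv i)) - 1)) → w = 0 :=
  exists_tw_primes_at ρbar p n (adAct (matRep ρbar b))
    (adAct_finiteLevel ρbar b (matRep ρbar b) fun _ => rfl) cz hcz hcl
    (fun w hw => hGT_of_frozen p hp2 ρbar habs hdet hsplit hTW b hGT1 (cz w) (hcz w) (hctr w)
      (hW w hw) n) fr hfr B₀

end Export

end Fermat.Agent.GP.TW.Export
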