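/-
GATE-P / S56 long shot, node [P-TW], leaf S56-TW-SIGMA (helper45): the group theory of the choice of
Taylor–Wiles primes (Darmon–Diamond–Taylor Lemma 2.49 / Wiles (3.8)), WITHOUT Dickson's
classification and without any finiteness: for a field `k` with `2 ≠ 0`, a group `H` and
`ρ : H →* M₂(k)` with no common eigenvector (= irreducible) all of whose elements have their
eigenvalues in `k`,

* `exists_isRss` : some `ρ h` has two DISTINCT eigenvalues;
* `exists_isRss_commute` : for every nonzero subspace `W` of the traceless matrices which is stable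
  under conjugation by `ρ H`, there are `h` and `0 ≠ f ∈ W` with `ρ h` regular semisimple and
  `ρ h * f = f * ρ h` — i.e. `σ₀ := h` has distinct eigenvalues and fixes a nonzero vector of the
  `G`-submodule `W ⊆ ad⁰ρ̄` spanned by the values of a dual Selmer class;
* `ne_conj_sub` : such an `f` is not of the form `ρ h * x * ρ h⁻¹ - x`, i.e. `f ∉ (σ₀ - 1) ad⁰ρ̄`.

Mathlib only.
-/
import Mathlib

set_option autoImplicit false
set_option maxHeartbeats 400000

open Matrix Polynomial

namespace Fermat.Agent.GP.TW.SigmaLemma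

variable {k : Type*} [Field k]

local notation "M2" => Matrix (Fin 2) (Fin 2) k

/-! ### `2 × 2` matrices -/


/-- Cayley–Hamilton for traceless `2 × 2` matrices -/
theorem sq_of_trace_zero (x : M2) (hx : x.trace = 0) : x * x = (-x.det) • (1 : M2) := by
  rw [trace_fin_two] at hx
  have h11 : x 1 1 = -x 0 0 := by linear_combination hx
  ext i j
  fin_cases i <;> fin_cases j <;>
    simp [Matrix.mul_apply, Fin.sum_univ_two, det_fin_two, h11] <;> ring

/-- polarisation: `xy + yx = tr(xy)` for traceless matrices -/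
theorem mul_add_mul_of_trace_zero (x y : M2) (hx : x.trace = 0) (hy : y.trace = 0) :
    x * y + y * x = (x * y).trace • (1 : M2) := by
  rw [trace_fin_two] at hx hy
  have hx11 : x 1 1 = -x 0 0 := by linear_combination hx
  have hy11 : y 1 1 = -y 0 0 := by linear_combination hy
  ext i j
  fin_cases i <;> fin_cases j <;>
    simp [Matrix.mul_apply, Fin.sum_univ_two, trace_fin_two, hx11, hy11] <;> ring

/-- two vectors killed by a nonzero `2 × 2` matrix are parallel -/
theorem exists_smul_of_mulVec_eq_zero {x : M2} (hx : x ≠ 0) {u z : Fin 2 → k} (hu : u ≠ 0)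
    (hxu : x *ᵥ u = 0) (hxz : x *ᵥ z = 0) : ∃ c : k, z = c • u := by
  have e1 : x 0 0 * u 0 + x 0 1 * u 1 = 0 := by
    have := congrFun hxu 0; simpa [Matrix.mulVec, dotProduct, Fin.sum_univ_two] using this
  have e2 : x 1 0 * u 0 + x 1 1 * u 1 = 0 := by
    have := congrFun hxu 1; simpa [Matrix.mulVec, dotProduct, Fin.sum_univ_two] using this
  have e3 : x 0 0 * z 0 + x 0 1 * z 1 = 0 := by
    have := congrFun hxz 0; simpa [Matrix.mulVec, dotProduct, Fin.sum_univ_two] using this
  have e4 : x 1 0 * z 0 + x 1 1 * z 1 = 0 := by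
    have := congrFun hxz 1; simpa [Matrix.mulVec, dotProduct, Fin.sum_univ_two] using this
  set d := u 0 * z 1 - u 1 * z 0 with hd
  have h00 : x 0 0 * d = 0 := by rw [hd]; linear_combination z 1 * e1 - u 1 * e3
  have h01 : x 0 1 * d = 0 := by rw [hd]; linear_combination u 0 * e3 - z 0 * e1
  have h10 : x 1 0 * d = 0 := by rw [hd]; linear_combination z 1 * e2 - u 1 * e4
  have h11 : x 1 1 * d = 0 := by rw [hd]; linear_combination u 0 * e4 - z 0 * e2
  have hd0 : d = 0 := by
    by_contra hne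
    apply hx
    ext i j
    fin_cases i <;> fin_cases j
    · exact (mul_eq_zero.mp h00).resolve_right hne
    · exact (mul_eq_zero.mp h01).resolve_right hne
    · exact (mul_eq_zero.mp h10).resolve_right hne
    · exact (mul_eq_zero.mp h11).resolve_right hne
  by_cases h0 : u 0 = 0
  · have h1 : u 1 ≠ 0 := by
      intro h1
      apply hu
      ext i
      fin_cases i
      · exact h0
      · exact h1
    refine ⟨z 1 / u 1, ?_⟩
    ext i
    fin_cases i
    · show z 0 = z 1 / u 1 * u 0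
      rw [h0, mul_zero]
      have : u 1 * z 0 = 0 := by rw [hd, h0] at hd0; linear_combination -hd0
      exact (mul_eq_zero.mp this).resolve_left h1
    · show z 1 = z 1 / u 1 * u 1
      field_simp
  · refine ⟨z 0 / u 0, ?_⟩
    ext i
    fin_cases i
    · show z 0 = z 0 / u 0 * u 0
      field_simp
    · show z 1 = z 0 / u 0 * u 1
      field_simp
      rw [hd] at hd0
      linear_combination hd0


/-- regular semisimple with eigenvalues in `k` -/
def IsRss (g : M2) : Prop := ∃ α β : k, α ≠ β ∧ g.charpoly = (X - C α) * (X - C β)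

/-- the charpoly splits over `k` -/
def IsSplit (g : M2) : Prop := ∃ α β : k, g.charpoly = (X - C α) * (X - C β)

theorem trace_det_of_split {g : M2} {α β : k} (h : g.charpoly = (X - C α) * (X - C β)) :
    g.trace = α + β ∧ g.det = α * β := by
  rw [Matrix.charpoly_fin_two] at h
  have h1 := congrArg (fun P => Polynomial.coeff P 1) h
  have h0 := congrArg (fun P => Polynomial.coeff P 0) h
  have e : (X - C α) * (X - C β) = X ^ 2 - C (α + β) * X + C (α * β) := by
    rw [map_add, map_mul]; ring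
  rw [e] at h1 h0
  simp only [coeff_add, coeff_sub, coeff_X_pow, coeff_C_mul, coeff_X_one,
    coeff_X_zero, coeff_C] at h1 h0
  norm_num at h1 h0
  exact ⟨by linear_combination -h1, h0⟩

/-- the discriminant of the characteristic polynomial -/
def disc (g : M2) : k := g.trace ^ 2 - 4 * g.det

theorem isRss_of_split_of_disc_ne_zero {g : M2} (hs : IsSplit g) (hd : disc g ≠ 0) : IsRss g := by
  obtain ⟨α, β, h⟩ := hs
  refine ⟨α, β, ?_, h⟩
  rintro rfl
  obtain ⟨ht, hdet⟩ := trace_det_of_split h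
  apply hd
  rw [disc, ht, hdet]
  ring

theorem disc_ne_zero_of_isRss {g : M2} (h : IsRss g) : disc g ≠ 0 := by
  obtain ⟨α, β, hne, h⟩ := h
  obtain ⟨ht, hdet⟩ := trace_det_of_split h
  rw [disc, ht, hdet]
  have : (α + β) ^ 2 - 4 * (α * β) = (α - β) ^ 2 := by ring
  rw [this]
  exact pow_ne_zero 2 (sub_ne_zero.mpr hne)

/-- an eigenvector for a root of the characteristic polynomial -/
theorem exists_eigenvector_of_split {g : M2} {α β : k}
    (h : g.charpoly = (X - C α) * (X - C β)) : ∃ v : Fin 2 → k, v ≠ 0 ∧ g *ᵥ v = α • v := by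
  obtain ⟨ht, hdet⟩ := trace_det_of_split h
  have hd : (g - α • (1 : M2)).det = 0 := by
    rw [trace_fin_two] at ht
    rw [det_fin_two] at hdet ⊢
    simp only [Matrix.sub_apply, Matrix.smul_apply, Matrix.one_apply_eq, smul_eq_mul, mul_one,
      ne_eq, zero_ne_one, one_ne_zero, not_false_eq_true, Matrix.one_apply_ne, mul_zero, sub_zero]
    have : g 1 1 = α + β - g 0 0 := by linear_combination ht
    rw [this] at hdet ⊢
    linear_combination hdet
  obtain ⟨v, hv, hgv⟩ := Matrix.exists_mulVec_eq_zero_iff.mpr hd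
  refine ⟨v, hv, ?_⟩
  rw [Matrix.sub_mulVec, Matrix.smul_mulVec, Matrix.one_mulVec, sub_eq_zero] at hgv
  exact hgv

/-- the traceless part -/
def tl (g : M2) : M2 := g - (g.trace / 2) • (1 : M2)

theorem eq_smul_add_tl (g : M2) : g = (g.trace / 2) • (1 : M2) + tl g := by
  rw [tl]; abel

theorem trace_tl (h2 : (2 : k) ≠ 0) (g : M2) : (tl g).trace = 0 := by
  rw [tl, trace_sub, trace_smul, trace_one, Fintype.card_fin, smul_eq_mul]
  push_cast
  field_simp
  ring

theorem det_tl (h2 : (2 : k) ≠ 0) (g : M2) : (tl g).det = -disc g / 4 := by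
  have h4 : (4 : k) ≠ 0 := by
    have : (4 : k) = 2 * 2 := by norm_num
    rw [this]; exact mul_ne_zero h2 h2
  rw [tl, disc, det_fin_two, det_fin_two, trace_fin_two]
  simp only [Matrix.sub_apply, Matrix.smul_apply, Matrix.one_apply_eq, smul_eq_mul, mul_one,
    ne_eq, zero_ne_one, one_ne_zero, not_false_eq_true, Matrix.one_apply_ne, mul_zero, sub_zero]
  field_simp
  ring

theorem tl_mul_self (h2 : (2 : k) ≠ 0) (g : M2) : tl g * tl g = (disc g / 4) • (1 : M2) := by
  rw [sq_of_trace_zero _ (trace_tl h2 g), det_tl h2, neg_div, neg_neg]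

theorem commute_tl (g : M2) : g * tl g = tl g * g := by
  rw [tl, mul_sub, sub_mul, Matrix.mul_smul, Matrix.smul_mul, mul_one, one_mul]

theorem tl_smul_one_add (a : k) (x : M2) (h2 : (2 : k) ≠ 0) (hx : x.trace = 0) :
    tl (a • (1 : M2) + x) = x := by
  rw [tl, trace_add, trace_smul, trace_one, hx, Fintype.card_fin, smul_eq_mul, add_zero]
  push_cast
  have : a * 2 / 2 = a := by field_simp
  rw [this]
  abel

/-- commuting traceless matrices are proportional -/
theorem eq_smul_of_commute_of_trace_zero (h2 : (2 : k) ≠ 0) {x y : M2} (hx : x.trace = 0)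
    (hy : y.trace = 0) (hc : x * y = y * x) (hdy : y.det ≠ 0) : ∃ b : k, x = b • y := by
  have h1 := mul_add_mul_of_trace_zero x y hx hy
  rw [← hc] at h1
  have hxy : x * y = ((x * y).trace / 2) • (1 : M2) := by
    have : (2 : k) • (x * y) = (x * y).trace • (1 : M2) := by rw [← h1, two_smul]
    calc x * y = (2 : k)⁻¹ • ((2 : k) • (x * y)) := by rw [smul_smul, inv_mul_cancel₀ h2, one_smul]
      _ = _ := by rw [this, smul_smul, div_eq_inv_mul]
  have h3 : (x * y) * y = (-y.det) • x := by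
    rw [mul_assoc, sq_of_trace_zero y hy, Matrix.mul_smul, mul_one]
  rw [hxy, Matrix.smul_mul, one_mul] at h3
  refine ⟨((x * y).trace / 2) / (-y.det), ?_⟩
  have hne : -y.det ≠ 0 := neg_ne_zero.mpr hdy
  calc x = (-y.det)⁻¹ • ((-y.det) • x) := by rw [smul_smul, inv_mul_cancel₀ hne, one_smul]
    _ = _ := by
      rw [← h3, smul_smul]
      congr 1
      field_simp


theorem exists_mulVec_ne_zero {x : M2} (hx : x ≠ 0) : ∃ v : Fin 2 → k, x *ᵥ v ≠ 0 := by
  by_contra hall
  push Not at hall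
  apply hx
  ext i j
  have := congrFun (hall (Pi.single j 1)) i
  simpa using this

/-- commuting traceless matrices are proportional (general form) -/
theorem eq_smul_of_commute_of_trace_zero' (h2 : (2 : k) ≠ 0) {x y : M2} (hx : x.trace = 0)
    (hy : y.trace = 0) (hc : x * y = y * x) (hy0 : y ≠ 0) : ∃ b : k, x = b • y := by
  by_cases hdy : y.det = 0
  swap
  · exact eq_smul_of_commute_of_trace_zero h2 hx hy hc hdy
  -- `x y = s`
  have h1 := mul_add_mul_of_trace_zero x y hx hy
  rw [← hc] at h1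
  have hxy : x * y = ((x * y).trace / 2) • (1 : M2) := by
    have : (2 : k) • (x * y) = (x * y).trace • (1 : M2) := by rw [← h1, two_smul]
    calc x * y = (2 : k)⁻¹ • ((2 : k) • (x * y)) := by rw [smul_smul, inv_mul_cancel₀ h2, one_smul]
      _ = _ := by rw [this, smul_smul, div_eq_inv_mul]
  have hyy : y * y = 0 := by rw [sq_of_trace_zero y hy, hdy, neg_zero, zero_smul]
  have hs : ((x * y).trace / 2) • y = 0 := by
    have h3 : (x * y) * y = 0 := by rw [mul_assoc, hyy, mul_zero]
    rw [hxy, Matrix.smul_mul, one_mul] at h3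
    exact h3
  have hs0 : (x * y).trace / 2 = 0 := (smul_eq_zero.mp hs).resolve_right hy0
  have hxy0 : x * y = 0 := by rw [hxy, hs0, zero_smul]
  have hyx0 : y * x = 0 := by rw [← hc, hxy0]
  obtain ⟨v, hv⟩ := exists_mulVec_ne_zero hy0
  set u := y *ᵥ v with hu
  have hyu : y *ᵥ u = 0 := by rw [hu, Matrix.mulVec_mulVec, hyy, Matrix.zero_mulVec]
  have hxu : x *ᵥ u = 0 := by rw [hu, Matrix.mulVec_mulVec, hxy0, Matrix.zero_mulVec]
  have hyxv : y *ᵥ (x *ᵥ v) = 0 := by rw [Matrix.mulVec_mulVec, hyx0, Matrix.zero_mulVec]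
  obtain ⟨b, hb⟩ := exists_smul_of_mulVec_eq_zero hy0 hv hyu hyxv
  refine ⟨b, ?_⟩
  by_contra hne
  have hne' : x - b • y ≠ 0 := sub_ne_zero.mpr hne
  have k1 : (x - b • y) *ᵥ u = 0 := by
    rw [Matrix.sub_mulVec, Matrix.smul_mulVec, hxu, hyu, smul_zero, sub_zero]
  have k2 : (x - b • y) *ᵥ v = 0 := by
    rw [Matrix.sub_mulVec, Matrix.smul_mulVec, hb, ← hu, sub_self]
  obtain ⟨c, hcv⟩ := exists_smul_of_mulVec_eq_zero hne' hv k1 k2
  apply hv
  rw [hu, hcv, Matrix.mulVec_smul, hyu, smul_zero]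

/-- Cramer's rule in `sl₂` -/
theorem cramer_sl2 (x y z t : M2) (hx : x.trace = 0) (hy : y.trace = 0) (hz : z.trace = 0)
    (ht : t.trace = 0) :
    (z * (x * y - y * x)).trace • t =
      (t * (y * z - z * y)).trace • x + (t * (z * x - x * z)).trace • y +
        (t * (x * y - y * x)).trace • z := by
  rw [trace_fin_two] at hx hy hz ht
  have hx11 : x 1 1 = -x 0 0 := by linear_combination hx
  have hy11 : y 1 1 = -y 0 0 := by linear_combination hy
  have hz11 : z 1 1 = -z 0 0 := by linear_combination hz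
  have ht11 : t 1 1 = -t 0 0 := by linear_combination ht
  ext i j
  fin_cases i <;> fin_cases j <;>
    simp [Matrix.mul_apply, Fin.sum_univ_two, trace_fin_two, hx11, hy11, hz11, ht11] <;> ring

/-- the `BAC – CAB` rule in `sl₂` -/
theorem bac_cab_sl2 (w x y : M2) (hw : w.trace = 0) (hx : x.trace = 0) (hy : y.trace = 0) :
    w * (x * y - y * x) - (x * y - y * x) * w =
      (2 : k) • ((w * x).trace • y - (w * y).trace • x) := by
  rw [trace_fin_two] at hx hy hw
  have hx11 : x 1 1 = -x 0 0 := by linear_combination hx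
  have hy11 : y 1 1 = -y 0 0 := by linear_combination hy
  have hw11 : w 1 1 = -w 0 0 := by linear_combination hw
  ext i j
  fin_cases i <;> fin_cases j <;>
    simp [Matrix.mul_apply, Fin.sum_univ_two, trace_fin_two, hx11, hy11, hw11] <;> ring

/-! ### Representations without common eigenvector -/

variable {H : Type*} [Group H] (ρ : H →* Matrix (Fin 2) (Fin 2) k)

/-- no common eigenvector (= irreducibility in dimension 2) -/
def NoEigen : Prop := ∀ v : Fin 2 → k, v ≠ 0 → ¬ ∀ h, ∃ c : k, ρ h *ᵥ v = c • v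

variable {ρ}

theorem map_mul_map_inv (h : H) : ρ h * ρ h⁻¹ = 1 := by
  rw [← map_mul, mul_inv_cancel, map_one]

theorem map_inv_mul_map (h : H) : ρ h⁻¹ * ρ h = 1 := by
  rw [← map_mul, inv_mul_cancel, map_one]

theorem det_map_ne_zero (h : H) : (ρ h).det ≠ 0 := by
  intro h0
  have := congrArg Matrix.det (map_mul_map_inv (ρ := ρ) h)
  rw [det_mul, h0, zero_mul, det_one] at this
  exact zero_ne_one this

/-- a scalar representation has a common eigenvector -/
theorem not_noEigen_of_scalar (hsc : ∀ h, ∃ a : k, ρ h = a • (1 : M2)) : ¬ NoEigen ρ := by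
  intro hirr
  refine hirr (Pi.single 0 1) ?_ ?_
  · intro h0
    have := congrFun h0 0
    simp at this
  · intro h
    obtain ⟨a, ha⟩ := hsc h
    exact ⟨a, by rw [ha, Matrix.smul_mulVec, Matrix.one_mulVec]⟩

theorem eq_smul_one_of_tl_eq_zero {g : M2} (h : tl g = 0) : g = (g.trace / 2) • (1 : M2) := by
  have := eq_smul_add_tl g
  rw [h, add_zero] at this
  exact this

/-- **some element has distinct eigenvalues** -/
theorem exists_isRss (h2 : (2 : k) ≠ 0) (hirr : NoEigen ρ) (hsplit : ∀ h, IsSplit (ρ h)) :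
    ∃ h, IsRss (ρ h) := by
  by_contra hno
  push Not at hno
  have hdisc : ∀ h, disc (ρ h) = 0 := by
    intro h
    by_contra hd
    exact hno h (isRss_of_split_of_disc_ne_zero (hsplit h) hd)
  have hN2 : ∀ h, tl (ρ h) * tl (ρ h) = 0 := by
    intro h
    rw [tl_mul_self h2, hdisc, zero_div, zero_smul]
  -- the scalar parts are nonzero
  have hdet : ∀ h, (ρ h).det = ((ρ h).trace / 2) ^ 2 := by
    intro h
    have := hdisc h
    rw [disc] at this
    field_simp
    linear_combination -this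
  have ha : ∀ h, (ρ h).trace / 2 ≠ 0 := by
    intro h h0
    apply det_map_ne_zero (ρ := ρ) h
    rw [hdet, h0]
    ring
  by_cases hall : ∀ h, tl (ρ h) = 0
  · exact not_noEigen_of_scalar (fun h => ⟨_, eq_smul_one_of_tl_eq_zero (hall h)⟩) hirr
  push Not at hall
  obtain ⟨h1, hN1⟩ := hall
  obtain ⟨v, hv⟩ := exists_mulVec_ne_zero hN1
  set N1 := tl (ρ h1) with hN1def
  set u := N1 *ᵥ v with hu
  have hN1u : N1 *ᵥ u = 0 := by
    rw [hu, Matrix.mulVec_mulVec, hN2 h1, Matrix.zero_mulVec]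
  refine hirr u hv ?_
  intro h
  set N := tl (ρ h) with hNdef
  set a1 := (ρ h1).trace / 2 with ha1
  set a := (ρ h).trace / 2 with hadef
  have hg1 : ρ h1 = a1 • (1 : M2) + N1 := eq_smul_add_tl _
  have hg : ρ h = a • (1 : M2) + N := eq_smul_add_tl _
  have htrN1 : N1.trace = 0 := trace_tl h2 _
  have htrN : N.trace = 0 := trace_tl h2 _
  set τ := (N1 * N).trace with hτ
  -- `τ = 0`
  have hτ0 : τ = 0 := by
    by_contra hτne
    -- the product `g₁ g`
    have hgg : ρ h * ρ h = (a ^ 2) • (1 : M2) + (2 * a) • N := by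
      have hNN : N * N = 0 := hN2 h
      rw [hg]
      simp only [add_mul, mul_add, Matrix.smul_mul, Matrix.mul_smul, one_mul, mul_one,
        smul_smul]
      rw [hNN, add_zero, pow_two, two_mul, add_smul]
      abel
    have ht1 : (ρ (h1 * h)).trace = 2 * a1 * a + τ := by
      rw [map_mul, hg1, hg]
      simp only [add_mul, mul_add, Matrix.smul_mul, Matrix.mul_smul, one_mul, mul_one,
        trace_add, trace_smul, trace_one, htrN1, htrN, smul_eq_mul, Fintype.card_fin, mul_zero,
        add_zero, smul_smul]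
      rw [hτ]
      push_cast
      ring
    have ht2 : (ρ (h1 * (h * h))).trace = 2 * a1 * a ^ 2 + 2 * a * τ := by
      rw [map_mul, map_mul, hgg, hg1]
      simp only [add_mul, mul_add, Matrix.smul_mul, Matrix.mul_smul, one_mul, mul_one,
        trace_add, trace_smul, trace_one, htrN1, htrN, smul_eq_mul, Fintype.card_fin, mul_zero,
        add_zero, smul_smul]
      rw [hτ]
      push_cast
      ring
    have hd1 : (ρ (h1 * h)).det = a1 ^ 2 * a ^ 2 := by
      rw [map_mul, det_mul, hdet, hdet]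
    have hd2 : (ρ (h1 * (h * h))).det = a1 ^ 2 * a ^ 4 := by
      rw [map_mul, map_mul, det_mul, det_mul, hdet, hdet]
      ring
    have e1 := hdisc (h1 * h)
    have e2 := hdisc (h1 * (h * h))
    rw [disc, ht1, hd1] at e1
    rw [disc, ht2, hd2] at e2
    have e1' : τ * (4 * a1 * a + τ) = 0 := by linear_combination e1
    have e2' : 4 * a ^ 2 * τ * (2 * a1 * a + τ) = 0 := by linear_combination e2
    have f1 : 4 * a1 * a + τ = 0 := (mul_eq_zero.mp e1').resolve_left hτne
    have h4 : (4 : k) ≠ 0 := by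
      have : (4 : k) = 2 * 2 := by norm_num
      rw [this]; exact mul_ne_zero h2 h2
    have f2 : 2 * a1 * a + τ = 0 := by
      refine (mul_eq_zero.mp e2').resolve_left ?_
      exact mul_ne_zero (mul_ne_zero h4 (pow_ne_zero 2 (ha h))) hτne
    have f3 : 2 * a1 * a = 0 := by linear_combination f1 - f2
    exact mul_ne_zero (mul_ne_zero h2 (ha h1)) (ha h) f3
  -- `N₁ N = - N N₁`
  have hanti : N1 * N = -(N * N1) := by
    have := mul_add_mul_of_trace_zero N1 N htrN1 htrN
    rw [← hτ, hτ0, zero_smul] at this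
    exact eq_neg_of_add_eq_zero_left this
  have hkill : N1 *ᵥ (N *ᵥ u) = 0 := by
    rw [Matrix.mulVec_mulVec, hanti, Matrix.neg_mulVec, ← Matrix.mulVec_mulVec, hN1u,
      Matrix.mulVec_zero, neg_zero]
  obtain ⟨c, hc⟩ := exists_smul_of_mulVec_eq_zero hN1 hv hN1u hkill
  refine ⟨a + c, ?_⟩
  rw [hg, Matrix.add_mulVec, Matrix.smul_mulVec, Matrix.one_mulVec, hc, add_smul]


/-! ### The dihedral situation: a semi-invariant traceless matrix -/

section Dihedral

variable (h2 : (2 : k) ≠ 0) (hirr : NoEigen ρ) (hsplit : ∀ h, IsSplit (ρ h))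
  {w : Matrix (Fin 2) (Fin 2) k} (hw0 : w ≠ 0) (hwtr : w.trace = 0)
  (hsemi : ∀ h, ∃ η : k, ρ h * w * ρ h⁻¹ = η • w)

include hirr hw0 hwtr hsemi in
/-- a semi-invariant traceless matrix is invertible -/
theorem det_ne_zero_of_semi : w.det ≠ 0 := by
  intro hdet
  have hww : w * w = 0 := by rw [sq_of_trace_zero w hwtr, hdet, neg_zero, zero_smul]
  obtain ⟨v, hv⟩ := exists_mulVec_ne_zero hw0
  set u := w *ᵥ v with hu
  have hwu : w *ᵥ u = 0 := by rw [hu, Matrix.mulVec_mulVec, hww, Matrix.zero_mulVec]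
  refine hirr u hv ?_
  intro h
  obtain ⟨η, hη⟩ := hsemi h
  have hη0 : η ≠ 0 := by
    rintro rfl
    rw [zero_smul] at hη
    apply hw0
    have : w = ρ h⁻¹ * (ρ h * w * ρ h⁻¹) * ρ h := by
      rw [mul_assoc, mul_assoc, mul_assoc, map_inv_mul_map, mul_one, ← mul_assoc,
        map_inv_mul_map, one_mul]
    rw [this, hη, mul_zero, zero_mul]
  have hgw : ρ h * w = η • (w * ρ h) := by
    have := congrArg (· * ρ h) hη
    simp only [mul_assoc, map_inv_mul_map, mul_one, Matrix.smul_mul] at this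
    exact this
  have hkill : w *ᵥ (ρ h *ᵥ u) = 0 := by
    have h1 : w * ρ h = η⁻¹ • (ρ h * w) := by
      rw [hgw, smul_smul, inv_mul_cancel₀ hη0, one_smul]
    rw [Matrix.mulVec_mulVec, h1, Matrix.smul_mulVec, ← Matrix.mulVec_mulVec, hwu,
      Matrix.mulVec_zero, smul_zero]
  obtain ⟨c, hc⟩ := exists_smul_of_mulVec_eq_zero hw0 hv hwu hkill
  exact ⟨c, hc⟩

include hirr hw0 hwtr hsemi in
/-- every element commutes or anticommutes with a semi-invariant traceless matrix -/
theorem comm_or_anti (h : H) : ρ h * w = w * ρ h ∨ ρ h * w = -(w * ρ h) := by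
  have hdet := det_ne_zero_of_semi hirr hw0 hwtr hsemi
  obtain ⟨η, hη⟩ := hsemi h
  have hgw : ρ h * w = η • (w * ρ h) := by
    have := congrArg (· * ρ h) hη
    simp only [mul_assoc, map_inv_mul_map, mul_one, Matrix.smul_mul] at this
    exact this
  have hww : w * w = (-w.det) • (1 : M2) := sq_of_trace_zero w hwtr
  have hsq : (ρ h * w * ρ h⁻¹) * (ρ h * w * ρ h⁻¹) = (-w.det) • (1 : M2) := by
    have : (ρ h * w * ρ h⁻¹) * (ρ h * w * ρ h⁻¹) = ρ h * (w * w) * ρ h⁻¹ := by
      rw [mul_assoc (ρ h * w), ← mul_assoc (ρ h⁻¹), ← mul_assoc (ρ h⁻¹), map_inv_mul_map,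
        one_mul]
      simp only [mul_assoc]
    rw [this, hww, Matrix.mul_smul, Matrix.smul_mul, mul_one, map_mul_map_inv]
  rw [hη, Matrix.smul_mul, Matrix.mul_smul, smul_smul, hww, smul_smul] at hsq
  have h00 := congrFun (congrFun hsq 0) 0
  simp only [Matrix.smul_apply, Matrix.one_apply_eq, smul_eq_mul, mul_one] at h00
  have hη2 : (η - 1) * (η + 1) = 0 := by
    have hne : -w.det ≠ 0 := neg_ne_zero.mpr hdet
    have : (-w.det) * ((η - 1) * (η + 1)) = 0 := by linear_combination h00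
    exact (mul_eq_zero.mp this).resolve_left hne
  rcases mul_eq_zero.mp hη2 with h1 | h1
  · left
    rw [hgw, sub_eq_zero.mp h1, one_smul]
  · right
    rw [hgw, eq_neg_of_add_eq_zero_left h1, neg_one_smul]

include h2 hirr hsplit hw0 hwtr hsemi in
/-- some element anticommutes with `w` -/
theorem exists_anti : ∃ h0, ρ h0 * w = -(w * ρ h0) := by
  by_contra hno
  push Not at hno
  have hcomm : ∀ h, ρ h * w = w * ρ h := fun h =>
    (comm_or_anti hirr hw0 hwtr hsemi h).resolve_right (hno h)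
  have hdet := det_ne_zero_of_semi hirr hw0 hwtr hsemi
  -- every element is `a + b w`
  have hform : ∀ h, ∃ b : k, ρ h = ((ρ h).trace / 2) • (1 : M2) + b • w := by
    intro h
    have hc : tl (ρ h) * w = w * tl (ρ h) := by
      rw [tl, sub_mul, mul_sub, hcomm h, Matrix.smul_mul, Matrix.mul_smul, one_mul, mul_one]
    obtain ⟨b, hb⟩ := eq_smul_of_commute_of_trace_zero h2 (trace_tl h2 (ρ h)) hwtr hc hdet
    refine ⟨b, ?_⟩
    rw [← hb]
    exact eq_smul_add_tl _
  by_cases hall : ∀ h, tl (ρ h) = 0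
  · exact not_noEigen_of_scalar (fun h => ⟨_, eq_smul_one_of_tl_eq_zero (hall h)⟩) hirr
  push Not at hall
  obtain ⟨h1, hN1⟩ := hall
  obtain ⟨b1, hb1⟩ := hform h1
  have hb1ne : b1 ≠ 0 := by
    rintro rfl
    apply hN1
    rw [zero_smul, add_zero] at hb1
    rw [tl, ← hb1, sub_self]
  obtain ⟨α, β, hαβ⟩ := hsplit h1
  obtain ⟨v, hv, hgv⟩ := exists_eigenvector_of_split hαβ
  -- `v` is an eigenvector of `w`
  have hwv : w *ᵥ v = ((α - (ρ h1).trace / 2) / b1) • v := by
    rw [hb1, Matrix.add_mulVec, Matrix.smul_mulVec, Matrix.one_mulVec, Matrix.smul_mulVec] at hgv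
    have : b1 • (w *ᵥ v) = (α - (ρ h1).trace / 2) • v := by
      rw [sub_smul, ← hgv]; abel
    calc w *ᵥ v = b1⁻¹ • (b1 • (w *ᵥ v)) := by rw [smul_smul, inv_mul_cancel₀ hb1ne, one_smul]
      _ = _ := by
        rw [this, smul_smul]
        congr 1
        field_simp
  refine hirr v hv ?_
  intro h
  obtain ⟨b, hb⟩ := hform h
  refine ⟨(ρ h).trace / 2 + b * ((α - (ρ h1).trace / 2) / b1), ?_⟩
  conv_lhs => rw [hb]
  rw [Matrix.add_mulVec, Matrix.smul_mulVec, Matrix.one_mulVec, Matrix.smul_mulVec, hwv, smul_smul,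
    add_smul]

include h2 hirr hsplit hw0 hwtr hsemi in
/-- (D2) an anticommuting element is traceless, regular semisimple, and orthogonal to `w` -/
theorem anti_props {h0 : H} (ha : ρ h0 * w = -(w * ρ h0)) :
    (ρ h0).trace = 0 ∧ IsRss (ρ h0) ∧ (ρ h0 * w).trace = 0 := by
  have hdet := det_ne_zero_of_semi hirr hw0 hwtr hsemi
  have hww : w * w = (-w.det) • (1 : M2) := sq_of_trace_zero w hwtr
  have hne : -w.det ≠ 0 := neg_ne_zero.mpr hdet
  have htr : (ρ h0).trace = 0 := by
    have e1 : ρ h0 * w * w = -(w * ρ h0 * w) := by rw [ha, neg_mul]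
    rw [mul_assoc, hww, Matrix.mul_smul, mul_one] at e1
    have e2 := congrArg Matrix.trace e1
    rw [trace_smul, trace_neg, mul_assoc, trace_mul_comm, mul_assoc, hww, Matrix.mul_smul,
      mul_one, trace_smul, smul_eq_mul] at e2
    have : (-w.det) * ((2 : k) * (ρ h0).trace) = 0 := by linear_combination e2
    exact (mul_eq_zero.mp ((mul_eq_zero.mp this).resolve_left hne)).resolve_left h2
  have htw : (ρ h0 * w).trace = 0 := by
    have e := congrArg Matrix.trace ha
    rw [trace_neg, trace_mul_comm w] at e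
    have : (2 : k) * (ρ h0 * w).trace = 0 := by linear_combination e
    exact (mul_eq_zero.mp this).resolve_left h2
  refine ⟨htr, ?_, htw⟩
  refine isRss_of_split_of_disc_ne_zero (hsplit h0) ?_
  rw [disc, htr]
  have h4 : (4 : k) ≠ 0 := by
    have : (4 : k) = 2 * 2 := by norm_num
    rw [this]; exact mul_ne_zero h2 h2
  have := det_map_ne_zero (ρ := ρ) h0
  intro h
  apply mul_ne_zero h4 this
  linear_combination -h

include h2 hirr hsplit hw0 hwtr hsemi in
/-- (D1) some regular semisimple element commutes with `w` -/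
theorem exists_comm_rss : ∃ h1, ρ h1 * w = w * ρ h1 ∧ IsRss (ρ h1) := by
  have hdet := det_ne_zero_of_semi hirr hw0 hwtr hsemi
  obtain ⟨h0, ha0⟩ := exists_anti h2 hirr hsplit hw0 hwtr hsemi
  by_contra hno
  push Not at hno
  -- commuting elements are scalar
  have hscal : ∀ h, ρ h * w = w * ρ h → tl (ρ h) = 0 := by
    intro h hc
    have hc' : tl (ρ h) * w = w * tl (ρ h) := by
      rw [tl, sub_mul, mul_sub, hc, Matrix.smul_mul, Matrix.mul_smul, one_mul, mul_one]
    obtain ⟨b, hb⟩ := eq_smul_of_commute_of_trace_zero h2 (trace_tl h2 (ρ h)) hwtr hc' hdet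
    by_contra hne
    have hb0 : b ≠ 0 := by
      rintro rfl
      rw [zero_smul] at hb
      exact hne hb
    apply hno h hc
    refine isRss_of_split_of_disc_ne_zero (hsplit h) ?_
    have h4 : (4 : k) ≠ 0 := by
      have : (4 : k) = 2 * 2 := by norm_num
      rw [this]; exact mul_ne_zero h2 h2
    have e := det_tl h2 (ρ h)
    rw [hb, det_smul, Fintype.card_fin] at e
    intro hd
    rw [hd, neg_zero, zero_div] at e
    exact mul_ne_zero (pow_ne_zero 2 hb0) hdet e
  obtain ⟨α, β, hαβ⟩ := hsplit h0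
  obtain ⟨v, hv, hgv⟩ := exists_eigenvector_of_split hαβ
  have hinv : ρ h0⁻¹ * w = -(w * ρ h0⁻¹) := by
    have e : ρ h0⁻¹ * (ρ h0 * w) * ρ h0⁻¹ = ρ h0⁻¹ * (-(w * ρ h0)) * ρ h0⁻¹ := by rw [ha0]
    rw [← mul_assoc, map_inv_mul_map, one_mul, mul_neg, neg_mul, mul_assoc, mul_assoc,
      map_mul_map_inv, mul_one] at e
    rw [e, neg_neg]
  refine hirr v hv ?_
  intro h
  rcases comm_or_anti hirr hw0 hwtr hsemi h with hc | hanti
  · refine ⟨(ρ h).trace / 2, ?_⟩
    conv_lhs => rw [eq_smul_one_of_tl_eq_zero (hscal h hc)]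
    rw [Matrix.smul_mulVec, Matrix.one_mulVec]
  · have hc : ρ (h0⁻¹ * h) * w = w * ρ (h0⁻¹ * h) := by
      rw [map_mul, mul_assoc, hanti, mul_neg, ← mul_assoc, hinv, neg_mul, neg_neg, mul_assoc]
    have hs := eq_smul_one_of_tl_eq_zero (hscal _ hc)
    have hg : ρ h = ρ h0 * ρ (h0⁻¹ * h) := by
      rw [← map_mul, mul_inv_cancel_left]
    refine ⟨(ρ (h0⁻¹ * h)).trace / 2 * α, ?_⟩
    conv_lhs => rw [hg, hs]
    rw [Matrix.mul_smul, mul_one, Matrix.smul_mulVec, hgv, smul_smul]

end Dihedral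


/-- **the choice of `σ₀`**: a regular semisimple element fixing a nonzero vector of a stable
subspace of the traceless matrices -/
theorem exists_isRss_commute (h2 : (2 : k) ≠ 0) (hirr : NoEigen ρ) (hsplit : ∀ h, IsSplit (ρ h))
    (W : Submodule k (Matrix (Fin 2) (Fin 2) k)) (hW0 : W ≠ ⊥) (hWtr : ∀ f ∈ W, f.trace = 0)
    (hWstab : ∀ h, ∀ f ∈ W, ρ h * f * ρ h⁻¹ ∈ W) :
    ∃ h : H, IsRss (ρ h) ∧ ∃ f ∈ W, f ≠ 0 ∧ ρ h * f = f * ρ h := by
  by_cases hcomm : ∀ x ∈ W, ∀ y ∈ W, x * y = y * x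
  · -- `W` is commutative: any nonzero element is semi-invariant
    obtain ⟨w, hwW, hw0⟩ := Submodule.exists_mem_ne_zero_of_ne_bot hW0
    have hsemi : ∀ h, ∃ η : k, ρ h * w * ρ h⁻¹ = η • w := fun h =>
      eq_smul_of_commute_of_trace_zero' h2 (hWtr _ (hWstab h w hwW)) (hWtr w hwW)
        (hcomm _ (hWstab h w hwW) _ hwW) hw0
    obtain ⟨h1, hc1, hr1⟩ := exists_comm_rss h2 hirr hsplit hw0 (hWtr w hwW) hsemi
    exact ⟨h1, hr1, w, hwW, hw0, hc1⟩
  push Not at hcomm
  obtain ⟨x, hxW, y, hyW, hxy⟩ := hcomm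
  set w := x * y - y * x with hw
  have hw0 : w ≠ 0 := sub_ne_zero.mpr hxy
  have hwtr : w.trace = 0 := by rw [hw, trace_sub, trace_mul_comm, sub_self]
  have hxtr := hWtr x hxW
  have hytr := hWtr y hyW
  by_cases hperp : ∀ z ∈ W, (z * w).trace = 0
  swap
  · -- `W` is everything
    push Not at hperp
    obtain ⟨z, hzW, hz⟩ := hperp
    obtain ⟨h, hr⟩ := exists_isRss h2 hirr hsplit
    refine ⟨h, hr, tl (ρ h), ?_, ?_, commute_tl _⟩
    · have hc := cramer_sl2 x y z (tl (ρ h)) hxtr hytr (hWtr z hzW) (trace_tl h2 _)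
      rw [← hw] at hc
      have hmem : (z * w).trace • tl (ρ h) ∈ W := by
        rw [hc]
        exact W.add_mem (W.add_mem (W.smul_mem _ hxW) (W.smul_mem _ hyW)) (W.smul_mem _ hzW)
      have := W.smul_mem ((z * w).trace)⁻¹ hmem
      rwa [smul_smul, inv_mul_cancel₀ hz, one_smul] at this
    · intro h0
      have := tl_mul_self h2 (ρ h)
      rw [h0, mul_zero] at this
      have h00 := congrFun (congrFun this 0) 0
      simp only [Matrix.zero_apply, Matrix.smul_apply, Matrix.one_apply_eq, smul_eq_mul,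
        mul_one] at h00
      have h4 : (4 : k) ≠ 0 := by
        have : (4 : k) = 2 * 2 := by norm_num
        rw [this]; exact mul_ne_zero h2 h2
      apply disc_ne_zero_of_isRss hr
      field_simp at h00
      rw [zero_mul] at h00
      exact h00.symm
  -- `w` is semi-invariant
  have hsemi : ∀ h, ∃ η : k, ρ h * w * ρ h⁻¹ = η • w := by
    intro h
    set x' := ρ h * x * ρ h⁻¹ with hx'
    set y' := ρ h * y * ρ h⁻¹ with hy'
    have hx'W : x' ∈ W := hWstab h x hxW
    have hy'W : y' ∈ W := hWstab h y hyW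
    have hconj : ρ h * w * ρ h⁻¹ = x' * y' - y' * x' := by
      rw [hw, hx', hy']
      have e1 : ρ h * x * ρ h⁻¹ * (ρ h * y * ρ h⁻¹) = ρ h * (x * y) * ρ h⁻¹ := by
        rw [mul_assoc (ρ h * x), ← mul_assoc (ρ h⁻¹), ← mul_assoc (ρ h⁻¹), map_inv_mul_map,
          one_mul]
        simp only [mul_assoc]
      have e2 : ρ h * y * ρ h⁻¹ * (ρ h * x * ρ h⁻¹) = ρ h * (y * x) * ρ h⁻¹ := by
        rw [mul_assoc (ρ h * y), ← mul_assoc (ρ h⁻¹), ← mul_assoc (ρ h⁻¹), map_inv_mul_map,
          one_mul]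
        simp only [mul_assoc]
      rw [e1, e2, mul_sub, sub_mul]
    have hb := bac_cab_sl2 w x' y' hwtr (hWtr _ hx'W) (hWtr _ hy'W)
    have p1 : (w * x').trace = 0 := by rw [trace_mul_comm]; exact hperp _ hx'W
    have p2 : (w * y').trace = 0 := by rw [trace_mul_comm]; exact hperp _ hy'W
    rw [p1, p2, zero_smul, zero_smul, sub_zero, smul_zero, sub_eq_zero] at hb
    rw [hconj]
    refine eq_smul_of_commute_of_trace_zero' h2 ?_ hwtr hb.symm hw0
    rw [trace_sub, trace_mul_comm, sub_self]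
  obtain ⟨h0, ha0⟩ := exists_anti h2 hirr hsplit hw0 hwtr hsemi
  obtain ⟨htr0, hr0, -⟩ := anti_props h2 hirr hsplit hw0 hwtr hsemi ha0
  set g := ρ h0 with hg
  have hgg : g * g = (-g.det) • (1 : M2) := sq_of_trace_zero g htr0
  have hginv : (-g.det) • ρ h0⁻¹ = g := by
    have : g * g * ρ h0⁻¹ = g := by rw [mul_assoc, hg, map_mul_map_inv, mul_one]
    rw [hgg, Matrix.smul_mul, one_mul] at this
    exact this
  by_cases hfix : ∃ f ∈ W, f + g * f * ρ h0⁻¹ ≠ 0
  · obtain ⟨f, hfW, hf⟩ := hfix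
    refine ⟨h0, hr0, f + g * f * ρ h0⁻¹, W.add_mem hfW (hWstab h0 f hfW), hf, ?_⟩
    show g * (f + g * f * ρ h0⁻¹) = (f + g * f * ρ h0⁻¹) * g
    rw [mul_add, add_mul, ← mul_assoc, ← mul_assoc, hgg, Matrix.smul_mul, one_mul,
      Matrix.smul_mul, ← Matrix.mul_smul, hginv, mul_assoc (g * f), hg, map_inv_mul_map, mul_one,
      add_comm]
  · push Not at hfix
    exfalso
    have hneg : ∀ f ∈ W, g * f * ρ h0⁻¹ = -f := fun f hf =>
      (eq_neg_of_add_eq_zero_right (hfix f hf))
    have e1 : g * w * ρ h0⁻¹ = w := by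
      have c1 : g * (x * y) * ρ h0⁻¹ = (g * x * ρ h0⁻¹) * (g * y * ρ h0⁻¹) := by
        rw [mul_assoc (g * x), ← mul_assoc (ρ h0⁻¹), ← mul_assoc (ρ h0⁻¹), hg, map_inv_mul_map,
          one_mul]
        simp only [mul_assoc]
      have c2 : g * (y * x) * ρ h0⁻¹ = (g * y * ρ h0⁻¹) * (g * x * ρ h0⁻¹) := by
        rw [mul_assoc (g * y), ← mul_assoc (ρ h0⁻¹), ← mul_assoc (ρ h0⁻¹), hg, map_inv_mul_map,
          one_mul]
        simp only [mul_assoc]
      rw [hw, mul_sub, sub_mul, c1, c2, hneg x hxW, hneg y hyW, neg_mul_neg, neg_mul_neg]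
    have e2 : g * w * ρ h0⁻¹ = -w := by
      rw [ha0, neg_mul, mul_assoc, hg, map_mul_map_inv, mul_one]
    have : (2 : k) • w = 0 := by
      rw [two_smul]
      nth_rewrite 1 [← e1]
      rw [e2, neg_add_cancel]
    exact hw0 ((smul_eq_zero.mp this).resolve_left h2)


/-- a nonzero traceless matrix commuting with a regular semisimple `ρ h` is not in the image of
`Ad (ρ h) - 1` -/
theorem ne_conj_sub (h2 : (2 : k) ≠ 0) {h : H} (hr : IsRss (ρ h))
    {f : Matrix (Fin 2) (Fin 2) k} (hf0 : f ≠ 0) (hftr : f.trace = 0)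
    (hc : ρ h * f = f * ρ h) (x : Matrix (Fin 2) (Fin 2) k) : f ≠ ρ h * x * ρ h⁻¹ - x := by
  intro hfx
  have h4 : (4 : k) ≠ 0 := by
    have : (4 : k) = 2 * 2 := by norm_num
    rw [this]; exact mul_ne_zero h2 h2
  -- `tr (f f) = 0`
  have hconj : ρ h⁻¹ * f * ρ h = f := by
    rw [mul_assoc, ← hc, ← mul_assoc, map_inv_mul_map, one_mul]
  have htr : (f * f).trace = 0 := by
    nth_rewrite 2 [hfx]
    rw [mul_sub, trace_sub, ← mul_assoc, ← mul_assoc, trace_mul_comm, ← mul_assoc, ← mul_assoc,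
      hconj, sub_self]
  have hdet : f.det = 0 := by
    rw [sq_of_trace_zero f hftr, trace_smul, trace_one, Fintype.card_fin, smul_eq_mul] at htr
    push_cast at htr
    have : (2 : k) * f.det = 0 := by linear_combination -htr
    exact (mul_eq_zero.mp this).resolve_left h2
  -- `f = b • tl (ρ h)`
  have hdtl : (tl (ρ h)).det ≠ 0 := by
    rw [det_tl h2]
    exact div_ne_zero (neg_ne_zero.mpr (disc_ne_zero_of_isRss hr)) h4
  have hc' : f * tl (ρ h) = tl (ρ h) * f := by
    rw [tl, mul_sub, sub_mul, hc, Matrix.smul_mul, Matrix.mul_smul, one_mul, mul_one]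
  obtain ⟨b, hb⟩ := eq_smul_of_commute_of_trace_zero h2 hftr (trace_tl h2 _) hc' hdtl
  have hb0 : b ≠ 0 := by
    rintro rfl
    rw [zero_smul] at hb
    exact hf0 hb
  rw [hb, det_smul, Fintype.card_fin] at hdet
  exact mul_ne_zero (pow_ne_zero 2 hb0) hdtl hdet

end Fermat.Agent.GP.TW.SigmaLemma
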