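import Fermat.Agent.GP.TW.GTGlue
import Fermat.Agent.GP.TW.Grp.Adapter
import Fermat.Prelude.Def_ExtCitation_KummerBridge

/-!
# S56, node [P-TW]: the EXPORT, from the frozen hypotheses (helper55, co-owner of [P-TW])

`tw_export` : under the frozen hypotheses of S56 (`p` odd, `habs`, `hdet`, `hsplit`, `hTW`) and the
ONE remaining group-theoretic binder `GT1 R` (= `H¹(im ρ̄, ad⁰ρ̄(1)) = 0` in function-cocycle form,
helper52 / helper34 / helper38), for every `n` and every finite-dimensional `F`-space `W`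
(`F ⊆ k` any subfield, e.g. `F = 𝔽_p` — the Greenberg–Wiles side is `𝔽_p`-linear) of traceless
finite-level cocycles `G_ℚ → M₂(k)` for the action `X ↦ det ρ̄(σ) • ρ̄(σ) X ρ̄(σ)⁻¹`, none of whose
nonzero members is a coboundary, there are `r = dim_F W` Taylor–Wiles primes `qv i ∉ B₀`,
`qv i ≡ 1 mod p^(n+1)`, with regular semisimple Frobenius (the frozen clauses verbatim), such that no
nonzero `w ∈ W` is locally trivial at all of them.

This is helper1's `TWPrime.exists_tw_primes` / `GTGlue.exists_sigma0` with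
* two fields (`W` over `F`, `ρ̄` over `k`),
* all matrix binders discharged by helper49's `Grp.matrix_hyps` and helper1's `GTGlue.inv_eq_zero`.
Also: `det_eq_cycloChar` (the twist `det ρ̄` IS the frozen `cycloChar p`, for the bridge to
`Rep.dualTwist (cycloChar p)`).
-/

set_option autoImplicit false

open Matrix Polynomial

namespace Fermat.Agent.GP.TW.Export

open Fermat.Agent.GP.TW.SigmaLemma Fermat.Agent.GP.TW.TWPrime Fermat.Agent.GP.TW.GTGlue
open Fermat.Agent.GP.TW.Grp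

local notation "Qb" => AlgebraicClosure ℚ
local notation "GQ" => (AlgebraicClosure ℚ ≃ₐ[ℚ] AlgebraicClosure ℚ)

/-! ### two fields: `W` over `F`, coefficients over `k` -/

section TwoFields

variable {F : Type*} [Field F] {k : Type} [Field k] [Algebra F k]
variable {M : Type} [AddCommGroup M] [Module k M] [Module F M] [IsScalarTower F k M]
variable {W : Type*} [AddCommGroup W] [Module F W]

/-- the members of the family `cz` that are locally trivial at `q`, as an `F`-subspace -/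
def locKerF (act : GQ →* Module.End k M) (cz : W →ₗ[F] (GQ → M)) (q : ℕ) : Submodule F W where
  carrier := {w | ∀ (A : ValuationSubring Qb) (τ : GQ), A.LiesOverPrime q → A.IsFrobeniusAt τ q →
    cz w τ ∈ LinearMap.range (act τ - 1)}
  add_mem' := by
    intro a b ha hb A τ hA hτ
    rw [map_add, Pi.add_apply]
    exact Submodule.add_mem _ (ha A τ hA hτ) (hb A τ hA hτ)
  zero_mem' := by
    intro A τ _ _
    rw [map_zero, Pi.zero_apply]
    exact Submodule.zero_mem _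
  smul_mem' := by
    intro a w hw A τ hA hτ
    rw [map_smul, Pi.smul_apply, ← algebraMap_smul k a (cz w τ)]
    exact Submodule.smul_mem _ _ (hw A τ hA hτ)

theorem mem_locKerF {act : GQ →* Module.End k M} {cz : W →ₗ[F] (GQ → M)} {q : ℕ} {w : W} :
    w ∈ locKerF act cz q ↔ ∀ (A : ValuationSubring Qb) (τ : GQ), A.LiesOverPrime q →
      A.IsFrobeniusAt τ q → cz w τ ∈ LinearMap.range (act τ - 1) := Iff.rfl

variable [FiniteDimensional F W]

/-- helper1's `exists_tw_primes` with `W` over a subfield `F` of `k` -/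
theorem exists_tw_primes_two (ρbar : ResidualGaloisRep k) (p : ℕ) [Fact p.Prime] (n : ℕ)
    (act : GQ →* Module.End k M) (hact : GaloisFactorsThroughFiniteLevel act)
    (cz : W →ₗ[F] (GQ → M)) (hcz : ∀ w, IsCocycle act (cz w))
    (hcl : ∀ w, ∃ L : IntermediateField ℚ Qb, FiniteDimensional ℚ L ∧
      ∀ σ : GQ, (∀ x ∈ L, σ x = x) → cz w σ = 0)
    (hGT : ∀ w : W, w ≠ 0 → ∃ σ₀ : GQ, (∀ ζ : Qb, ζ ^ p ^ (n + 1) = 1 → σ₀ ζ = ζ) ∧
      (∃ α β : k, α ≠ β ∧ LinearMap.charpoly (ρbar.ρ σ₀) = (X - C α) * (X - C β)) ∧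
      cz w σ₀ ∉ LinearMap.range (act σ₀ - 1))
    (B₀ : Finset ℕ) :
    ∃ qv : Fin (Module.finrank F W) → ℕ, Function.Injective qv ∧
      (∀ i, (qv i).Prime ∧ qv i ∉ B₀ ∧ p ^ (n + 1) ∣ qv i - 1) ∧
      (∀ i, ∀ (A : ValuationSubring Qb) (τ : GQ), A.LiesOverPrime (qv i) →
        A.IsFrobeniusAt τ (qv i) →
        ∃ α β : k, α ≠ β ∧ LinearMap.charpoly (ρbar.ρ τ) = (X - C α) * (X - C β)) ∧
      ∀ w : W, (∀ i, w ∈ locKerF act cz (qv i)) → w = 0 := by
  classical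
  set Adm : ℕ → Prop := fun q => q.Prime ∧ p ^ (n + 1) ∣ q - 1 ∧
    ∀ (A : ValuationSubring Qb) (τ : GQ), A.LiesOverPrime q → A.IsFrobeniusAt τ q →
      ∃ α β : k, α ≠ β ∧ LinearMap.charpoly (ρbar.ρ τ) = (X - C α) * (X - C β) with hAdm
  have hsel : ∀ w : W, w ≠ 0 → ∀ B : Finset ℕ, ∃ q : ℕ, q ∉ B ∧ Adm q ∧
      w ∉ locKerF act cz q := by
    intro w hw B
    obtain ⟨σ₀, hcyc, hss, hns⟩ := hGT w hw
    obtain ⟨q, hq, hqB, hdvd, hF⟩ :=
      exists_tw_prime ρbar p n act hact (cz w) (hcz w) (hcl w) σ₀ hcyc hss hns B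
    refine ⟨q, hqB, ⟨hq, hdvd, fun A τ hA hτ => (hF A τ hA hτ).1⟩, fun hmem => ?_⟩
    obtain ⟨A, hA⟩ : ∃ A : ValuationSubring Qb, A.LiesOverPrime q :=
      Fermat.Agent.Common_helper32.exists_liesOverPrime q hq
    obtain ⟨τ, hτ⟩ := Fermat.Agent.Common_helper32.exists_isFrobeniusAt_of_liesOver A q hq hA
    exact (hF A τ hA hτ).2 (hmem A τ hA hτ)
  obtain ⟨qv, hinj, hqv, hbot⟩ :=
    exists_injective_iInf_eq_bot (locKerF act cz) Adm B₀ hsel
  refine ⟨qv, hinj, fun i => ⟨(hqv i).1.1, (hqv i).2, (hqv i).1.2.1⟩,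
    fun i => (hqv i).1.2.2, fun w hw => ?_⟩
  have : w ∈ (⨅ i, locKerF act cz (qv i)) := (Submodule.mem_iInf _).2 hw
  rw [hbot] at this
  exact (Submodule.mem_bot F).1 this

end TwoFields

/-! ### the export -/

section Export

variable {k : Type} [Field k]

local notation "M2" => Matrix (Fin 2) (Fin 2) k

/-- **(GT1)** in function-cocycle form: every traceless cocycle of `G_ℚ` in `ad⁰(det)` that vanishes
on `ker R` is the coboundary of a traceless matrix (`H¹(im ρ̄, ad⁰ρ̄(1)) = 0`) -/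
def GT1 (R : GQ →* M2) : Prop :=
  ∀ c : GQ → M2, (∀ g, (c g).trace = 0) → IsCocycle (adAct R) c →
    (∀ s, R s = 1 → c s = 0) → ∃ m : M2, m.trace = 0 ∧ ∀ g, c g = adAct R g m - m

variable {F : Type*} [Field F] [Algebra F k]
variable {W : Type*} [AddCommGroup W] [Module F W] [FiniteDimensional F W]

/-- **[P-TW] EXPORT.** -/
theorem tw_export (p : ℕ) [Fact p.Prime] (hp2 : p ≠ 2) (ρbar : ResidualGaloisRep k)
    (habs : ρbar.IsAbsolutelyIrreducible)
    (hdet : (GaloisRepAdic.ofResidualGaloisRep ρbar).DetIsCyclotomic p)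
    (hsplit : ∀ σ : GQ, ∃ α β : k, LinearMap.charpoly (ρbar.ρ σ) = (X - C α) * (X - C β))
    (hTW : ∀ (K : Type) [Field K] [Algebra k K] (G : Subgroup GQ), G.index = 2 →
      ∀ V : Submodule K (ρbar.baseChange K).V,
        (∀ σ ∈ G, ∀ x ∈ V, (ρbar.baseChange K).ρ σ x ∈ V) → V = ⊥ ∨ V = ⊤)
    (b : Module.Basis (Fin 2) k ρbar.V) (hGT1 : GT1 (matRep ρbar b))
    (cz : W →ₗ[F] (GQ → M2)) (hcz : ∀ w, IsCocycle (adAct (matRep ρbar b)) (cz w))
    (hctr : ∀ w g, (cz w g).trace = 0)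
    (hcl : ∀ w, ∃ L : IntermediateField ℚ Qb, FiniteDimensional ℚ L ∧
      ∀ σ : GQ, (∀ x ∈ L, σ x = x) → cz w σ = 0)
    (hW : ∀ w : W, w ≠ 0 →
      ¬ ∃ m : M2, m.trace = 0 ∧ ∀ g, cz w g = adAct (matRep ρbar b) g m - m)
    (n : ℕ) (B₀ : Finset ℕ) :
    ∃ qv : Fin (Module.finrank F W) → ℕ, Function.Injective qv ∧
      (∀ i, (qv i).Prime ∧ qv i ∉ B₀ ∧ p ^ (n + 1) ∣ qv i - 1) ∧
      (∀ i, ∀ (A : ValuationSubring Qb) (τ : GQ), A.LiesOverPrime (qv i) →
        A.IsFrobeniusAt τ (qv i) →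
        ∃ α β : k, α ≠ β ∧ LinearMap.charpoly (ρbar.ρ τ) = (X - C α) * (X - C β)) ∧
      ∀ w : W, (∀ i, w ∈ locKerF (adAct (matRep ρbar b)) cz (qv i)) → w = 0 := by
  obtain ⟨h2, -, hL, hQ, hsp, hC, -, -, hd1⟩ := matrix_hyps p hp2 ρbar habs hdet hsplit hTW b
  set R := matRep ρbar b with hR
  have hRb : ∀ σ, LinearMap.toMatrix b b (ρbar.ρ σ) = R σ := fun σ => rfl
  have hinv : ∀ m : M2, m.trace = 0 → (∀ g, adAct R g m = m) → m = 0 :=
    inv_eq_zero (noEigen_of_noStableLine hL) hQ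
  refine exists_tw_primes_two ρbar p n (adAct R) (adAct_finiteLevel ρbar b R hRb) cz hcz hcl ?_ B₀
  intro w hw
  have hp : p.Prime := Fact.out
  have : NeZero (p ^ (n + 1)) := ⟨pow_ne_zero _ hp.ne_zero⟩
  set Γ1 : Subgroup GQ := (Fermat.Agent.DS.P5.cycM (p ^ (n + 1))).ker with hΓ1
  have hfix : ∀ σ ∈ Γ1, ∀ ζ : Qb, ζ ^ p ^ (n + 1) = 1 → σ ζ = ζ := fun σ hσ =>
    fixes_of_cycM_eq_one (MonoidHom.mem_ker.1 hσ)
  have hab : ∀ g h : GQ, g * h * g⁻¹ * h⁻¹ ∈ Γ1 := by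
    intro g h
    rw [hΓ1, MonoidHom.mem_ker, map_mul, map_mul, map_mul, map_inv, map_inv,
      mul_comm (Fermat.Agent.DS.P5.cycM (p ^ (n + 1)) g), mul_inv_cancel_right, mul_inv_cancel]
  obtain ⟨σ₀, hσ₀Γ, ⟨α, β, hne, hcp⟩, hns⟩ :=
    exists_sigma0 (R := R) h2 Γ1 hab (fun σ hσ => hd1 n σ (hfix σ hσ)) (hC Γ1 hab).2 hsp hinv
      hGT1 (cz w) (hctr w) (hcz w) (hW w hw)
  refine ⟨σ₀, hfix σ₀ hσ₀Γ, ⟨α, β, hne, ?_⟩, hns⟩
  rw [← LinearMap.charpoly_toMatrix (ρbar.ρ σ₀) b, hRb, hcp]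

end Export


/-! ### the twist is the frozen cyclotomic character -/

section Cyclo

open ExtCitation

variable {k : Type} [Field k]

/-- the frozen `cycloChar p` is the character of `G_ℚ` on `μ_p` -/
theorem cycloChar_spec' (p : ℕ) [Fact p.Prime] (σ : GQ) (μ : Qb) (hμ : μ ^ p = 1) :
    σ μ = μ ^ ((cycloChar p σ : (ZMod p)ˣ) : ZMod p).val := by
  have hp : p.Prime := Fact.out
  have : NeZero p := ⟨hp.ne_zero⟩
  have hμ0 : μ ≠ 0 := by
    rintro rfl
    rw [zero_pow hp.ne_zero] at hμ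
    exact zero_ne_one hμ
  have hmem : Units.mk0 μ hμ0 ∈ rootsOfUnity p Qb := by
    rw [mem_rootsOfUnity]
    ext
    simpa using hμ
  have := modularCyclotomicCharacter.spec Qb (card_rootsOfUnity_eq_self p) (σ : Qb ≃+* Qb) hmem
  exact this

/-- **`det ρ̄ = cycloChar p`** (in `k`) -/
theorem det_eq_cycloChar (p : ℕ) [Fact p.Prime] (ρbar : ResidualGaloisRep k)
    (hdet : (GaloisRepAdic.ofResidualGaloisRep ρbar).DetIsCyclotomic p)
    (b : Module.Basis (Fin 2) k ρbar.V) (σ : GQ) :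
    (matRep ρbar b σ).det = ((((cycloChar p σ : (ZMod p)ˣ) : ZMod p).val : ℕ) : k) := by
  rw [matRep, det_matOf]
  exact det_eq_natCast_of_hdet p ρbar hdet σ _ (cycloChar_spec' p σ)

/-- the action of `[P-TW]` in terms of the frozen cyclotomic character -/
theorem adAct_eq_cycloChar (p : ℕ) [Fact p.Prime] (ρbar : ResidualGaloisRep k)
    (hdet : (GaloisRepAdic.ofResidualGaloisRep ρbar).DetIsCyclotomic p)
    (b : Module.Basis (Fin 2) k ρbar.V) (σ : GQ) (X : Matrix (Fin 2) (Fin 2) k) :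
    adAct (matRep ρbar b) σ X =
      ((((cycloChar p σ : (ZMod p)ˣ) : ZMod p).val : ℕ) : k) •
        (matRep ρbar b σ * X * matRep ρbar b σ⁻¹) := by
  rw [adAct_apply, det_eq_cycloChar p ρbar hdet b σ]

end Cyclo

end Fermat.Agent.GP.TW.Export
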