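/-
NEXT-GATE / S56 [P-TW] (helper1), key S56-TW-PRIME: **from `σ₀` to a Taylor–Wiles prime**.

Input: a residual representation `ρbar`, a finite-level action `act` of `G_ℚ` on a `k`-module `M`
(e.g. `ad⁰ ρbar (1)`), a finite-level 1-cocycle `c : G_ℚ → M` (a FUNCTION), and `σ₀ ∈ G_ℚ` such that
* `σ₀` fixes the `p^(n+1)`-th roots of unity,
* `ρbar σ₀` has two distinct eigenvalues in `k`,
* `c σ₀ ∉ (σ₀ - 1) M`.
Output: for every finite set `B` of primes a prime `q ∉ B` with `p^(n+1) ∣ q - 1` such that for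
EVERY Frobenius lift `τ` at EVERY place of `ℚ̄` over `q`: `ρbar τ` has two distinct eigenvalues in `k`
and `c τ ∉ (τ - 1) M` (the frozen S56 quantifiers).

Tools: helper24 `ChebExist.exists_prime_forall_frob` (Chebotarev, existence form) and helper69
`DS.P5.cycM` (mod `M` cyclotomic character with its Frobenius values).  The pair `(act, c)` is turned
into ONE monoid hom `affHom : G_ℚ →* Function.End M`, `σ ↦ (x ↦ c σ + act σ x)`.

Also: the abstract selection lemma (`exists_injective_iInf_ker_eq_bot`) choosing `finrank W` primes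
whose "restriction maps" have trivial common kernel on a finite-dimensional space `W`.
-/
import Mathlib
import Fermat.Agent.GP.TW.ChebExist
import Fermat.Agent.DS.P5.CycM

set_option autoImplicit false

open Polynomial
open Fermat.Agent.Common_helper32

namespace Fermat.Agent.GP.TW.TWPrime

/-! ### cocycles as functions -/

section Cocycle

variable {G : Type*} [Group G] {k : Type*} [Field k] {M : Type*} [AddCommGroup M] [Module k M]
variable (act : G →* Module.End k M) (c : G → M)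

/-- `c` is a 1-cocycle for the action `act`. -/
def IsCocycle : Prop := ∀ σ τ : G, c (σ * τ) = c σ + act σ (c τ)

variable {act c}

theorem IsCocycle.map_one (hc : IsCocycle act c) : c 1 = 0 := by
  have h := hc 1 1
  have e : act 1 (c 1) = c 1 := by rw [_root_.map_one act, Module.End.one_apply]
  rw [e] at h
  simp only [mul_one] at h
  have : c 1 + c 1 = c 1 + 0 := by rw [add_zero]; exact h.symm
  exact add_left_cancel this

theorem IsCocycle.map_inv (hc : IsCocycle act c) (g : G) : c g⁻¹ = -act g⁻¹ (c g) := by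
  have h := hc g⁻¹ g
  rw [inv_mul_cancel, hc.map_one] at h
  exact eq_neg_of_add_eq_zero_left h.symm

theorem act_mul_apply (σ τ : G) (x : M) : act (σ * τ) x = act σ (act τ x) := by
  rw [map_mul, Module.End.mul_apply]

theorem act_inv_apply_act (g : G) (x : M) : act g⁻¹ (act g x) = x := by
  rw [← act_mul_apply, inv_mul_cancel, map_one, Module.End.one_apply]

theorem act_apply_act_inv (g : G) (x : M) : act g (act g⁻¹ x) = x := by
  rw [← act_mul_apply, mul_inv_cancel, map_one, Module.End.one_apply]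

/-- The value of a cocycle on a conjugate. -/
theorem IsCocycle.conj (hc : IsCocycle act c) (g σ : G) :
    c (g * σ * g⁻¹) = act g (c σ) + (c g - act (g * σ * g⁻¹) (c g)) := by
  rw [hc (g * σ) g⁻¹, hc g σ, hc.map_inv g, map_neg]
  have : act (g * σ) (act g⁻¹ (c g)) = act (g * σ * g⁻¹) (c g) := by
    rw [← act_mul_apply]
  rw [this]
  abel

/-- `(gσg⁻¹ - 1) M = g (σ - 1) M`. -/
theorem mem_range_conj_iff (g σ : G) (x : M) :
    act g x ∈ LinearMap.range (act (g * σ * g⁻¹) - 1) ↔ x ∈ LinearMap.range (act σ - 1) := by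
  constructor
  · rintro ⟨y, hy⟩
    refine ⟨act g⁻¹ y, ?_⟩
    rw [LinearMap.sub_apply, Module.End.one_apply] at hy ⊢
    have h1 : act g⁻¹ (act (g * σ * g⁻¹) y) = act σ (act g⁻¹ y) := by
      rw [← act_mul_apply, ← act_mul_apply]
      congr 2
      group
    have h2 : act g⁻¹ (act (g * σ * g⁻¹) y - y) = act g⁻¹ (act g x) := by rw [hy]
    rw [map_sub, h1, act_inv_apply_act] at h2
    exact h2
  · rintro ⟨y, hy⟩
    refine ⟨act g y, ?_⟩
    rw [LinearMap.sub_apply, Module.End.one_apply] at hy ⊢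
    have h1 : act (g * σ * g⁻¹) (act g y) = act g (act σ y) := by
      rw [← act_mul_apply, ← act_mul_apply]
      congr 2
      group
    rw [h1, ← map_sub, hy]

/-- The condition `c σ ∉ (σ - 1) M` is invariant under conjugation. -/
theorem IsCocycle.not_mem_range_conj (hc : IsCocycle act c) (g σ : G)
    (h : c σ ∉ LinearMap.range (act σ - 1)) :
    c (g * σ * g⁻¹) ∉ LinearMap.range (act (g * σ * g⁻¹) - 1) := by
  intro hmem
  apply h
  rw [← mem_range_conj_iff (act := act) g σ]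
  rw [hc.conj g σ] at hmem
  have h2 : c g - act (g * σ * g⁻¹) (c g) ∈ LinearMap.range (act (g * σ * g⁻¹) - 1) := by
    refine ⟨-c g, ?_⟩
    rw [LinearMap.sub_apply, Module.End.one_apply, map_neg]
    abel
  have := Submodule.sub_mem _ hmem h2
  rwa [add_sub_cancel_right] at this

/-- The affine-map monoid homomorphism `σ ↦ (x ↦ c σ + act σ x)` attached to a cocycle. -/
def affHom (hc : IsCocycle act c) : G →* Function.End M where
  toFun σ := fun x => c σ + act σ x
  map_one' := by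
    funext x
    rw [hc.map_one, map_one, Module.End.one_apply, zero_add]
    rfl
  map_mul' σ τ := by
    funext x
    show c (σ * τ) + act (σ * τ) x = c σ + act σ (c τ + act τ x)
    rw [hc σ τ, map_add, act_mul_apply]
    abel

theorem affHom_apply (hc : IsCocycle act c) (σ : G) (x : M) : affHom hc σ x = c σ + act σ x := rfl

theorem affHom_eq_iff (hc : IsCocycle act c) (σ τ : G) :
    affHom hc σ = affHom hc τ ↔ c σ = c τ ∧ act σ = act τ := by
  constructor
  · intro h
    have h0 : c σ = c τ := by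
      have := congrFun h 0
      simpa [affHom_apply] using this
    refine ⟨h0, LinearMap.ext fun x => ?_⟩
    have := congrFun h x
    rw [affHom_apply, affHom_apply, h0] at this
    exact add_left_cancel this
  · rintro ⟨h1, h2⟩
    funext x
    rw [affHom_apply, affHom_apply, h1, h2]

end Cocycle

/-! ### the Taylor–Wiles prime -/

section Main

variable {k : Type} [Field k] {M : Type} [AddCommGroup M] [Module k M]

/-- Finite level of the affine hom: the action is finite-level and the cocycle vanishes on the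
automorphisms fixing a finite extension. -/
theorem affHom_finiteLevel {act : GQ →* Module.End k M} {c : GQ → M} (hc : IsCocycle act c)
    (hact : GaloisFactorsThroughFiniteLevel act)
    (hcl : ∃ L : IntermediateField ℚ Qb, FiniteDimensional ℚ L ∧
      ∀ σ : GQ, (∀ x ∈ L, σ x = x) → c σ = 0) :
    GaloisFactorsThroughFiniteLevel (affHom hc) := by
  obtain ⟨L₁, hL₁, h1⟩ := hact
  obtain ⟨L₂, hL₂, h2⟩ := hcl
  refine ⟨L₁ ⊔ L₂, inferInstance, fun σ hσ => ?_⟩
  have e1 : act σ = 1 := h1 σ fun x hx => hσ x ((le_sup_left : L₁ ≤ L₁ ⊔ L₂) hx)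
  have e2 : c σ = 0 := h2 σ fun x hx => hσ x ((le_sup_right : L₂ ≤ L₁ ⊔ L₂) hx)
  funext x
  rw [affHom_apply, e1, e2, zero_add, Module.End.one_apply]
  rfl

/-- `p^m ∣ q - 1` for a prime `q ≠ p` having a Frobenius lift on which the mod `p^m` cyclotomic
character is trivial. -/
theorem dvd_sub_one_of_cycM_eq_one {p m q : ℕ} [Fact p.Prime] (hq : q.Prime) (hqp : q ≠ p)
    {A : ValuationSubring Qb} (hA : A.LiesOverPrime q) {τ : GQ} (hτ : A.IsFrobeniusAt τ q)
    (h1 : Fermat.Agent.DS.P5.cycM (p ^ m) τ = 1) : p ^ m ∣ q - 1 := by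
  have hp : p.Prime := Fact.out
  have hqM : ¬ q ∣ p ^ m := by
    intro hd
    exact hqp ((Nat.prime_dvd_prime_iff_eq hq hp).1 (hq.dvd_of_dvd_pow hd))
  have h2 := Fermat.Agent.DS.P5.cycM_frob (M := p ^ m) hq hqM hA hτ
  rw [h1, Units.val_one] at h2
  have h3 : ((1 : ℕ) : ZMod (p ^ m)) = (q : ZMod (p ^ m)) := by rw [Nat.cast_one]; exact h2
  have h4 := (ZMod.natCast_eq_natCast_iff 1 q (p ^ m)).1 h3
  exact (Nat.modEq_iff_dvd' hq.one_lt.le).1 h4

/-- Conjugation invariance of the "two distinct eigenvalues in `k`" condition. -/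
theorem split_conj (ρbar : ResidualGaloisRep k) (g σ : GQ)
    (h : ∃ α β : k, α ≠ β ∧ LinearMap.charpoly (ρbar.ρ σ) = (X - C α) * (X - C β)) :
    ∃ α β : k, α ≠ β ∧ LinearMap.charpoly (ρbar.ρ (g * σ * g⁻¹)) = (X - C α) * (X - C β) := by
  obtain ⟨α, β, hne, hcp⟩ := h
  refine ⟨α, β, hne, ?_⟩
  have hinv1 : ρbar.ρ g * ρbar.ρ g⁻¹ = 1 := by rw [← map_mul, mul_inv_cancel, map_one]
  have hinv2 : ρbar.ρ g⁻¹ * ρbar.ρ g = 1 := by rw [← map_mul, inv_mul_cancel, map_one]
  let e : ρbar.V ≃ₗ[k] ρbar.V := LinearEquiv.ofLinearMap (ρbar.ρ g) (ρbar.ρ g⁻¹) hinv1 hinv2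
  have hconj : ρbar.ρ (g * σ * g⁻¹) = e.conj (ρbar.ρ σ) := by
    rw [map_mul, map_mul]
    ext x
    simp [e, LinearEquiv.conj_apply, Module.End.mul_apply]
  rw [hconj, LinearEquiv.charpoly_conj, hcp]

/-- **From `σ₀` to a Taylor–Wiles prime.** -/
theorem exists_tw_prime (ρbar : ResidualGaloisRep k) (p : ℕ) [Fact p.Prime] (n : ℕ)
    (act : GQ →* Module.End k M) (hact : GaloisFactorsThroughFiniteLevel act)
    (c : GQ → M) (hc : IsCocycle act c)
    (hcl : ∃ L : IntermediateField ℚ Qb, FiniteDimensional ℚ L ∧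
      ∀ σ : GQ, (∀ x ∈ L, σ x = x) → c σ = 0)
    (σ₀ : GQ) (hcyc : ∀ ζ : Qb, ζ ^ p ^ (n + 1) = 1 → σ₀ ζ = ζ)
    (hss : ∃ α β : k, α ≠ β ∧ LinearMap.charpoly (ρbar.ρ σ₀) = (X - C α) * (X - C β))
    (hns : c σ₀ ∉ LinearMap.range (act σ₀ - 1)) (B : Finset ℕ) :
    ∃ q : ℕ, q.Prime ∧ q ∉ B ∧ p ^ (n + 1) ∣ q - 1 ∧
      ∀ (A : ValuationSubring Qb) (τ : GQ), A.LiesOverPrime q → A.IsFrobeniusAt τ q →
        (∃ α β : k, α ≠ β ∧ LinearMap.charpoly (ρbar.ρ τ) = (X - C α) * (X - C β)) ∧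
          c τ ∉ LinearMap.range (act τ - 1) := by
  classical
  have hp : p.Prime := Fact.out
  have : NeZero (p ^ (n + 1)) := ⟨pow_ne_zero _ hp.ne_zero⟩
  -- bundle everything into one finite-level hom
  set ρtot : GQ →* (Module.End k ρbar.V × (ZMod (p ^ (n + 1)))ˣ) × Function.End M :=
    (ρbar.ρ.prod (Fermat.Agent.DS.P5.cycM (p ^ (n + 1)))).prod (affHom hc) with hρtot
  have hfl : GaloisFactorsThroughFiniteLevel ρtot :=
    ChebExist.factorsThroughFiniteLevel_prod _ _
      (ChebExist.factorsThroughFiniteLevel_prod _ _ ρbar.factorsThroughFiniteLevel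
        (Fermat.Agent.DS.P5.cycM_finiteLevel (p ^ (n + 1))))
      (affHom_finiteLevel hc hact hcl)
  obtain ⟨q, hq, hqB, hF⟩ := ChebExist.exists_prime_forall_frob ρtot hfl σ₀ (insert p B)
  rw [Finset.mem_insert, not_or] at hqB
  have hcyc1 : Fermat.Agent.DS.P5.cycM (p ^ (n + 1)) σ₀ = 1 :=
    Fermat.Agent.DS.P5.cycM_eq_one_of_forall σ₀ hcyc
  have key : ∀ (A : ValuationSubring Qb) (τ : GQ), A.LiesOverPrime q → A.IsFrobeniusAt τ q →
      ∃ g : GQ, ρbar.ρ τ = ρbar.ρ (g * σ₀ * g⁻¹) ∧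
        Fermat.Agent.DS.P5.cycM (p ^ (n + 1)) τ = 1 ∧ c τ = c (g * σ₀ * g⁻¹) ∧
        act τ = act (g * σ₀ * g⁻¹) := by
    intro A τ hA hτ
    obtain ⟨g, hg⟩ := hF A τ hA hτ
    rw [hρtot, MonoidHom.prod_apply, MonoidHom.prod_apply, MonoidHom.prod_apply,
      MonoidHom.prod_apply, Prod.mk.injEq, Prod.mk.injEq] at hg
    obtain ⟨⟨h1, h2⟩, h3⟩ := hg
    obtain ⟨h4, h5⟩ := (affHom_eq_iff hc _ _).1 h3
    refine ⟨g, h1, ?_, h4, h5⟩
    rw [h2, map_mul, map_mul, hcyc1, mul_one, map_inv, mul_inv_cancel]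
  refine ⟨q, hq, hqB.2, ?_, fun A τ hA hτ => ?_⟩
  · -- `p^(n+1) ∣ q - 1`: use any place over `q` and any Frobenius lift there
    obtain ⟨A, hA⟩ : ∃ A : ValuationSubring Qb, A.LiesOverPrime q :=
      Fermat.Agent.Common_helper32.exists_liesOverPrime q hq
    obtain ⟨τ, hτ⟩ := Fermat.Agent.Common_helper32.exists_isFrobeniusAt_of_liesOver A q hq hA
    obtain ⟨g, -, h2, -, -⟩ := key A τ hA hτ
    exact dvd_sub_one_of_cycM_eq_one hq hqB.1 hA hτ h2
  · obtain ⟨g, h1, -, h3, h4⟩ := key A τ hA hτ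
    refine ⟨?_, ?_⟩
    · rw [h1]
      exact split_conj ρbar g σ₀ hss
    · rw [h3, h4]
      exact hc.not_mem_range_conj g σ₀ hns

end Main

/-! ### the selection lemma -/

section Select

variable {k : Type*} [Field k] {W : Type*} [AddCommGroup W] [Module k W] [FiniteDimensional k W]

/-- Finset form of the selection lemma. -/
theorem exists_finset_iInf_eq_bot (K : ℕ → Submodule k W) (Adm : ℕ → Prop) (B₀ : Finset ℕ)
    (h : ∀ w : W, w ≠ 0 → ∀ B : Finset ℕ, ∃ q : ℕ, q ∉ B ∧ Adm q ∧ w ∉ K q) :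
    ∃ Q : Finset ℕ, Q.card = Module.finrank k W ∧ (∀ q ∈ Q, Adm q ∧ q ∉ B₀) ∧
      (⨅ q ∈ Q, K q) = ⊥ := by
  classical
  have step : ∀ d : ℕ, d ≤ Module.finrank k W → ∃ Q : Finset ℕ, Q.card = d ∧
      (∀ q ∈ Q, Adm q ∧ q ∉ B₀) ∧
      Module.finrank k ↥(⨅ q ∈ Q, K q) + d ≤ Module.finrank k W := by
    intro d
    induction d with
    | zero =>
      intro _
      refine ⟨∅, rfl, fun q hq => absurd hq (Finset.notMem_empty q), ?_⟩
      rw [add_zero]
      exact Submodule.finrank_le _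
    | succ d ih =>
      intro hd
      obtain ⟨Q, hcard, hQ, hrank⟩ := ih (Nat.le_of_succ_le hd)
      set U : Submodule k W := ⨅ q ∈ Q, K q with hU
      -- a nonzero vector to separate
      obtain ⟨w, hwU, hw0⟩ : ∃ w : W, (U ≠ ⊥ → w ∈ U) ∧ w ≠ 0 := by
        by_cases hUb : U = ⊥
        · have hpos : 0 < Module.finrank k W := lt_of_le_of_lt (Nat.zero_le d) hd
          have : Nontrivial W := Module.finrank_pos_iff.1 hpos
          obtain ⟨w, hw⟩ := exists_ne (0 : W)
          exact ⟨w, fun h => absurd hUb h, hw⟩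
        · obtain ⟨w, hw, hw0⟩ := (Submodule.ne_bot_iff U).1 hUb
          exact ⟨w, fun _ => hw, hw0⟩
      obtain ⟨q, hqB, hqA, hwq⟩ := h w hw0 (Q ∪ B₀)
      rw [Finset.mem_union, not_or] at hqB
      refine ⟨insert q Q, ?_, ?_, ?_⟩
      · rw [Finset.card_insert_of_notMem hqB.1, hcard]
      · intro q' hq'
        rcases Finset.mem_insert.1 hq' with rfl | hq'
        · exact ⟨hqA, hqB.2⟩
        · exact hQ q' hq'
      · rw [Finset.iInf_insert]
        by_cases hUb : U = ⊥
        · have : K q ⊓ U = ⊥ := by rw [hUb, inf_bot_eq]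
          rw [← hU, this, finrank_bot]
          omega
        · have hlt : K q ⊓ U < U := by
            refine lt_of_le_of_ne inf_le_right fun heq => hwq ?_
            have : w ∈ K q ⊓ U := by rw [heq]; exact hwU hUb
            exact this.1
          have := Submodule.finrank_lt_finrank_of_lt hlt
          rw [← hU]
          omega
  obtain ⟨Q, hcard, hQ, hrank⟩ := step (Module.finrank k W) le_rfl
  refine ⟨Q, hcard, hQ, ?_⟩
  have h0 : Module.finrank k ↥(⨅ q ∈ Q, K q) = 0 := by omega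
  exact Submodule.finrank_eq_zero.1 h0

/-- **Selection lemma** (killing the dual Selmer group): if every nonzero `w ∈ W` is detected
(`w ∉ K q`) by an admissible prime `q` outside any given finite set, then there are
`r = finrank W` distinct admissible primes `qv 0, …, qv (r-1)` outside `B₀` whose kernels `K (qv i)`
have trivial intersection. -/
theorem exists_injective_iInf_eq_bot (K : ℕ → Submodule k W) (Adm : ℕ → Prop) (B₀ : Finset ℕ)
    (h : ∀ w : W, w ≠ 0 → ∀ B : Finset ℕ, ∃ q : ℕ, q ∉ B ∧ Adm q ∧ w ∉ K q) :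
    ∃ qv : Fin (Module.finrank k W) → ℕ, Function.Injective qv ∧
      (∀ i, Adm (qv i) ∧ qv i ∉ B₀) ∧ (⨅ i, K (qv i)) = ⊥ := by
  classical
  obtain ⟨Q, hcard, hQ, hbot⟩ := exists_finset_iInf_eq_bot K Adm B₀ h
  let e : Fin (Module.finrank k W) ≃ ↥Q := (Q.equivFinOfCardEq hcard).symm
  refine ⟨fun i => (e i : ℕ), fun i j hij => e.injective (Subtype.ext hij),
    fun i => hQ _ (e i).2, ?_⟩
  rw [eq_bot_iff, ← hbot]
  refine le_iInf fun q => le_iInf fun hq => ?_
  have : (e (e.symm ⟨q, hq⟩) : ℕ) = q := by rw [Equiv.apply_symm_apply]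
  exact (iInf_le (fun i => K (e i : ℕ)) (e.symm ⟨q, hq⟩)).trans (le_of_eq (by rw [this]))

end Select

/-! ### `r` Taylor–Wiles primes killing an `r`-dimensional space of cocycles -/

section Primes

variable {k : Type} [Field k] {M : Type} [AddCommGroup M] [Module k M]
variable {W : Type*} [AddCommGroup W] [Module k W] [FiniteDimensional k W]

/-- The cocycles of the family `cz` that are "locally trivial at `q`": their value at EVERY Frobenius
lift `τ` at EVERY place over `q` lies in `(τ - 1) M`. -/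
def locKer (act : GQ →* Module.End k M) (cz : W →ₗ[k] (GQ → M)) (q : ℕ) : Submodule k W where
  carrier := {w | ∀ (A : ValuationSubring Qb) (τ : GQ), A.LiesOverPrime q → A.IsFrobeniusAt τ q →
    cz w τ ∈ LinearMap.range (act τ - 1)}
  add_mem' := by
    intro a b ha hb A τ hA hτ
    rw [map_add, Pi.add_apply]
    exact Submodule.add_mem _ (ha A τ hA hτ) (hb A τ hA hτ)
  zero_mem' := by
    intro A τ _ _
    rw [map_zero, Pi.zero_apply]
    exact Submodule.zero_mem _
  smul_mem' := by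
    intro a w hw A τ hA hτ
    rw [map_smul, Pi.smul_apply]
    exact Submodule.smul_mem _ a (hw A τ hA hτ)

omit [FiniteDimensional k W] in
theorem mem_locKer {act : GQ →* Module.End k M} {cz : W →ₗ[k] (GQ → M)} {q : ℕ} {w : W} :
    w ∈ locKer act cz q ↔ ∀ (A : ValuationSubring Qb) (τ : GQ), A.LiesOverPrime q →
      A.IsFrobeniusAt τ q → cz w τ ∈ LinearMap.range (act τ - 1) := Iff.rfl

/-- **[P-TW], assembled modulo group theory**: let `cz` be a `k`-linear family of finite-level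
cocycles parametrised by a finite-dimensional `W` (the dual Selmer group).  Assume (GT) every
nonzero `w` admits `σ₀` fixing `μ_{p^(n+1)}`, with `ρbar σ₀` regular semisimple over `k` and
`cz w σ₀ ∉ (σ₀ - 1) M`.  Then there are `r = finrank W` distinct primes `qv i ∉ B₀`,
`qv i ≡ 1 mod p^(n+1)`, with regular semisimple Frobenius, such that no nonzero `w` is locally trivial
at all of them. -/
theorem exists_tw_primes (ρbar : ResidualGaloisRep k) (p : ℕ) [Fact p.Prime] (n : ℕ)
    (act : GQ →* Module.End k M) (hact : GaloisFactorsThroughFiniteLevel act)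
    (cz : W →ₗ[k] (GQ → M)) (hcz : ∀ w, IsCocycle act (cz w))
    (hcl : ∀ w, ∃ L : IntermediateField ℚ Qb, FiniteDimensional ℚ L ∧
      ∀ σ : GQ, (∀ x ∈ L, σ x = x) → cz w σ = 0)
    (hGT : ∀ w : W, w ≠ 0 → ∃ σ₀ : GQ, (∀ ζ : Qb, ζ ^ p ^ (n + 1) = 1 → σ₀ ζ = ζ) ∧
      (∃ α β : k, α ≠ β ∧ LinearMap.charpoly (ρbar.ρ σ₀) = (X - C α) * (X - C β)) ∧
      cz w σ₀ ∉ LinearMap.range (act σ₀ - 1))
    (B₀ : Finset ℕ) :
    ∃ qv : Fin (Module.finrank k W) → ℕ, Function.Injective qv ∧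
      (∀ i, (qv i).Prime ∧ qv i ∉ B₀ ∧ p ^ (n + 1) ∣ qv i - 1) ∧
      (∀ i, ∀ (A : ValuationSubring Qb) (τ : GQ), A.LiesOverPrime (qv i) →
        A.IsFrobeniusAt τ (qv i) →
        ∃ α β : k, α ≠ β ∧ LinearMap.charpoly (ρbar.ρ τ) = (X - C α) * (X - C β)) ∧
      ∀ w : W, (∀ i, w ∈ locKer act cz (qv i)) → w = 0 := by
  classical
  set Adm : ℕ → Prop := fun q => q.Prime ∧ p ^ (n + 1) ∣ q - 1 ∧
    ∀ (A : ValuationSubring Qb) (τ : GQ), A.LiesOverPrime q → A.IsFrobeniusAt τ q →
      ∃ α β : k, α ≠ β ∧ LinearMap.charpoly (ρbar.ρ τ) = (X - C α) * (X - C β) with hAdm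
  have hsel : ∀ w : W, w ≠ 0 → ∀ B : Finset ℕ, ∃ q : ℕ, q ∉ B ∧ Adm q ∧
      w ∉ locKer act cz q := by
    intro w hw B
    obtain ⟨σ₀, hcyc, hss, hns⟩ := hGT w hw
    obtain ⟨q, hq, hqB, hdvd, hF⟩ :=
      exists_tw_prime ρbar p n act hact (cz w) (hcz w) (hcl w) σ₀ hcyc hss hns B
    refine ⟨q, hqB, ⟨hq, hdvd, fun A τ hA hτ => (hF A τ hA hτ).1⟩, fun hmem => ?_⟩
    obtain ⟨A, hA⟩ : ∃ A : ValuationSubring Qb, A.LiesOverPrime q :=
      Fermat.Agent.Common_helper32.exists_liesOverPrime q hq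
    obtain ⟨τ, hτ⟩ := Fermat.Agent.Common_helper32.exists_isFrobeniusAt_of_liesOver A q hq hA
    exact (hF A τ hA hτ).2 (hmem A τ hA hτ)
  obtain ⟨qv, hinj, hqv, hbot⟩ :=
    exists_injective_iInf_eq_bot (locKer act cz) Adm B₀ hsel
  refine ⟨qv, hinj, fun i => ⟨(hqv i).1.1, (hqv i).2, (hqv i).1.2.1⟩,
    fun i => (hqv i).1.2.2, fun w hw => ?_⟩
  have : w ∈ (⨅ i, locKer act cz (qv i)) := (Submodule.mem_iInf _).2 hw
  rw [hbot] at this
  exact (Submodule.mem_bot k).1 this

end Primes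

end Fermat.Agent.GP.TW.TWPrime
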