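/-
GATE-P / S56 [P-TW] (helper1), key S56-TW-GTGLUE: **the glue `GT1 + GT2 ⟹ hGT`**
(Darmon–Diamond–Taylor, proof of Theorem 2.49 / Wiles (3.8)).

Abstract form: `G` a group, `R : G →* M₂(k)` (the matrices of `ρbar`), `2 ≠ 0` in `k`,
`M := M₂(k)` with the twisted adjoint action `adAct R g X = det (R g) • (R g * X * R g⁻¹)`
(`= ad ρbar (1)`; the cocycles are traceless-VALUED functions `G → M₂(k)`, no subtype), and
`Γ₁ ≤ G` with abelian quotient on which `det R = 1` (the fixer of `μ_{p^(n+1)}`).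

* `inv_eq_zero` : `H⁰(G, ad⁰(det)) = 0` from `NoEigen R` (irreducible) and `NoQuadSym R`
  (no invertible traceless `T` with `R g T = ± T R g` for all `g`);
* `exists_sigma0` : if
  (GT1) every traceless cocycle of `G` vanishing on `ker R` is a coboundary,
  (GT2 = helper45 `SigmaLemma`) `R|Γ₁` has no common eigenvector and all `R σ` split over `k`,
  then for every traceless cocycle `c` that is NOT a coboundary there is `σ₀ ∈ Γ₁` with `R σ₀`
  regular semisimple over `k` and `c σ₀ ∉ (σ₀ - 1) M`.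
* `hGT_of_matrix`, `exists_tw_primes_matrix` : the `G_ℚ` versions, ending VERBATIM in the `hGT`
  binder of `TWPrime.exists_tw_primes` resp. in its conclusion.
-/
import Mathlib
import Fermat.Agent.GP.TW.SigmaLemma
import Fermat.Agent.GP.TW.TWPrime

set_option autoImplicit false

open Matrix Polynomial

namespace Fermat.Agent.GP.TW.GTGlue

open Fermat.Agent.GP.TW.SigmaLemma Fermat.Agent.GP.TW.TWPrime

/-! ### the twisted adjoint action -/

section Abstract

variable {k : Type*} [Field k] {G : Type*} [Group G]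

local notation "M2" => Matrix (Fin 2) (Fin 2) k

variable (R : G →* Matrix (Fin 2) (Fin 2) k)

theorem map_mul_inv (g : G) : R g * R g⁻¹ = 1 := by
  rw [← map_mul, mul_inv_cancel, map_one]

theorem map_inv_mul (g : G) : R g⁻¹ * R g = 1 := by
  rw [← map_mul, inv_mul_cancel, map_one]

theorem det_mul_det_inv (g : G) : (R g).det * (R g⁻¹).det = 1 := by
  rw [← det_mul, map_mul_inv, det_one]

/-- the twisted adjoint action `X ↦ det (R g) • (R g * X * R g⁻¹)` of `G` on `M₂(k)`. -/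
def adAct : G →* Module.End k M2 where
  toFun g :=
    { toFun := fun X => (R g).det • (R g * X * R g⁻¹)
      map_add' := fun X Y => by rw [Matrix.mul_add, Matrix.add_mul, smul_add]
      map_smul' := fun a X => by
        rw [Matrix.mul_smul, Matrix.smul_mul, smul_comm, RingHom.id_apply] }
  map_one' := by
    refine LinearMap.ext fun X => ?_
    show (R 1).det • (R 1 * X * R 1⁻¹) = X
    rw [inv_one, map_one, det_one, one_smul, one_mul, mul_one]
  map_mul' g h := by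
    refine LinearMap.ext fun X => ?_
    show (R (g * h)).det • (R (g * h) * X * R (g * h)⁻¹) =
      (R g).det • (R g * ((R h).det • (R h * X * R h⁻¹)) * R g⁻¹)
    rw [_root_.mul_inv_rev, map_mul, map_mul, det_mul, Matrix.mul_smul, Matrix.smul_mul, smul_smul]
    simp only [mul_assoc]

theorem adAct_apply (g : G) (X : M2) : adAct R g X = (R g).det • (R g * X * R g⁻¹) := rfl

theorem map_inv_eq_one {s : G} (hs : R s = 1) : R s⁻¹ = 1 := by
  have := map_inv_mul R s
  rwa [hs, mul_one] at this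

theorem adAct_eq_one {s : G} (hs : R s = 1) : adAct R s = 1 := by
  refine LinearMap.ext fun X => ?_
  rw [adAct_apply, map_inv_eq_one R hs, hs, det_one, one_smul, one_mul, mul_one,
    Module.End.one_apply]

theorem trace_adAct (g : G) (X : M2) : (adAct R g X).trace = (R g).det * X.trace := by
  rw [adAct_apply, trace_smul, smul_eq_mul, trace_mul_comm, ← mul_assoc, map_inv_mul, one_mul]

/-- on elements of determinant one the action is plain conjugation -/
theorem adAct_apply_of_det {g : G} (hg : (R g).det = 1) (X : M2) :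
    adAct R g X = R g * X * R g⁻¹ := by
  rw [adAct_apply, hg, one_smul]

theorem map_conj_eq_one (g : G) {s : G} (hs : R s = 1) : R (g * s * g⁻¹) = 1 := by
  rw [map_mul, map_mul, hs, mul_one, map_mul_inv]

variable {R}

/-- a cocycle is equivariant on the kernel of `R`. -/
theorem cocycle_conj_of_ker {c : G → M2} (hc : IsCocycle (adAct R) c) (g : G) {s : G}
    (hs : R s = 1) : c (g * s * g⁻¹) = adAct R g (c s) := by
  rw [hc.conj g s, adAct_eq_one R (map_conj_eq_one R g hs), Module.End.one_apply, sub_self,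
    add_zero]

/-! ### `H⁰ = 0` -/

/-- no invertible traceless `T` is normalised up to sign by `R` (this is what the frozen `hTW`
gives: otherwise `R` would be reducible over `k(√(-det T))` on a subgroup of index `≤ 2`). -/
def NoQuadSym (R : G →* Matrix (Fin 2) (Fin 2) k) : Prop :=
  ∀ T : Matrix (Fin 2) (Fin 2) k, T.trace = 0 → T.det ≠ 0 →
    ¬ ∀ g, R g * T = T * R g ∨ R g * T = -(T * R g)

/-- **`H⁰(G, ad⁰(det)) = 0`** for an irreducible `R` with `NoQuadSym`. -/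
theorem inv_eq_zero (hirr : NoEigen R) (hqs : NoQuadSym R) (m : M2) (hm : m.trace = 0)
    (hfix : ∀ g, adAct R g m = m) : m = 0 := by
  by_contra hm0
  -- `det (R g) • R g m = m R g`
  have hrel : ∀ g, (R g).det • (R g * m) = m * R g := by
    intro g
    have h := hfix g
    rw [adAct_apply] at h
    have h' : ((R g).det • (R g * m * R g⁻¹)) * R g = m * R g := by rw [h]
    rw [Matrix.smul_mul, mul_assoc, map_inv_mul, mul_one] at h'
    exact h'
  by_cases hd : m.det = 0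
  · -- nilpotent: `ker m` is a stable line
    have hsq : m * m = 0 := by rw [sq_of_trace_zero m hm, hd, neg_zero, zero_smul]
    obtain ⟨v, hv⟩ := exists_mulVec_ne_zero hm0
    set u := m *ᵥ v with hu
    have hmu : m *ᵥ u = 0 := by rw [hu, Matrix.mulVec_mulVec, hsq, Matrix.zero_mulVec]
    refine hirr u hv fun g => ?_
    have h1 : m *ᵥ (R g *ᵥ u) = 0 := by
      rw [Matrix.mulVec_mulVec, ← hrel g, Matrix.smul_mulVec, ← Matrix.mulVec_mulVec, hmu,
        Matrix.mulVec_zero, smul_zero]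
    exact exists_smul_of_mulVec_eq_zero hm0 hv hmu h1
  · -- invertible: `det (R g) = ± 1` and `R g m = ± m R g`
    refine hqs m hm hd fun g => ?_
    have h := congrArg Matrix.det (hfix g)
    rw [adAct_apply, det_smul, Fintype.card_fin, det_mul, det_mul, mul_assoc,
      mul_comm m.det, ← mul_assoc (R g).det, det_mul_det_inv, one_mul] at h
    have h1 : ((R g).det ^ 2 - 1) * m.det = 0 := by linear_combination h
    have h2 : ((R g).det - 1) * ((R g).det + 1) = 0 := by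
      have := (mul_eq_zero.mp h1).resolve_right hd
      linear_combination this
    rcases mul_eq_zero.mp h2 with h3 | h3
    · left
      have : (R g).det = 1 := by linear_combination h3
      rw [← hrel g, this, one_smul]
    · right
      have : (R g).det = -1 := by linear_combination h3
      rw [← hrel g, this, neg_smul, one_smul, neg_neg]

/-! ### the choice of `σ₀` -/

/-- **GT1 + GT2 ⟹ the choice of `σ₀`.** -/
theorem exists_sigma0 (h2 : (2 : k) ≠ 0) (Γ1 : Subgroup G)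
    (hab : ∀ g h : G, g * h * g⁻¹ * h⁻¹ ∈ Γ1)
    (hdet1 : ∀ σ ∈ Γ1, (R σ).det = 1)
    (hirr1 : NoEigen (R.comp Γ1.subtype)) (hsplit : ∀ σ, IsSplit (R σ))
    (hinv : ∀ m : M2, m.trace = 0 → (∀ g, adAct R g m = m) → m = 0)
    (hGT1 : ∀ c : G → M2, (∀ g, (c g).trace = 0) → IsCocycle (adAct R) c →
      (∀ s, R s = 1 → c s = 0) → ∃ m : M2, m.trace = 0 ∧ ∀ g, c g = adAct R g m - m)
    (c : G → M2) (hctr : ∀ g, (c g).trace = 0) (hc : IsCocycle (adAct R) c)
    (hnb : ¬ ∃ m : M2, m.trace = 0 ∧ ∀ g, c g = adAct R g m - m) :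
    ∃ σ₀ ∈ Γ1, IsRss (R σ₀) ∧ c σ₀ ∉ LinearMap.range (adAct R σ₀ - 1) := by
  classical
  -- `Γ₁` is normal
  have hnorm : ∀ g : G, ∀ s ∈ Γ1, g * s * g⁻¹ ∈ Γ1 := by
    intro g s hs
    have := Γ1.mul_mem (hab g s) hs
    rwa [inv_mul_cancel_right] at this
  -- Step 1: `c` does not vanish on `ker R ∩ Γ₁`
  have step1 : ∃ s, R s = 1 ∧ s ∈ Γ1 ∧ c s ≠ 0 := by
    by_contra hno
    have hK : ∀ s, R s = 1 → s ∈ Γ1 → c s = 0 := by
      intro s hs hsΓ
      by_contra h0
      exact hno ⟨s, hs, hsΓ, h0⟩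
    refine hnb (hGT1 c hctr hc fun s hs => hinv (c s) (hctr s) fun g => ?_)
    -- `t := g s g⁻¹ s⁻¹ ∈ ker R ∩ Γ₁`
    have htR : R (g * s * g⁻¹ * s⁻¹) = 1 := by
      rw [map_mul, map_conj_eq_one R g hs, map_inv_eq_one R hs, mul_one]
    have htc : c (g * s * g⁻¹ * s⁻¹) = 0 := hK _ htR (hab g s)
    have e1 : c (g * s * g⁻¹) = c s := by
      have := hc (g * s * g⁻¹ * s⁻¹) s
      rw [inv_mul_cancel_right, htc, zero_add, adAct_eq_one R htR, Module.End.one_apply] at this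
      exact this
    rw [← cocycle_conj_of_ker hc g hs, e1]
  obtain ⟨s₁, hs₁R, hs₁Γ, hs₁c⟩ := step1
  -- Step 2: the span of the values of `c` on `ker R ∩ Γ₁`
  set W' : Submodule k M2 := Submodule.span k {x | ∃ s, R s = 1 ∧ s ∈ Γ1 ∧ x = c s} with hW'
  have hW0 : W' ≠ ⊥ := by
    intro h
    have : c s₁ ∈ W' := Submodule.subset_span ⟨s₁, hs₁R, hs₁Γ, rfl⟩
    rw [h, Submodule.mem_bot] at this
    exact hs₁c this
  have hWtr : ∀ f ∈ W', f.trace = 0 := by
    intro f hf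
    induction hf using Submodule.span_induction with
    | mem x hx =>
      obtain ⟨s, -, -, rfl⟩ := hx
      exact hctr s
    | zero => exact Matrix.trace_zero _ _
    | add x y _ _ hx hy => rw [trace_add, hx, hy, add_zero]
    | smul a x _ hx => rw [trace_smul, hx, smul_zero]
  have hWstab : ∀ h : Γ1, ∀ f ∈ W',
      (R.comp Γ1.subtype) h * f * (R.comp Γ1.subtype) h⁻¹ ∈ W' := by
    intro h f hf
    show R (h : G) * f * R ((h⁻¹ : Γ1) : G) ∈ W'
    rw [Subgroup.coe_inv]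
    induction hf using Submodule.span_induction with
    | mem x hx =>
      obtain ⟨s, hsR, hsΓ, rfl⟩ := hx
      refine Submodule.subset_span ⟨(h : G) * s * (h : G)⁻¹, map_conj_eq_one R _ hsR,
        hnorm _ s hsΓ, ?_⟩
      rw [cocycle_conj_of_ker hc _ hsR, adAct_apply_of_det R (hdet1 _ h.2)]
    | zero =>
      rw [Matrix.mul_zero, Matrix.zero_mul]
      exact Submodule.zero_mem _
    | add x y _ _ hx hy =>
      rw [Matrix.mul_add, Matrix.add_mul]
      exact Submodule.add_mem _ hx hy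
    | smul a x _ hx =>
      rw [Matrix.mul_smul, Matrix.smul_mul]
      exact Submodule.smul_mem _ a hx
  -- Step 3: helper45's `σ`-lemma on `Γ₁`
  obtain ⟨h, hr, f, hfW, hf0, hfc⟩ :=
    exists_isRss_commute (ρ := R.comp Γ1.subtype) h2 hirr1 (fun h => hsplit _) W' hW0 hWtr hWstab
  have hr' : IsRss (R (h : G)) := hr
  -- Step 4: `f ∉ U := (h - 1) M`
  set U : Submodule k M2 := LinearMap.range (adAct R (h : G) - 1) with hU
  have hfU : f ∉ U := by
    rintro ⟨x, hx⟩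
    rw [LinearMap.sub_apply, Module.End.one_apply, adAct_apply_of_det R (hdet1 _ h.2)] at hx
    refine ne_conj_sub (ρ := R.comp Γ1.subtype) h2 hr hf0 (hWtr f hfW) hfc x ?_
    show f = R (h : G) * x * R ((h⁻¹ : Γ1) : G) - x
    rw [Subgroup.coe_inv]
    exact hx.symm
  -- Step 5: some value of `c` on `ker R ∩ Γ₁` is not in `U`
  have step5 : ∃ s, R s = 1 ∧ s ∈ Γ1 ∧ c s ∉ U := by
    by_contra hno
    apply hfU
    have hle : W' ≤ U := by
      rw [hW']
      refine Submodule.span_le.2 ?_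
      rintro x ⟨s, hsR, hsΓ, rfl⟩
      by_contra hx
      exact hno ⟨s, hsR, hsΓ, hx⟩
    exact hle hfW
  obtain ⟨s, hsR, hsΓ, hsU⟩ := step5
  -- Step 6: `σ₀ := h` or `s * h`
  by_cases hch : c (h : G) ∈ U
  · refine ⟨s * (h : G), Γ1.mul_mem hsΓ h.2, ?_, ?_⟩
    · rw [map_mul, hsR, one_mul]
      exact hr'
    · have e1 : adAct R (s * (h : G)) = adAct R (h : G) := by
        rw [map_mul, adAct_eq_one R hsR, one_mul]
      have e2 : c (s * (h : G)) = c s + c (h : G) := by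
        rw [hc s (h : G), adAct_eq_one R hsR, Module.End.one_apply]
      rw [e1, e2]
      intro hmem
      apply hsU
      have := Submodule.sub_mem _ hmem hch
      rwa [add_sub_cancel_right] at this
  · exact ⟨(h : G), h.2, hr', hch⟩

end Abstract

/-! ### the `G_ℚ` version -/

section GalQ

local notation "Qb" => AlgebraicClosure ℚ
local notation "GQ" => (AlgebraicClosure ℚ ≃ₐ[ℚ] AlgebraicClosure ℚ)

open Fermat.Agent.DS.P5

variable {k : Type} [Field k]

local notation "M2" => Matrix (Fin 2) (Fin 2) k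

/-- the elements of `ker (cycM N)` fix the `N`-th roots of unity. -/
theorem fixes_of_cycM_eq_one {N : ℕ} [NeZero N] {σ : GQ} (h : cycM N σ = 1) (ζ : Qb)
    (hζ : ζ ^ N = 1) : σ ζ = ζ := by
  have h1 := cycM_spec σ ζ hζ
  rw [h, Units.val_one] at h1
  by_cases hN : N = 1
  · subst hN
    rw [pow_one] at hζ
    rw [hζ, map_one]
  · have : Fact (1 < N) := ⟨lt_of_le_of_ne (Nat.one_le_iff_ne_zero.2 (NeZero.ne N)) (Ne.symm hN)⟩
    rw [ZMod.val_one, pow_one] at h1
    exact h1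

variable {W : Type*} [AddCommGroup W] [Module k W]

/-- **the `hGT` binder of `TWPrime.exists_tw_primes` from GT1 + GT2**, in matrix form. -/
theorem hGT_of_matrix (h2 : (2 : k) ≠ 0) (ρbar : ResidualGaloisRep k)
    (b : Module.Basis (Fin 2) k ρbar.V) (R : GQ →* M2)
    (hR : ∀ σ, LinearMap.toMatrix b b (ρbar.ρ σ) = R σ)
    (p : ℕ) [Fact p.Prime] (n : ℕ)
    (hdet1 : ∀ σ : GQ, (∀ ζ : Qb, ζ ^ p ^ (n + 1) = 1 → σ ζ = ζ) → (R σ).det = 1)
    (hirr1 : ∀ v : Fin 2 → k, v ≠ 0 → ¬ ∀ σ : GQ, (∀ ζ : Qb, ζ ^ p ^ (n + 1) = 1 → σ ζ = ζ) →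
      ∃ a : k, R σ *ᵥ v = a • v)
    (hsplit : ∀ σ, IsSplit (R σ))
    (hinv : ∀ m : M2, m.trace = 0 → (∀ g, adAct R g m = m) → m = 0)
    (hGT1 : ∀ c : GQ → M2, (∀ g, (c g).trace = 0) → IsCocycle (adAct R) c →
      (∀ s, R s = 1 → c s = 0) → ∃ m : M2, m.trace = 0 ∧ ∀ g, c g = adAct R g m - m)
    (cz : W →ₗ[k] (GQ → M2)) (hcz : ∀ w, IsCocycle (adAct R) (cz w))
    (hctr : ∀ w g, (cz w g).trace = 0)
    (hW : ∀ w : W, w ≠ 0 → ¬ ∃ m : M2, m.trace = 0 ∧ ∀ g, cz w g = adAct R g m - m) :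
    ∀ w : W, w ≠ 0 → ∃ σ₀ : GQ, (∀ ζ : Qb, ζ ^ p ^ (n + 1) = 1 → σ₀ ζ = ζ) ∧
      (∃ α β : k, α ≠ β ∧ LinearMap.charpoly (ρbar.ρ σ₀) = (X - C α) * (X - C β)) ∧
      cz w σ₀ ∉ LinearMap.range (adAct R σ₀ - 1) := by
  intro w hw
  have hp : p.Prime := Fact.out
  have : NeZero (p ^ (n + 1)) := ⟨pow_ne_zero _ hp.ne_zero⟩
  set Γ1 : Subgroup GQ := (cycM (p ^ (n + 1))).ker with hΓ1
  have hfix : ∀ σ ∈ Γ1, ∀ ζ : Qb, ζ ^ p ^ (n + 1) = 1 → σ ζ = ζ := fun σ hσ =>
    fixes_of_cycM_eq_one (MonoidHom.mem_ker.1 hσ)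
  have hab : ∀ g h : GQ, g * h * g⁻¹ * h⁻¹ ∈ Γ1 := by
    intro g h
    rw [hΓ1, MonoidHom.mem_ker, map_mul, map_mul, map_mul, map_inv, map_inv,
      mul_comm (cycM (p ^ (n + 1)) g), mul_inv_cancel_right, mul_inv_cancel]
  have hirr1' : NoEigen (R.comp Γ1.subtype) := by
    intro v hv hall
    refine hirr1 v hv fun σ hσ => ?_
    exact hall ⟨σ, MonoidHom.mem_ker.2 (cycM_eq_one_of_forall σ hσ)⟩
  obtain ⟨σ₀, hσ₀Γ, ⟨α, β, hne, hcp⟩, hns⟩ :=
    exists_sigma0 (R := R) h2 Γ1 hab (fun σ hσ => hdet1 σ (hfix σ hσ)) hirr1' hsplit hinv hGT1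
      (cz w) (hctr w) (hcz w) (hW w hw)
  refine ⟨σ₀, hfix σ₀ hσ₀Γ, ⟨α, β, hne, ?_⟩, hns⟩
  rw [← LinearMap.charpoly_toMatrix (ρbar.ρ σ₀) b, hR, hcp]

/-- finite level of the adjoint action. -/
theorem adAct_finiteLevel (ρbar : ResidualGaloisRep k)
    (b : Module.Basis (Fin 2) k ρbar.V) (R : GQ →* M2)
    (hR : ∀ σ, LinearMap.toMatrix b b (ρbar.ρ σ) = R σ) :
    GaloisFactorsThroughFiniteLevel (adAct R) := by
  obtain ⟨L, hL, h⟩ := ρbar.factorsThroughFiniteLevel
  refine ⟨L, hL, fun σ hσ => adAct_eq_one R ?_⟩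
  rw [← hR, h σ hσ]
  exact LinearMap.toMatrix_one b

variable [FiniteDimensional k W]

/-- **[P-TW] assembled**: `finrank W` Taylor–Wiles primes killing a finite-dimensional space `W` of
traceless finite-level cocycle classes of `ad⁰ρbar(1)`, from GT1 (binder `hGT1`) and GT2. -/
theorem exists_tw_primes_matrix (h2 : (2 : k) ≠ 0) (ρbar : ResidualGaloisRep k)
    (b : Module.Basis (Fin 2) k ρbar.V) (R : GQ →* M2)
    (hR : ∀ σ, LinearMap.toMatrix b b (ρbar.ρ σ) = R σ)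
    (p : ℕ) [Fact p.Prime] (n : ℕ)
    (hdet1 : ∀ σ : GQ, (∀ ζ : Qb, ζ ^ p ^ (n + 1) = 1 → σ ζ = ζ) → (R σ).det = 1)
    (hirr1 : ∀ v : Fin 2 → k, v ≠ 0 → ¬ ∀ σ : GQ, (∀ ζ : Qb, ζ ^ p ^ (n + 1) = 1 → σ ζ = ζ) →
      ∃ a : k, R σ *ᵥ v = a • v)
    (hsplit : ∀ σ, IsSplit (R σ))
    (hinv : ∀ m : M2, m.trace = 0 → (∀ g, adAct R g m = m) → m = 0)
    (hGT1 : ∀ c : GQ → M2, (∀ g, (c g).trace = 0) → IsCocycle (adAct R) c →
      (∀ s, R s = 1 → c s = 0) → ∃ m : M2, m.trace = 0 ∧ ∀ g, c g = adAct R g m - m)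
    (cz : W →ₗ[k] (GQ → M2)) (hcz : ∀ w, IsCocycle (adAct R) (cz w))
    (hctr : ∀ w g, (cz w g).trace = 0)
    (hcl : ∀ w, ∃ L : IntermediateField ℚ Qb, FiniteDimensional ℚ L ∧
      ∀ σ : GQ, (∀ x ∈ L, σ x = x) → cz w σ = 0)
    (hW : ∀ w : W, w ≠ 0 → ¬ ∃ m : M2, m.trace = 0 ∧ ∀ g, cz w g = adAct R g m - m)
    (B₀ : Finset ℕ) :
    ∃ qv : Fin (Module.finrank k W) → ℕ, Function.Injective qv ∧
      (∀ i, (qv i).Prime ∧ qv i ∉ B₀ ∧ p ^ (n + 1) ∣ qv i - 1) ∧
      (∀ i, ∀ (A : ValuationSubring Qb) (τ : GQ), A.LiesOverPrime (qv i) →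
        A.IsFrobeniusAt τ (qv i) →
        ∃ α β : k, α ≠ β ∧ LinearMap.charpoly (ρbar.ρ τ) = (X - C α) * (X - C β)) ∧
      ∀ w : W, (∀ i, w ∈ locKer (adAct R) cz (qv i)) → w = 0 :=
  exists_tw_primes ρbar p n (adAct R) (adAct_finiteLevel ρbar b R hR) cz hcz hcl
    (hGT_of_matrix h2 ρbar b R hR p n hdet1 hirr1 hsplit hinv hGT1 cz hcz hctr hW) B₀

end GalQ

end Fermat.Agent.GP.TW.GTGlue
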