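/-
GATE-P / S56 [P-TW] (helper1), key S56-TW-GT1PLUG: **form adapter for GT1**.

helper52's `H1Dir` proves `H¹(Γ, ad⁰(det)) = 0` for a finite SUBGROUP `Γ ≤ GL₂(k)` with cocycles
`c : Γ → M₂(k)` for the action `tad.comp Γ.subtype`.  The consumer `GTGlue.exists_sigma0` wants the
binder `hGT1`: every traceless cocycle `c : G → M₂(k)` for `adAct R` (any group `G`,
`R : G →* M₂(k)`) which vanishes on `ker R` is a coboundary.

* `toGL R : G →* GL (Fin 2) k`, `imGL R := (toGL R).range`;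
* `descend` : a cocycle of `G` killing `ker R` descends to a cocycle of `imGL R`;
* `hGT1_of_vanish` : the adapter, with the vanishing statement for `Γ := imGL R` as a hypothesis in
  EXACTLY the announced shape of `H1Dir.h1_vanish` (board 4069).
-/
import Mathlib
import Fermat.Agent.GP.TW.GTGlue
import Fermat.Agent.GP.TW.H1Dir.TraceId

set_option autoImplicit false

open Matrix

namespace Fermat.Agent.GP.TW.GT1Plug

open Fermat.Agent.GP.TW.GTGlue Fermat.Agent.GP.TW.SigmaLemma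

variable {k : Type*} [Field k] {G : Type*} [Group G]

local notation "M2" => Matrix (Fin 2) (Fin 2) k

variable (R : G →* Matrix (Fin 2) (Fin 2) k)

/-- `R` as a homomorphism to `GL₂(k)`. -/
def toGL : G →* GL (Fin 2) k := R.toHomUnits

theorem toGL_val (g : G) : ((toGL R g : GL (Fin 2) k) : M2) = R g := rfl

theorem toGL_inv_val (g : G) : (((toGL R g)⁻¹ : GL (Fin 2) k) : M2) = R g⁻¹ := by
  rw [← map_inv]
  rfl

theorem toGL_eq_iff (g h : G) : toGL R g = toGL R h ↔ R g = R h := by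
  constructor
  · intro e
    have := congrArg (fun u : GL (Fin 2) k => (u : M2)) e
    exact this
  · intro e
    exact Units.ext e

theorem det_toGL (g : G) :
    ((Matrix.GeneralLinearGroup.det (toGL R g) : kˣ) : k) = (R g).det := rfl

/-- helper52's `tad` at `toGL R g` is `adAct R g`. -/
theorem tad_toGL (g : G) : H1Dir.tad (toGL R g) = adAct R g := by
  refine LinearMap.ext fun X => ?_
  rw [H1Dir.tad_apply, adAct_apply, det_toGL, toGL_val, toGL_inv_val]

/-- the image of `R` in `GL₂(k)`. -/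
def imGL : Subgroup (GL (Fin 2) k) := (toGL R).range

variable {R}

/-- a cocycle killing `ker R` is constant on the fibres of `R`. -/
theorem cocycle_eq_of_map_eq {c : G → M2} (hc : TWPrime.IsCocycle (adAct R) c)
    (hker : ∀ s, R s = 1 → c s = 0) {g h : G} (e : R g = R h) : c g = c h := by
  have hs : R (g⁻¹ * h) = 1 := by
    rw [map_mul, ← e, GTGlue.map_inv_mul]
  have := hc g (g⁻¹ * h)
  rw [mul_inv_cancel_left, hker _ hs, map_zero, add_zero] at this
  exact this.symm

/-- the descended cocycle on the image. -/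
noncomputable def descend (c : G → M2) : imGL R → M2 := fun γ => c (Classical.choose γ.2)

theorem descend_toGL {c : G → M2} (hc : TWPrime.IsCocycle (adAct R) c)
    (hker : ∀ s, R s = 1 → c s = 0) (g : G) :
    descend c (⟨toGL R g, g, rfl⟩ : imGL R) = c g := by
  have h := Classical.choose_spec (⟨toGL R g, g, rfl⟩ : imGL R).2
  exact cocycle_eq_of_map_eq hc hker ((toGL_eq_iff R _ _).1 h)

theorem descend_isCocycle {c : G → M2} (hc : TWPrime.IsCocycle (adAct R) c)
    (hker : ∀ s, R s = 1 → c s = 0) :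
    H1Dir.IsCocycle (H1Dir.tad.comp (imGL R).subtype) (descend c) := by
  rintro ⟨γ, g, rfl⟩ ⟨γ', g', rfl⟩
  have e : (⟨toGL R g, g, rfl⟩ : imGL R) * ⟨toGL R g', g', rfl⟩ =
      ⟨toGL R (g * g'), g * g', rfl⟩ := by
    apply Subtype.ext
    show toGL R g * toGL R g' = toGL R (g * g')
    rw [map_mul]
  rw [e, descend_toGL hc hker, descend_toGL hc hker, descend_toGL hc hker, hc g g']
  show c g + adAct R g (c g') = c g + H1Dir.tad (toGL R g) (c g')
  rw [tad_toGL]

/-- **the adapter**: the vanishing of `H¹` of the image `imGL R ≤ GL₂(k)` (helper52's shape) gives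
the binder `hGT1` of `GTGlue.exists_sigma0`. -/
theorem hGT1_of_vanish
    (hvan : ∀ c : imGL R → M2, H1Dir.IsCocycle (H1Dir.tad.comp (imGL R).subtype) c →
      (∀ g, (c g).trace = 0) → ∃ m : M2, m.trace = 0 ∧ ∀ g : imGL R, c g = H1Dir.tad g.1 m - m) :
    ∀ c : G → M2, (∀ g, (c g).trace = 0) → TWPrime.IsCocycle (adAct R) c →
      (∀ s, R s = 1 → c s = 0) → ∃ m : M2, m.trace = 0 ∧ ∀ g, c g = adAct R g m - m := by
  intro c hctr hc hker
  obtain ⟨m, hm, h⟩ := hvan (descend c) (descend_isCocycle hc hker) (fun γ => hctr _)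
  refine ⟨m, hm, fun g => ?_⟩
  have := h ⟨toGL R g, g, rfl⟩
  rw [descend_toGL hc hker] at this
  rw [this, tad_toGL]

/-- irreducibility of the image, in helper52's shape, from `NoEigen R`. -/
theorem irr_imGL (hirr : NoEigen R) :
    ∀ v : Fin 2 → k, v ≠ 0 → ∃ g ∈ imGL R, ¬ ∃ a : k, (g : M2) *ᵥ v = a • v := by
  intro v hv
  have := hirr v hv
  rw [not_forall] at this
  obtain ⟨h, hh⟩ := this
  refine ⟨toGL R h, ⟨h, rfl⟩, ?_⟩
  rintro ⟨a, ha⟩
  exact hh ⟨a, ha⟩

/-- the `p = 5` determinant clause of the image. -/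
theorem det_imGL {σ : G} (h : (R σ).det ^ 2 ≠ 1) :
    ∃ g ∈ imGL R, ((Matrix.GeneralLinearGroup.det g : kˣ) : k) ^ 2 ≠ 1 :=
  ⟨toGL R σ, ⟨σ, rfl⟩, h⟩

/-- the image is finite when `k` is. -/
instance finite_imGL [Finite k] : Finite (imGL R) := by
  have : Finite (Matrix (Fin 2) (Fin 2) k) := inferInstance
  have : Finite (GL (Fin 2) k) := inferInstance
  exact Subtype.finite

/-- **GT1 plugged**: helper52's `h1_vanish` (as a hypothesis in its announced shape, for all finite
subgroups) gives `hGT1`. -/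
theorem hGT1_of_h1_vanish (p : ℕ) [Fact p.Prime] [CharP k p] [Finite k]
    (h1v : ∀ (Γ : Subgroup (GL (Fin 2) k)) [Finite Γ],
      (∀ v : Fin 2 → k, v ≠ 0 → ∃ g ∈ Γ, ¬ ∃ a : k, (g : M2) *ᵥ v = a • v) →
      (p = 5 → ∃ g ∈ Γ, ((Matrix.GeneralLinearGroup.det g : kˣ) : k) ^ 2 ≠ 1) →
      ∀ c : Γ → M2, H1Dir.IsCocycle (H1Dir.tad.comp Γ.subtype) c → (∀ g, (c g).trace = 0) →
        ∃ m : M2, m.trace = 0 ∧ ∀ g : Γ, c g = H1Dir.tad g.1 m - m)
    (hirr : NoEigen R) (hdet5 : p = 5 → ∃ σ, (R σ).det ^ 2 ≠ 1) :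
    ∀ c : G → M2, (∀ g, (c g).trace = 0) → TWPrime.IsCocycle (adAct R) c →
      (∀ s, R s = 1 → c s = 0) → ∃ m : M2, m.trace = 0 ∧ ∀ g, c g = adAct R g m - m :=
  hGT1_of_vanish (h1v (imGL R) (irr_imGL hirr) fun h5 => by
    obtain ⟨σ, hσ⟩ := hdet5 h5
    exact det_imGL hσ)

end Fermat.Agent.GP.TW.GT1Plug
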