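/-
GATE-P / S56 [P-TW] plug (helper49): `Export.GT1 (matRep ρbar b)` from the FROZEN hypotheses of S56
(`p ≠ 2`, `habs`, `hdet`, `hsplit`, `hTW`, `k` finite) and helper52's GT1 (`H1Dir.h1_vanish_of_stmts`)
with the ONE binder `H1Dir.ReduceStmt p k` (conjugation to normal position, helper34 ConjNP /
helper52 Main) — `Bad5Stmt` is discharged by helper38, `hdet5` by `Grp.exists_matRep_det_sq_ne_one`.
Consequence `tw_export_of_reduce`: the [P-TW] export with residual inputs `ReduceStmt` + cz-package.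
-/
import Fermat.Agent.GP.TW.Export
import Fermat.Agent.GP.TW.GT1Plug
import Fermat.Agent.GP.TW.H1Dir.Final
import Fermat.Agent.GP.TW.H1Dir.Bad5Plug
import Fermat.Agent.GP.TW.H1Dir.ReducePlug
import Fermat.Agent.GP.TW.Grp.AdapterDet

set_option autoImplicit false

namespace Fermat.Agent.GP.TW.GT1Frozen

open Matrix Module Polynomial
open Fermat.Agent.GP.TW Fermat.Agent.GP.TW.Grp Fermat.Agent.GP.TW.GTGlue
  Fermat.Agent.GP.TW.TWPrime Fermat.Agent.GP.TW.Export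

/-- `ℚ̄`. -/
local notation "Qb" => AlgebraicClosure ℚ
/-- `G_ℚ`. -/
local notation "GQ" => (AlgebraicClosure ℚ ≃ₐ[ℚ] AlgebraicClosure ℚ)

variable {k : Type} [Field k]

/-- `k` has characteristic `p` under the frozen `hdet` -/
theorem charP_of_hdet (p : ℕ) [hp : Fact p.Prime] (ρbar : ResidualGaloisRep k)
    (hdet : (GaloisRepAdic.ofResidualGaloisRep ρbar).DetIsCyclotomic p) : CharP k p :=
  (CharP.charP_iff_prime_eq_zero hp.out).2 (natCast_eq_zero_of_hdet p ρbar hdet)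

/-- **GT1 from the frozen hypotheses**, binder `h1v` = the announced shape of `H1Dir.h1_vanish`
(all finite subgroups of `GL₂(k)`), exactly the `h1v` binder of `GT1Plug.hGT1_of_h1_vanish`. -/
theorem gt1_of_h1_vanish (p : ℕ) [Fact p.Prime] (hp2 : p ≠ 2) [Finite k]
    (ρbar : ResidualGaloisRep k)
    (habs : ρbar.IsAbsolutelyIrreducible)
    (hdet : (GaloisRepAdic.ofResidualGaloisRep ρbar).DetIsCyclotomic p)
    (hsplit : ∀ σ : GQ, ∃ α β : k, LinearMap.charpoly (ρbar.ρ σ) = (X - C α) * (X - C β))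
    (hTW : ∀ (K : Type) [Field K] [Algebra k K] (G : Subgroup GQ), G.index = 2 →
      ∀ V : Submodule K (ρbar.baseChange K).V,
        (∀ σ ∈ G, ∀ x ∈ V, (ρbar.baseChange K).ρ σ x ∈ V) → V = ⊥ ∨ V = ⊤)
    (b : Basis (Fin 2) k ρbar.V)
    (h1v : ∀ (Γ : Subgroup (GL (Fin 2) k)) [Finite Γ],
      (∀ v : Fin 2 → k, v ≠ 0 → ∃ g ∈ Γ, ¬ ∃ a : k,
        (g : Matrix (Fin 2) (Fin 2) k) *ᵥ v = a • v) →
      (p = 5 → ∃ g ∈ Γ, ((Matrix.GeneralLinearGroup.det g : kˣ) : k) ^ 2 ≠ 1) →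
      ∀ c : Γ → Matrix (Fin 2) (Fin 2) k, H1Dir.IsCocycle (H1Dir.tad.comp Γ.subtype) c →
        (∀ g, (c g).trace = 0) →
        ∃ m : Matrix (Fin 2) (Fin 2) k, m.trace = 0 ∧ ∀ g : Γ, c g = H1Dir.tad g.1 m - m) :
    GT1 (Grp.matRep ρbar b) := by
  obtain ⟨-, -, hL, -⟩ := matrix_hyps p hp2 ρbar habs hdet hsplit hTW b
  have hchar : CharP k p := charP_of_hdet p ρbar hdet
  refine GT1Plug.hGT1_of_h1_vanish p h1v (noEigen_of_noStableLine hL) (fun h5 => ?_)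
  have hp3 : p ≠ 3 := by omega
  exact exists_matRep_det_sq_ne_one p hp2 hp3 ρbar hdet b

/-- **GT1 from the frozen hypotheses**, with the ONE binder `H1Dir.ReduceStmt p k`. -/
theorem gt1_of_reduce (p : ℕ) [Fact p.Prime] (hp2 : p ≠ 2) [Finite k]
    (ρbar : ResidualGaloisRep k)
    (habs : ρbar.IsAbsolutelyIrreducible)
    (hdet : (GaloisRepAdic.ofResidualGaloisRep ρbar).DetIsCyclotomic p)
    (hsplit : ∀ σ : GQ, ∃ α β : k, LinearMap.charpoly (ρbar.ρ σ) = (X - C α) * (X - C β))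
    (hTW : ∀ (K : Type) [Field K] [Algebra k K] (G : Subgroup GQ), G.index = 2 →
      ∀ V : Submodule K (ρbar.baseChange K).V,
        (∀ σ ∈ G, ∀ x ∈ V, (ρbar.baseChange K).ρ σ x ∈ V) → V = ⊥ ∨ V = ⊤)
    (b : Basis (Fin 2) k ρbar.V) (hRD : H1Dir.ReduceStmt p k) :
    GT1 (Grp.matRep ρbar b) := by
  have hchar : CharP k p := charP_of_hdet p ρbar hdet
  refine gt1_of_h1_vanish p hp2 ρbar habs hdet hsplit hTW b ?_
  intro Γ _ hirr hdet5 c hc htr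
  exact H1Dir.h1_vanish_of_stmts p hp2 hRD (H1Dir.bad5Stmt_holds k) Γ hirr hdet5 c hc htr

/-- **GT1 from the frozen hypotheses, NO binder** (`ReduceStmt` = helper34 `reduceStmt_holds`,
`Bad5Stmt` = helper38 `bad5Stmt_holds`, GT1 = helper52 `h1_vanish_of_stmts`). -/
theorem gt1_frozen (p : ℕ) [Fact p.Prime] (hp2 : p ≠ 2) [Finite k]
    (ρbar : ResidualGaloisRep k)
    (habs : ρbar.IsAbsolutelyIrreducible)
    (hdet : (GaloisRepAdic.ofResidualGaloisRep ρbar).DetIsCyclotomic p)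
    (hsplit : ∀ σ : GQ, ∃ α β : k, LinearMap.charpoly (ρbar.ρ σ) = (X - C α) * (X - C β))
    (hTW : ∀ (K : Type) [Field K] [Algebra k K] (G : Subgroup GQ), G.index = 2 →
      ∀ V : Submodule K (ρbar.baseChange K).V,
        (∀ σ ∈ G, ∀ x ∈ V, (ρbar.baseChange K).ρ σ x ∈ V) → V = ⊥ ∨ V = ⊤)
    (b : Basis (Fin 2) k ρbar.V) : GT1 (Grp.matRep ρbar b) := by
  have hchar : CharP k p := charP_of_hdet p ρbar hdet
  exact gt1_of_reduce p hp2 ρbar habs hdet hsplit hTW b (H1Dir.reduceStmt_holds p)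

variable {F : Type*} [Field F] [Algebra F k]
variable {W : Type*} [AddCommGroup W] [Module F W] [FiniteDimensional F W]

/-- **[P-TW] COMPLETE modulo the cz-package**: the export from the frozen hypotheses alone. -/
theorem tw_export_frozen (p : ℕ) [Fact p.Prime] (hp2 : p ≠ 2) [Finite k]
    (ρbar : ResidualGaloisRep k)
    (habs : ρbar.IsAbsolutelyIrreducible)
    (hdet : (GaloisRepAdic.ofResidualGaloisRep ρbar).DetIsCyclotomic p)
    (hsplit : ∀ σ : GQ, ∃ α β : k, LinearMap.charpoly (ρbar.ρ σ) = (X - C α) * (X - C β))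
    (hTW : ∀ (K : Type) [Field K] [Algebra k K] (G : Subgroup GQ), G.index = 2 →
      ∀ V : Submodule K (ρbar.baseChange K).V,
        (∀ σ ∈ G, ∀ x ∈ V, (ρbar.baseChange K).ρ σ x ∈ V) → V = ⊥ ∨ V = ⊤)
    (b : Basis (Fin 2) k ρbar.V)
    (cz : W →ₗ[F] (GQ → Matrix (Fin 2) (Fin 2) k))
    (hcz : ∀ w, IsCocycle (adAct (Grp.matRep ρbar b)) (cz w))
    (hctr : ∀ w g, (cz w g).trace = 0)
    (hcl : ∀ w, ∃ L : IntermediateField ℚ Qb, FiniteDimensional ℚ L ∧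
      ∀ σ : GQ, (∀ x ∈ L, σ x = x) → cz w σ = 0)
    (hW : ∀ w : W, w ≠ 0 → ¬ ∃ m : Matrix (Fin 2) (Fin 2) k, m.trace = 0 ∧
      ∀ g, cz w g = adAct (Grp.matRep ρbar b) g m - m)
    (n : ℕ) (B₀ : Finset ℕ) :
    ∃ qv : Fin (Module.finrank F W) → ℕ, Function.Injective qv ∧
      (∀ i, (qv i).Prime ∧ qv i ∉ B₀ ∧ p ^ (n + 1) ∣ qv i - 1) ∧
      (∀ i, ∀ (A : ValuationSubring Qb) (τ : GQ), A.LiesOverPrime (qv i) →
        A.IsFrobeniusAt τ (qv i) →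
        ∃ α β : k, α ≠ β ∧ LinearMap.charpoly (ρbar.ρ τ) = (X - C α) * (X - C β)) ∧
      ∀ w : W, (∀ i, w ∈ locKerF (adAct (Grp.matRep ρbar b)) cz (qv i)) → w = 0 :=
  tw_export p hp2 ρbar habs hdet hsplit hTW b
    (gt1_frozen p hp2 ρbar habs hdet hsplit hTW b) cz hcz hctr hcl hW n B₀

/-- **[P-TW] export with GT1 plugged**: residual inputs `ReduceStmt p k` and the cz-package. -/
theorem tw_export_of_reduce (p : ℕ) [Fact p.Prime] (hp2 : p ≠ 2) [Finite k]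
    (ρbar : ResidualGaloisRep k)
    (habs : ρbar.IsAbsolutelyIrreducible)
    (hdet : (GaloisRepAdic.ofResidualGaloisRep ρbar).DetIsCyclotomic p)
    (hsplit : ∀ σ : GQ, ∃ α β : k, LinearMap.charpoly (ρbar.ρ σ) = (X - C α) * (X - C β))
    (hTW : ∀ (K : Type) [Field K] [Algebra k K] (G : Subgroup GQ), G.index = 2 →
      ∀ V : Submodule K (ρbar.baseChange K).V,
        (∀ σ ∈ G, ∀ x ∈ V, (ρbar.baseChange K).ρ σ x ∈ V) → V = ⊥ ∨ V = ⊤)
    (b : Basis (Fin 2) k ρbar.V) (hRD : H1Dir.ReduceStmt p k)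
    (cz : W →ₗ[F] (GQ → Matrix (Fin 2) (Fin 2) k))
    (hcz : ∀ w, IsCocycle (adAct (Grp.matRep ρbar b)) (cz w))
    (hctr : ∀ w g, (cz w g).trace = 0)
    (hcl : ∀ w, ∃ L : IntermediateField ℚ Qb, FiniteDimensional ℚ L ∧
      ∀ σ : GQ, (∀ x ∈ L, σ x = x) → cz w σ = 0)
    (hW : ∀ w : W, w ≠ 0 → ¬ ∃ m : Matrix (Fin 2) (Fin 2) k, m.trace = 0 ∧
      ∀ g, cz w g = adAct (Grp.matRep ρbar b) g m - m)
    (n : ℕ) (B₀ : Finset ℕ) :
    ∃ qv : Fin (Module.finrank F W) → ℕ, Function.Injective qv ∧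
      (∀ i, (qv i).Prime ∧ qv i ∉ B₀ ∧ p ^ (n + 1) ∣ qv i - 1) ∧
      (∀ i, ∀ (A : ValuationSubring Qb) (τ : GQ), A.LiesOverPrime (qv i) →
        A.IsFrobeniusAt τ (qv i) →
        ∃ α β : k, α ≠ β ∧ LinearMap.charpoly (ρbar.ρ τ) = (X - C α) * (X - C β)) ∧
      ∀ w : W, (∀ i, w ∈ locKerF (adAct (Grp.matRep ρbar b)) cz (qv i)) → w = 0 :=
  tw_export p hp2 ρbar habs hdet hsplit hTW b
    (gt1_of_reduce p hp2 ρbar habs hdet hsplit hTW b hRD) cz hcz hctr hcl hW n B₀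

end Fermat.Agent.GP.TW.GT1Frozen
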