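/-
GATE-P / S56 [SEL]/[P-TW] node S56-SEL-CZPACK (helper49): the cz-PACKAGE of `tw_export_frozen`
from the pinned model.  `N* := adRep p R χ` (helper94 `GP/Bridge/Ad0Rep`), `W := Hlc (levelS S) N* 1`
(the WHOLE `H¹(G_{ℚ,S}, ad⁰ρ̄(1))`, finite-dimensional over `𝔽_p` — helper31's design 4154):

* `sec` : a `𝔽_p`-linear section of `Hlc1π`; `czOf w σ` := the matrix value of `sec w` at `σ`;
* `czOf_cocycle`, `czOf_trace`, `czOf_finiteLevel`, `czOf_not_coboundary` = the binders
  `hcz`, `hctr`, `hcl`, `hW` of `Export.tw_export(_at)` / `GT1Frozen.tw_export_frozen`;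
* `czOf_mem_range_of_HlcRes_eq_zero` : a class whose restriction to `G_{ℚ_q}` vanishes has
  `czOf y₀ τ ∈ (τ - 1) M₂` for every `τ` in the image of `G_{ℚ_q}` (= `D_{padicPlace q}`);
* `frAt q` : a Frobenius lift at `padicPlace q`, lying in the image of `G_{ℚ_q}`;
* **`exists_tw_primes_kill`** : from the FROZEN hypotheses of S56 alone: for every `n`, `B₀` there
  are `r = dim_{𝔽_p} W` Taylor–Wiles primes (frozen clauses) such that no nonzero class of `W` has
  vanishing restriction to `G_{ℚ_q}` at all of them (the `hkill` binder of helper31's TWKILL).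
-/
import Fermat.Agent.GP.TW.GT1Frozen
import Fermat.Agent.GP.TW.ExportAt
import Fermat.Agent.GP.Bridge.Ad0RepInst
import Fermat.Agent.GP.Loc.PadicPlace
import Fermat.Agent.GC.Prof.LowMap
import Fermat.Agent.GC.Places.Levels

set_option autoImplicit false

noncomputable section

namespace Fermat.Agent.GP.TW.CzPack

open Matrix Module Polynomial CategoryTheory groupCohomology
open Fermat.Agent.GC.Prof Fermat.Agent.GC.C0 Fermat.Agent.GC.Places Fermat.Agent.GC.Local.KR
open Fermat.Agent.GP.Bridge.Ad0 Fermat.Agent.GP.TW.TWPrime Fermat.Agent.GP.TW.GTGlue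
open Fermat.Agent.GP.TW.Export ExtCitation

/-! ### generic part: `N := adRep p R χ` -/

section Generic

variable (p : ℕ) [Fact p.Prime] {k : Type} [Field k] [Algebra (ZMod p) k]
variable (R : GQ →* Matrix (Fin 2) (Fin 2) k) (χ : GQ →* (ZMod p)ˣ) (S : Finset Nat.Primes)
variable [IsDiscrete (levelS S) (adRep p R χ)]

/-- a `𝔽_p`-linear section of the class map `Hlc1π` -/
def sec : Hlc (levelS S) (adRep p R χ) 1 →ₗ[ZMod p] lcCocycles₁ (levelS S) (adRep p R χ) :=
  Classical.choose ((Hlc1π (levelS S) (adRep p R χ)).exists_rightInverse_of_surjective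
    (LinearMap.range_eq_top.2 (Hlc1π_surjective (levelS S) (adRep p R χ))))

theorem Hlc1π_sec (w : Hlc (levelS S) (adRep p R χ) 1) :
    Hlc1π (levelS S) (adRep p R χ) (sec p R χ S w) = w := by
  have h := Classical.choose_spec ((Hlc1π (levelS S) (adRep p R χ)).exists_rightInverse_of_surjective
    (LinearMap.range_eq_top.2 (Hlc1π_surjective (levelS S) (adRep p R χ))))
  exact congrArg (fun f => f w) h

/-- the value of the chosen representative, in `sl₂` -/
def secVal (w : Hlc (levelS S) (adRep p R χ) 1) (σ : GQ) : sl2F p (k := k) :=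
  ((sec p R χ S w : lcCocycles₁ (levelS S) (adRep p R χ)) : GQ → adRep p R χ) σ

theorem secVal_add (w w' : Hlc (levelS S) (adRep p R χ) 1) (σ : GQ) :
    secVal p R χ S (w + w') σ = secVal p R χ S w σ + secVal p R χ S w' σ := by
  unfold secVal
  rw [map_add]
  rfl

theorem secVal_smul (a : ZMod p) (w : Hlc (levelS S) (adRep p R χ) 1) (σ : GQ) :
    secVal p R χ S (a • w) σ = a • secVal p R χ S w σ := by
  unfold secVal
  rw [map_smul]
  rfl

/-- the family of matrix-valued cocycle functions -/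
def czOf : Hlc (levelS S) (adRep p R χ) 1 →ₗ[ZMod p] (GQ → Matrix (Fin 2) (Fin 2) k) where
  toFun w σ := (secVal p R χ S w σ).1
  map_add' w w' := by
    funext σ
    rw [secVal_add]
    rfl
  map_smul' a w := by
    funext σ
    rw [secVal_smul]
    rfl

theorem czOf_apply (w : Hlc (levelS S) (adRep p R χ) 1) (σ : GQ) :
    czOf p R χ S w σ = (secVal p R χ S w σ).1 := rfl

theorem secVal_mem (w : Hlc (levelS S) (adRep p R χ) 1) :
    (secVal p R χ S w : GQ → adRep p R χ) ∈ lcCocycles₁ (levelS S) (adRep p R χ) :=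
  (sec p R χ S w).2

/-- the cocycle relation of `czOf w` -/
theorem czOf_mul (w : Hlc (levelS S) (adRep p R χ) 1) (σ τ : GQ) :
    czOf p R χ S w (σ * τ) = czOf p R χ S w σ +
      ((χ σ : (ZMod p)ˣ) : ZMod p) • (R σ * czOf p R χ S w τ * R σ⁻¹) :=
  ((mem_lcCocycles₁_adRep_iff p R (levelS S) χ (secVal p R χ S w)).1 (secVal_mem p R χ S w)).1 σ τ

theorem czOf_isLC (w : Hlc (levelS S) (adRep p R χ) 1) :
    IsLC₁ (levelS S) (czOf p R χ S w) :=
  ((mem_lcCocycles₁_adRep_iff p R (levelS S) χ (secVal p R χ S w)).1 (secVal_mem p R χ S w)).2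

theorem czOf_trace (w : Hlc (levelS S) (adRep p R χ) 1) (σ : GQ) :
    (czOf p R χ S w σ).trace = 0 :=
  (mem_sl2F p).1 (secVal p R χ S w σ).2

theorem czOf_one (w : Hlc (levelS S) (adRep p R χ) 1) : czOf p R χ S w 1 = 0 := by
  have h := czOf_mul p R χ S w 1 1
  rw [mul_one, map_one, Units.val_one, one_smul, map_one, inv_one, map_one, Matrix.one_mul,
    Matrix.mul_one] at h
  have h' : czOf p R χ S w 1 + 0 = czOf p R χ S w 1 + czOf p R χ S w 1 := by
    rw [add_zero]; exact h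
  exact (add_left_cancel h').symm

/-- finite level: `czOf w` vanishes on the fixer of a finite extension -/
theorem czOf_finiteLevel (w : Hlc (levelS S) (adRep p R χ) 1) :
    ∃ L : IntermediateField ℚ (AlgebraicClosure ℚ), FiniteDimensional ℚ L ∧
      ∀ σ : GQ, (∀ x ∈ L, σ x = x) → czOf p R χ S w σ = 0 := by
  obtain ⟨U, ⟨F, hF, rfl⟩, h⟩ := czOf_isLC p R χ S w
  refine ⟨F, hF.1, fun σ hσ => ?_⟩
  have hmem : σ ∈ F.fixingSubgroup := (IntermediateField.mem_fixingSubgroup_iff F σ).2 hσ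
  have := h 1 σ hmem
  rw [one_mul] at this
  rw [this, czOf_one]

/-- a nonzero class is not a coboundary -/
theorem czOf_not_coboundary (w : Hlc (levelS S) (adRep p R χ) 1) (hw : w ≠ 0) :
    ¬ ∃ m : Matrix (Fin 2) (Fin 2) k, m.trace = 0 ∧
      ∀ σ, czOf p R χ S w σ = ((χ σ : (ZMod p)ˣ) : ZMod p) • (R σ * m * R σ⁻¹) - m := by
  rintro ⟨m, hm, h⟩
  apply hw
  rw [← Hlc1π_sec p R χ S w, Hlc1π_eq_zero_iff]
  exact (mem_coboundaries₁_adRep_iff p R χ (secVal p R χ S w)).2
    ⟨⟨m, (mem_sl2F p).2 hm⟩, fun σ => h σ⟩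

/-- **local triviality ⟹ range condition**: if the restriction of `y₀` to `G_{ℚ_q}` vanishes then
on the image of `G_{ℚ_q}` the cocycle `czOf y₀` is the coboundary of ONE traceless matrix. -/
theorem czOf_eq_coboundary_of_HlcRes_eq_zero (q : ℕ) [Fact q.Prime]
    [IsDiscrete (levelQ q) (Rep.res (localGaloisToGlobal q) (adRep p R χ))]
    (y₀ : Hlc (levelS S) (adRep p R χ) 1)
    (h : HlcRes (isContHom_localGaloisToGlobal S q) (adRep p R χ) 1 y₀ = 0) :
    ∃ m : Matrix (Fin 2) (Fin 2) k, m.trace = 0 ∧ ∀ τ : Gq q,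
      czOf p R χ S y₀ (localGaloisToGlobal q τ) =
        ((χ (localGaloisToGlobal q τ) : (ZMod p)ˣ) : ZMod p) •
          (R (localGaloisToGlobal q τ) * m * R (localGaloisToGlobal q τ)⁻¹) - m := by
  have h' : HlcPull (isContHom_localGaloisToGlobal S q)
      (𝟙 (Rep.res (localGaloisToGlobal q) (adRep p R χ))) 1
      (Hlc1π (levelS S) (adRep p R χ) (sec p R χ S y₀)) = 0 := by
    rw [Hlc1π_sec]
    exact h
  rw [HlcPull_Hlc1π, Hlc1π_eq_zero_iff] at h'
  obtain ⟨m, hm⟩ := h'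
  refine ⟨(m : sl2F p (k := k)).1, (mem_sl2F p).1 (m : sl2F p (k := k)).2, fun τ => ?_⟩
  have := congrFun hm τ
  rw [d₀₁_hom_apply] at this
  have h2 := congrArg (fun x : sl2F p (k := k) => x.1) this
  exact h2.symm

end Generic

/-! ### a Frobenius lift at `padicPlace q` in the image of `G_{ℚ_q}` -/

section Frob

open Fermat.Agent.GP.Loc.PadicPlace

/-- a Frobenius lift at `padicPlace q` for a prime `q` (and `1` otherwise) -/
def frAt (q : ℕ) : GQ :=
  if h : q.Prime then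
    haveI : Fact q.Prime := ⟨h⟩
    Classical.choose (Fermat.Agent.Common_helper32.exists_isFrobeniusAt_of_liesOver
      (padicPlace q) q h (padicPlace_liesOverPrime q))
  else 1

theorem frAt_spec (q : ℕ) [hq : Fact q.Prime] : (padicPlace q).IsFrobeniusAt (frAt q) q := by
  unfold frAt
  rw [dif_pos hq.out]
  exact Classical.choose_spec (Fermat.Agent.Common_helper32.exists_isFrobeniusAt_of_liesOver
    (padicPlace q) q hq.out (padicPlace_liesOverPrime q))

theorem frAt_exists (q : ℕ) (hq : q.Prime) :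
    ∃ A : ValuationSubring (AlgebraicClosure ℚ), A.LiesOverPrime q ∧ A.IsFrobeniusAt (frAt q) q := by
  haveI : Fact q.Prime := ⟨hq⟩
  exact ⟨padicPlace q, padicPlace_liesOverPrime q, frAt_spec q⟩

/-- `frAt q` comes from `G_{ℚ_q}` -/
theorem frAt_mem_range (q : ℕ) [Fact q.Prime] : ∃ τ : Gq q, localGaloisToGlobal q τ = frAt q := by
  have hmem : frAt q ∈ (padicPlace q).decompositionSubgroup ℚ :=
    (frAt_spec q).mem_decompositionSubgroup
  exact ⟨(eqDP q).symm ⟨frAt q, hmem⟩, localGaloisToGlobal_eqDP_symm q ⟨frAt q, hmem⟩⟩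

end Frob

/-! ### the frozen specialisation -/

section Frozen

open Fermat.Agent.S53_helper35 (toMatRes)

variable (p : ℕ) [Fact p.Prime] {k : Type} [Field k] [Algebra (ZMod p) k]
variable (ρbar : ResidualGaloisRep k) (b : Module.Basis (Fin 2) k ρbar.V)

theorem matRep_eq_toMatRes : Grp.matRep ρbar b = toMatRes ρbar b :=
  MonoidHom.ext fun _ => rfl

/-- the `𝔽_p`-scalar action on matrices through `k` -/
theorem zmod_smul_eq (c : ZMod p) (X : Matrix (Fin 2) (Fin 2) k) :
    c • X = ((c.val : ℕ) : k) • X := by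
  have : NeZero p := ⟨(Fact.out : p.Prime).ne_zero⟩
  rw [← algebraMap_smul k c X]
  congr 1
  conv_lhs => rw [← ZMod.natCast_zmod_val c]
  rw [map_natCast]

/-- the action of `[P-TW]` is the action of `adBarTw` -/
theorem adAct_eq (hdet : (GaloisRepAdic.ofResidualGaloisRep ρbar).DetIsCyclotomic p) (σ : GQ)
    (X : Matrix (Fin 2) (Fin 2) k) :
    adAct (Grp.matRep ρbar b) σ X =
      ((cycloChar p σ : (ZMod p)ˣ) : ZMod p) • (toMatRes ρbar b σ * X * toMatRes ρbar b σ⁻¹) := by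
  rw [adAct_eq_cycloChar p ρbar hdet b σ X, zmod_smul_eq]
  rfl

variable (S : Finset Nat.Primes) [IsDiscrete (levelS S) (adBarTw p ρbar b)]

/-- the cz-family of `ad⁰ρ̄(1)` -/
def czBar : Hlc (levelS S) (adBarTw p ρbar b) 1 →ₗ[ZMod p] (GQ → Matrix (Fin 2) (Fin 2) k) :=
  czOf p (toMatRes ρbar b) (cycloChar p) S

theorem czBar_isCocycle (hdet : (GaloisRepAdic.ofResidualGaloisRep ρbar).DetIsCyclotomic p)
    (w : Hlc (levelS S) (adBarTw p ρbar b) 1) :
    IsCocycle (adAct (Grp.matRep ρbar b)) (czBar p ρbar b S w) := by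
  intro σ τ
  rw [adAct_eq p ρbar b hdet]
  exact czOf_mul p (toMatRes ρbar b) (cycloChar p) S w σ τ

theorem czBar_trace (w : Hlc (levelS S) (adBarTw p ρbar b) 1) (g : GQ) :
    (czBar p ρbar b S w g).trace = 0 :=
  czOf_trace p (toMatRes ρbar b) (cycloChar p) S w g

theorem czBar_finiteLevel (w : Hlc (levelS S) (adBarTw p ρbar b) 1) :
    ∃ L : IntermediateField ℚ (AlgebraicClosure ℚ), FiniteDimensional ℚ L ∧
      ∀ σ : GQ, (∀ x ∈ L, σ x = x) → czBar p ρbar b S w σ = 0 :=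
  czOf_finiteLevel p (toMatRes ρbar b) (cycloChar p) S w

theorem czBar_not_coboundary (hdet : (GaloisRepAdic.ofResidualGaloisRep ρbar).DetIsCyclotomic p)
    (w : Hlc (levelS S) (adBarTw p ρbar b) 1) (hw : w ≠ 0) :
    ¬ ∃ m : Matrix (Fin 2) (Fin 2) k, m.trace = 0 ∧
      ∀ g, czBar p ρbar b S w g = adAct (Grp.matRep ρbar b) g m - m := by
  rintro ⟨m, hm, h⟩
  refine czOf_not_coboundary p (toMatRes ρbar b) (cycloChar p) S w hw ⟨m, hm, fun σ => ?_⟩
  rw [← adAct_eq p ρbar b hdet]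
  exact h σ

/-- **local triviality at `q` ⟹ the range condition at `frAt q`** -/
theorem czBar_frAt_mem_range (hdet : (GaloisRepAdic.ofResidualGaloisRep ρbar).DetIsCyclotomic p)
    (q : ℕ) [Fact q.Prime]
    [IsDiscrete (levelQ q) (Rep.res (localGaloisToGlobal q) (adBarTw p ρbar b))]
    (y₀ : Hlc (levelS S) (adBarTw p ρbar b) 1)
    (h : HlcRes (isContHom_localGaloisToGlobal S q) (adBarTw p ρbar b) 1 y₀ = 0) :
    czBar p ρbar b S y₀ (frAt q) ∈
      LinearMap.range (adAct (Grp.matRep ρbar b) (frAt q) - 1) := by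
  obtain ⟨m, -, hm⟩ :=
    czOf_eq_coboundary_of_HlcRes_eq_zero p (toMatRes ρbar b) (cycloChar p) S q y₀ h
  obtain ⟨τ, hτ⟩ := frAt_mem_range q
  refine ⟨m, ?_⟩
  rw [LinearMap.sub_apply, Module.End.one_apply, adAct_eq p ρbar b hdet, ← hτ]
  exact (hm τ).symm

/-- **S56-SEL-CZPACK, final form.**  Under the frozen hypotheses of S56, for `W := H¹(G_{ℚ,S},
ad⁰ρ̄(1))` in the pinned model (finite-dimensional over `𝔽_p`), every `n` and every finite `B₀`:
there are `r = dim_{𝔽_p} W` Taylor–Wiles primes with the frozen clauses such that a class of `W`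
whose restriction to `G_{ℚ_q}` vanishes at all of them is zero. -/
theorem exists_tw_primes_kill [Finite k] (hp2 : p ≠ 2)
    (habs : ρbar.IsAbsolutelyIrreducible)
    (hdet : (GaloisRepAdic.ofResidualGaloisRep ρbar).DetIsCyclotomic p)
    (hsplit : ∀ σ : GQ, ∃ α β : k, LinearMap.charpoly (ρbar.ρ σ) = (X - C α) * (X - C β))
    (hTW : ∀ (K : Type) [Field K] [Algebra k K] (G : Subgroup GQ), G.index = 2 →
      ∀ V : Submodule K (ρbar.baseChange K).V,
        (∀ σ ∈ G, ∀ x ∈ V, (ρbar.baseChange K).ρ σ x ∈ V) → V = ⊥ ∨ V = ⊤)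
    [Module.Finite (ZMod p) (Hlc (levelS S) (adBarTw p ρbar b) 1)]
    (n : ℕ) (B₀ : Finset ℕ) :
    ∃ qv : Fin (Module.finrank (ZMod p) (Hlc (levelS S) (adBarTw p ρbar b) 1)) → ℕ,
      Function.Injective qv ∧
      (∀ i, (qv i).Prime ∧ qv i ∉ B₀ ∧ p ^ (n + 1) ∣ qv i - 1) ∧
      (∀ i, ∀ (A : ValuationSubring (AlgebraicClosure ℚ)) (τ : GQ), A.LiesOverPrime (qv i) →
        A.IsFrobeniusAt τ (qv i) →
        ∃ α β : k, α ≠ β ∧ LinearMap.charpoly (ρbar.ρ τ) = (X - C α) * (X - C β)) ∧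
      ∀ y₀ : Hlc (levelS S) (adBarTw p ρbar b) 1,
        (∀ i, ∀ [Fact (qv i).Prime]
          [IsDiscrete (levelQ (qv i)) (Rep.res (localGaloisToGlobal (qv i)) (adBarTw p ρbar b))],
          HlcRes (isContHom_localGaloisToGlobal S (qv i)) (adBarTw p ρbar b) 1 y₀ = 0) →
        y₀ = 0 := by
  obtain ⟨qv, hinj, hq, hss, hkill⟩ :=
    tw_export_at p hp2 ρbar habs hdet hsplit hTW b
      (GT1Frozen.gt1_frozen p hp2 ρbar habs hdet hsplit hTW b)
      (czBar p ρbar b S) (czBar_isCocycle p ρbar b S hdet) (czBar_trace p ρbar b S)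
      (czBar_finiteLevel p ρbar b S) (czBar_not_coboundary p ρbar b S hdet)
      frAt frAt_exists n B₀
  refine ⟨qv, hinj, hq, hss, fun y₀ hy => hkill y₀ (fun i => ?_)⟩
  haveI : Fact (qv i).Prime := ⟨(hq i).1⟩
  haveI : IsDiscrete (levelQ (qv i)) (Rep.res (localGaloisToGlobal (qv i)) (adBarTw p ρbar b)) :=
    isDiscrete_res_localGaloisToGlobal S (qv i) (adBarTw p ρbar b)
  exact czBar_frAt_mem_range p ρbar b S hdet (qv i) y₀ (hy i)

end Frozen

end Fermat.Agent.GP.TW.CzPack
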