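/-
GATE-P / S56 [SEL]/[CORE] node S56-SEL-CZKILL (helper49): **the Taylor–Wiles sets kill the dual
Selmer group of `ad⁰ρ̄`, in the pinned model, from the FROZEN hypotheses of S56.**

This is the binder `hTWK` of the CORE assembly (`GP/Core/CoreAsm.selmerBounds_base_of_nodes`,
helper35) for `N := adBar p ρbar b`:

* `HlcRes_HlcMap_eq_zero`   : restriction to `G_{ℚ_q}` commutes with a coefficient map;
* `kill_dualTwist`          : the `hkill` property of `CzPack.exists_tw_primes_kill` (stated for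
  `adBarTw = ad⁰ρ̄(1)`) transported to `N* = (adBar).dualTwist (cycloChar p)` along helper94's
  `adBarTwIso`;
* `dualSelmerGrp_eq_bot_of_tw` : with helper97's `PerpIndep.dualSelmerGrp_eq_bot_of_kill` and
  helper19's `NineTermFinal.locPair_right_nondeg`: for `T' ⊇ Sig`, EVERY family `L` of local
  conditions which is `⊤` at the places of `T' ∖ Sig`, and every `Δ : PTData T'`, the dual Selmer
  group vanishes as soon as the primes of `T' ∖ Sig` kill `H¹(G_{ℚ,Sig}, N*)`;
* **`exists_hTWK`**         : `∃ r, ∀ n, ∃ qv : Fin r → ℕ, …` = `hTWK` verbatim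
  (`levelOfTW Sig qv` unfolded to `Sig ∪ primesIn (univ.image qv)`), from `p ≠ 2`, `habs`, `hdet`,
  `hsplit`, `hTW`, `p ∈ Sig`, `ρ̄` unramified outside `Sig`.  No other binder.
NEW file; imports only.
-/
import Fermat.Agent.GP.TW.CzPack
import Fermat.Agent.GP.GW.PerpIndep
import Fermat.Agent.GP.GW.NineTermFinal
import Fermat.Agent.GP.Tan.SelmerFrozen

set_option autoImplicit false

noncomputable section

namespace Fermat.Agent.GP.TW.CzKill

open Matrix Module Polynomial CategoryTheory groupCohomology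
open Fermat.Agent.GC.Prof Fermat.Agent.GC.Prof.Cone Fermat.Agent.GC.C0 Fermat.Agent.GC.Places
open Fermat.Agent.GC.Local.KR Fermat.Agent.GC.PT.LocDataQ Fermat.Agent.GP.GW ExtCitation
open Fermat.Agent.GP.Bridge.Ad0 Fermat.Agent.GP.Tan.SelmerFrozen

local instance factPrimeCzKill (q : Nat.Primes) : Fact ((q : ℕ).Prime) := ⟨q.2⟩

/-! ### restriction and coefficient maps -/

section Transport

variable {p : ℕ} [Fact p.Prime]

/-- Restriction to `G_{ℚ_q}` commutes with a coefficient map: if the restriction of `y` vanishes,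
so does the restriction of its image. -/
theorem HlcRes_HlcMap_eq_zero {A B : Rep (ZMod p) GQ} (α : B ⟶ A) (T : Finset Nat.Primes)
    [IsDiscrete (levelS T) A] [IsDiscrete (levelS T) B] (q : ℕ) [Fact q.Prime]
    [IsDiscrete (levelQ q) (Rep.res (localGaloisToGlobal q) A)]
    [IsDiscrete (levelQ q) (Rep.res (localGaloisToGlobal q) B)] (n : ℕ)
    (y : Hlc (levelS T) B n)
    (hy : HlcRes (isContHom_localGaloisToGlobal T q) B n y = 0) :
    HlcRes (isContHom_localGaloisToGlobal T q) A n (HlcMap (levelS T) α n y) = 0 := by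
  have h := HlcMap_comp_HlcRes (isContHom_localGaloisToGlobal T q) α n
  have h2 := congr($h y)
  rw [ModuleCat.comp_apply, ModuleCat.comp_apply, hy, map_zero] at h2
  exact h2

/-- a class killed by an isomorphism of coefficients is zero -/
theorem eq_zero_of_HlcMap_inv_eq_zero {A B : Rep (ZMod p) GQ} (e : A ≅ B) (T : Finset Nat.Primes)
    [IsDiscrete (levelS T) A] [IsDiscrete (levelS T) B] (n : ℕ) (y : Hlc (levelS T) B n)
    (hy : HlcMap (levelS T) e.inv n y = 0) : y = 0 := by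
  have h : HlcMap (levelS T) e.inv n ≫ HlcMap (levelS T) e.hom n = 𝟙 _ := by
    rw [← HlcMap_comp, e.inv_hom_id, HlcMap_id]
  have h2 := congr($h y)
  rw [ModuleCat.comp_apply, hy, map_zero] at h2
  exact h2.symm

end Transport

/-! ### the frozen specialisation -/

section Frozen

variable (p : ℕ) [Fact p.Prime] {k : Type} [Field k] [Algebra (ZMod p) k] [Finite k]
variable (ρbar : ResidualGaloisRep k) (b : Module.Basis (Fin 2) k ρbar.V)

/-- **The kill property for `N* = (ad⁰ρ̄)^*`**, from the one for `ad⁰ρ̄(1)`. -/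
theorem kill_dualTwist (hp2 : p ≠ 2) (T : Finset Nat.Primes)
    [IsDiscrete (levelS T) (adBarTw p ρbar b)]
    [IsDiscrete (levelS T) ((adBar p ρbar b).dualTwist (cycloChar p))]
    {r : ℕ} (qv : Fin r → ℕ)
    (hkill : ∀ y₀ : Hlc (levelS T) (adBarTw p ρbar b) 1,
      (∀ i, ∀ [Fact (qv i).Prime]
        [IsDiscrete (levelQ (qv i)) (Rep.res (localGaloisToGlobal (qv i)) (adBarTw p ρbar b))],
        HlcRes (isContHom_localGaloisToGlobal T (qv i)) (adBarTw p ρbar b) 1 y₀ = 0) → y₀ = 0)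
    (y : Hlc (levelS T) ((adBar p ρbar b).dualTwist (cycloChar p)) 1)
    (hy : ∀ i, ∀ [Fact (qv i).Prime]
      [IsDiscrete (levelQ (qv i))
        (Rep.res (localGaloisToGlobal (qv i)) ((adBar p ρbar b).dualTwist (cycloChar p)))],
      HlcRes (isContHom_localGaloisToGlobal T (qv i))
        ((adBar p ρbar b).dualTwist (cycloChar p)) 1 y = 0) : y = 0 := by
  apply eq_zero_of_HlcMap_inv_eq_zero (adBarTwIso p ρbar b hp2) T 1 y
  apply hkill
  intro i hF hD
  have : IsDiscrete (levelQ (qv i))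
      (Rep.res (localGaloisToGlobal (qv i)) ((adBar p ρbar b).dualTwist (cycloChar p))) :=
    isDiscrete_res_localGaloisToGlobal T (qv i) ((adBar p ρbar b).dualTwist (cycloChar p))
  exact HlcRes_HlcMap_eq_zero (adBarTwIso p ρbar b hp2).inv T (qv i) 1 y (hy i)

end Frozen

/-! ### the dual Selmer group for `T' ⊇ T` -/

section Kill

variable {p : ℕ} [Fact p.Prime]

/-- **The dual Selmer group for `T' ⊇ T` vanishes** for EVERY family of local conditions which is
`⊤` at the places of `T' ∖ T`, as soon as the places of `T' ∖ T` kill `H¹(G_{ℚ,T}, M*)`.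
(helper97 `PerpIndep.dualSelmerGrp_eq_bot_of_kill` + helper19 local Tate duality.) -/
theorem dualSelmerGrp_eq_bot_of_tw {T T' : Finset Nat.Primes} (hTT' : T ⊆ T')
    (hpT : pPrime p ∈ T)
    [IsDiscrete (levelS T) (TChi p)] [IsDiscrete (levelS T') (TChi p)]
    (M : Rep (ZMod p) GQ) [FiniteDimensional (ZMod p) M]
    [IsDiscrete (levelS T) M] [IsDiscrete (levelS T') M]
    [IsDiscrete (levelS T) (M.dualTwist (cycloChar p))]
    [IsDiscrete (levelS T') (M.dualTwist (cycloChar p))]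
    (Δ₀ : PTData (p := p) T) (Δ : PTData (p := p) T')
    (L : ∀ v : ↥T', Submodule (ZMod p) (Hloc T' M v 1))
    (hQ : ∀ v : ↥T', (v : Nat.Primes) ∉ T → L v = ⊤)
    (hkill : ∀ y₀ : Hlc (levelS T) (M.dualTwist (cycloChar p)) 1,
      (∀ (q : Nat.Primes) (_ : q ∈ T') (_ : q ∉ T)
          [IsDiscrete (levelQ (q : ℕ))
            (Rep.res (localGaloisToGlobal (q : ℕ)) (M.dualTwist (cycloChar p)))],
          HlcRes (isContHom_localGaloisToGlobal T (q : ℕ)) (M.dualTwist (cycloChar p)) 1 y₀ = 0) →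
        y₀ = 0) :
    dualSelmerGrp M Δ L = ⊥ :=
  PerpIndep.dualSelmerGrp_eq_bot_of_kill hTT' M Δ₀ Δ
    (fun v : ↥T => (L ⟨v.1, hTT' v.2⟩ : Submodule (ZMod p) (Hloc T M v 1))) L
    (fun _ => rfl) hQ
    (fun v _ y h => NineTermFinal.locPair_right_nondeg Δ (hTT' hpT) M v y h)
    (fun y₀ _ h => hkill y₀ h)

end Kill

/-! ### the binder `hTWK` of CORE -/

section Final

variable (p : ℕ) [Fact p.Prime] {k : Type} [Field k] [Algebra (ZMod p) k] [Finite k]
variable (ρbar : ResidualGaloisRep k) (b : Module.Basis (Fin 2) k ρbar.V)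

/-- `H¹(G_{ℚ,Sig}, ad⁰ρ̄(1))` is finite-dimensional (Poitou–Tate, through `(ad⁰ρ̄)^*`). -/
theorem finite_Hlc_adBarTw (hp2 : p ≠ 2) (Sig : Finset Nat.Primes) (hpSig : pPrime p ∈ Sig)
    [IsDiscrete (levelS Sig) (TChi p)]
    [IsDiscrete (levelS Sig) (adBar p ρbar b)] [IsDiscrete (levelS Sig) (adBarTw p ρbar b)]
    [IsDiscrete (levelS Sig) ((adBar p ρbar b).dualTwist (cycloChar p))] :
    Module.Finite (ZMod p) (Hlc (levelS Sig) (adBarTw p ρbar b) 1) := by
  obtain ⟨Δ₀⟩ := nonempty_ptData hp2 Sig hpSig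
  have hfin : FiniteDimensional (ZMod p)
      (Hlc (levelS Sig) ((adBar p ρbar b).dualTwist (cycloChar p)) 1) :=
    (NineTermFinal.preEuler_holds Δ₀ hpSig (adBar p ρbar b) (fun _ => ⊤)).2.1
  refine Module.Finite.of_injective
    (HlcMap (levelS Sig) (adBarTwIso p ρbar b hp2).hom 1).hom ?_
  rw [injective_iff_map_eq_zero]
  intro y hy
  exact eq_zero_of_HlcMap_inv_eq_zero (adBarTwIso p ρbar b hp2).symm Sig 1 y hy

/-- **S56-SEL-CZKILL = the binder `hTWK` of `CoreAsm.selmerBounds_base_of_nodes` for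
`N := adBar p ρbar b`**, from the frozen hypotheses of S56, `p ∈ Sig` and `ρ̄` unramified outside
`Sig`: there is `r` such that for every `n` there are `r` Taylor–Wiles primes (frozen clauses,
outside `S` and `Sig`) such that for the level `Sig ∪ Q` every dual Selmer group whose local
conditions are `⊤` at `Q` vanishes. -/
theorem exists_hTWK (hp2 : p ≠ 2)
    (habs : ρbar.IsAbsolutelyIrreducible)
    (hdet : (GaloisRepAdic.ofResidualGaloisRep ρbar).DetIsCyclotomic p)
    (hsplit : ∀ σ : GQ, ∃ α β : k, LinearMap.charpoly (ρbar.ρ σ) = (X - C α) * (X - C β))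
    (hTW : ∀ (K : Type) [Field K] [Algebra k K] (G : Subgroup GQ), G.index = 2 →
      ∀ V : Submodule K (ρbar.baseChange K).V,
        (∀ σ ∈ G, ∀ x ∈ V, (ρbar.baseChange K).ρ σ x ∈ V) → V = ⊥ ∨ V = ⊤)
    (S : Finset ℕ) (Sig : Finset Nat.Primes) (hpSig : pPrime p ∈ Sig)
    (hur : ∀ q : Nat.Primes, q ∉ Sig → ρbar.IsUnramifiedAt (q : ℕ)) :
    ∃ r : ℕ, ∀ n : ℕ, ∃ qv : Fin r → ℕ, Function.Injective qv ∧
      (∀ i, (qv i).Prime ∧ qv i ∉ S ∧ p ^ (n + 1) ∣ qv i - 1) ∧
      (∀ i, ∀ P : ValuationSubring (AlgebraicClosure ℚ), P.LiesOverPrime (qv i) →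
        ∀ φ : AlgebraicClosure ℚ ≃ₐ[ℚ] AlgebraicClosure ℚ, P.IsFrobeniusAt φ (qv i) →
          ∃ α β : k, α ≠ β ∧ LinearMap.charpoly (ρbar.ρ φ) = (X - C α) * (X - C β)) ∧
      (∀ i, ∀ q ∈ Sig, ((q : Nat.Primes) : ℕ) ≠ qv i) ∧
      ∀ [IsDiscrete (levelS (Sig ∪ primesIn (Finset.univ.image qv))) (TChi p)]
        [IsDiscrete (levelS (Sig ∪ primesIn (Finset.univ.image qv))) (adBar p ρbar b)]
        [IsDiscrete (levelS (Sig ∪ primesIn (Finset.univ.image qv)))
          ((adBar p ρbar b).dualTwist (cycloChar p))]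
        (Δ : PTData (p := p) (Sig ∪ primesIn (Finset.univ.image qv)))
        (L : ∀ v : ↥(Sig ∪ primesIn (Finset.univ.image qv)), Submodule (ZMod p)
          (Hloc (Sig ∪ primesIn (Finset.univ.image qv)) (adBar p ρbar b) v 1)),
        (∀ v : ↥(Sig ∪ primesIn (Finset.univ.image qv)),
          ((v : Nat.Primes) : ℕ) ∈ Finset.univ.image qv → L v = ⊤) →
        dualSelmerGrp (adBar p ρbar b) Δ L = ⊥ := by
  have hdT : IsDiscrete (levelS Sig) (TChi p) := isDiscrete_TChi Sig hpSig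
  have hdN : IsDiscrete (levelS Sig) (adBar p ρbar b) := isDiscrete_adBar p ρbar b Sig hur
  have hdTw : IsDiscrete (levelS Sig) (adBarTw p ρbar b) :=
    isDiscrete_adBarTw p ρbar b Sig hpSig hur
  have hdNs : IsDiscrete (levelS Sig) ((adBar p ρbar b).dualTwist (cycloChar p)) :=
    IsDiscrete.of_iso (adBarTwIso p ρbar b hp2)
  have hfin : Module.Finite (ZMod p) (Hlc (levelS Sig) (adBarTw p ρbar b) 1) :=
    finite_Hlc_adBarTw p ρbar b hp2 Sig hpSig
  obtain ⟨Δ₀⟩ := nonempty_ptData hp2 Sig hpSig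
  refine ⟨Module.finrank (ZMod p) (Hlc (levelS Sig) (adBarTw p ρbar b) 1), fun n => ?_⟩
  obtain ⟨qv, hinj, hq, hss, hkill⟩ :=
    CzPack.exists_tw_primes_kill p ρbar b Sig hp2 habs hdet hsplit hTW n
      (S ∪ Sig.image fun q : Nat.Primes => (q : ℕ))
  have hqSig : ∀ i, ∀ q ∈ Sig, ((q : Nat.Primes) : ℕ) ≠ qv i := fun i q hqm h =>
    (hq i).2.1 (Finset.mem_union_right _ (Finset.mem_image.2 ⟨q, hqm, h⟩))
  refine ⟨qv, hinj,
    fun i => ⟨(hq i).1, fun h => (hq i).2.1 (Finset.mem_union_left _ h), (hq i).2.2⟩,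
    fun i P hP φ hφ => hss i P φ hP hφ, hqSig, ?_⟩
  intro hdT' hdN' hdNs' Δ L hL
  refine dualSelmerGrp_eq_bot_of_tw (T := Sig) Finset.subset_union_left hpSig (adBar p ρbar b)
    Δ₀ Δ L ?_ ?_
  · rintro ⟨q, hq'⟩ hqT
    apply hL
    rcases Finset.mem_union.1 hq' with h | h
    · exact absurd h hqT
    · exact mem_primesIn.1 h
  · intro y₀ hy
    refine kill_dualTwist p ρbar b hp2 Sig qv hkill y₀ ?_
    intro i hF hD
    have hmem : (⟨qv i, (hq i).1⟩ : Nat.Primes) ∈ Sig ∪ primesIn (Finset.univ.image qv) :=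
      Finset.mem_union_right _
        (mem_primesIn.2 (Finset.mem_image_of_mem qv (Finset.mem_univ i)))
    have hnot : (⟨qv i, (hq i).1⟩ : Nat.Primes) ∉ Sig := fun h => hqSig i _ h rfl
    exact @hy ⟨qv i, (hq i).1⟩ hmem hnot hD

end Final

end Fermat.Agent.GP.TW.CzKill
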