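import Mathlib
import Fermat.Agent.GJ.CycChar
import Fermat.Agent.GP.TW.ChebExist

/-!
# GATE-P / S56 [P-TW] leaf (helper6): the mod `p^m` cyclotomic condition of Taylor–Wiles primes

* `eq_one_of_sub_one_mem_nonunits` : away from `p`, a root of unity of `p`-power order which is
  `≡ 1` modulo the maximal ideal of a valuation subring is `1`;
* `dvd_sub_one_of_frob_fixes` : if a Frobenius lift at `q ≠ p` fixes a primitive `p^m`-th root of
  unity then `p^m ∣ q - 1`;
* `cycPow p m : G_ℚ →* (ZMod (p^m))ˣ` : the mod `p^m` cyclotomic character, finite level,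
  `cycPow_eq_one_iff`, `cycPow_eq_one_of_fixes`;
* `exists_tw_prime` : helper24's `exists_prime_forall_frob` with the frozen S56 conjunct
  `p ^ m ∣ q - 1` added: for a finite-level `ρ : G_ℚ →* M`, `σ₀ ∈ G_ℚ` fixing `μ_{p^m}` and a
  finite set `B` there is a prime `q ∉ B`, `q ≡ 1 mod p^m`, such that for EVERY Frobenius lift `τ`
  at EVERY place over `q`, `ρ τ` is the `ρ`-image of a conjugate of `σ₀`.
-/

set_option autoImplicit false
set_option linter.style.haveILetI false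

open Fermat.Agent.Common_helper32
open Fermat.Agent.GJ.CycChar

namespace Fermat.Agent.GP.TW.CycPow

section General

variable {L : Type*} [Field L]

/-- Away from `p`, a root of unity of `p`-power order which is `≡ 1` modulo the maximal ideal of a
valuation subring is `1`. -/
theorem eq_one_of_sub_one_mem_nonunits {A : ValuationSubring L} {p q : ℕ} [Fact p.Prime]
    (hq : q.Prime) (hne : q ≠ p) (hA : (q : L) ∈ A.nonunits) :
    ∀ (m : ℕ) {η : L}, η ^ p ^ m = 1 → η ∈ A → η - 1 ∈ A.nonunits → η = 1 := by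
  have hp : p.Prime := Fact.out
  intro m
  induction m with
  | zero =>
    intro η hη _ _
    simpa using hη
  | succ m ih =>
    intro η hη hηA h
    -- `η^p` is `≡ 1` as well
    have h1 : (η ^ p) ^ p ^ m = 1 := by rw [← pow_mul, ← pow_succ']; exact hη
    have h2 : η ^ p - 1 ∈ A.nonunits := by
      have hdvd : η ^ p - 1 = (η - 1) * ∑ j ∈ Finset.range p, η ^ j := by
        rw [mul_comm, geom_sum_mul]
      rw [hdvd]
      have hmem : (∑ j ∈ Finset.range p, η ^ j) ∈ A := sum_mem fun j _ => pow_mem hηA j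
      rw [A.mem_nonunits_iff] at h ⊢
      rw [map_mul]
      exact mul_lt_one_of_lt_of_le h ((A.valuation_le_one_iff _).mpr hmem)
    have h3 : η ^ p = 1 := ih h1 (pow_mem hηA p) h2
    by_contra hη1
    have hord : orderOf η = p := orderOf_eq_prime h3 hη1
    have hprim : IsPrimitiveRoot η p := hord ▸ IsPrimitiveRoot.orderOf η
    exact false_of_two_primes_mem hp hq hne
      (natCast_mem_nonunits_of_sub_one_mem hprim hηA h) hA

end General

section Frob

variable {p : ℕ} [Fact p.Prime]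

/-- If a Frobenius lift at `q ≠ p` fixes a primitive `p^m`-th root of unity then `q ≡ 1 mod p^m`. -/
theorem dvd_sub_one_of_frob_fixes {q : ℕ} (hq : q.Prime) (hne : q ≠ p)
    {A : ValuationSubring Qb} (hA : A.LiesOverPrime q) {τ : GQ} (hτ : A.IsFrobeniusAt τ q)
    {m : ℕ} {ζ : Qb} (hζ : IsPrimitiveRoot ζ (p ^ m)) (hfix : τ ζ = ζ) : p ^ m ∣ q - 1 := by
  have hp : p.Prime := Fact.out
  have hpm : 0 < p ^ m := pow_pos hp.pos m
  have hζA : ζ ∈ A := isIntegral_mem_valuationSubring A ζ (hζ.isIntegral hpm)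
  have h1 := apply_sub_pow_mem_nonunits hτ hζA
  rw [hfix] at h1
  have hζ0 : ζ ≠ 0 := hζ.ne_zero hpm.ne'
  have hval : A.valuation ζ = 1 := by
    have h2 : A.valuation ζ ^ p ^ m = 1 := by rw [← map_pow, hζ.pow_eq_one, map_one]
    exact (pow_eq_one_iff_left hpm.ne').mp h2
  -- `ζ - ζ^q = -ζ (ζ^(q-1) - 1)`
  have hq1 : q = (q - 1) + 1 := (Nat.sub_add_cancel hq.one_le).symm
  have he : ζ - ζ ^ q = -(ζ * (ζ ^ (q - 1) - 1)) := by
    conv_lhs => rw [hq1, pow_succ]
    ring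
  have h3 : ζ ^ (q - 1) - 1 ∈ A.nonunits := by
    rw [he, A.mem_nonunits_iff, Valuation.map_neg, map_mul, hval, one_mul] at h1
    rwa [A.mem_nonunits_iff]
  have h4 : (ζ ^ (q - 1)) ^ p ^ m = 1 := by
    rw [← pow_mul, mul_comm, pow_mul, hζ.pow_eq_one, one_pow]
  have h5 : ζ ^ (q - 1) = 1 :=
    eq_one_of_sub_one_mem_nonunits hq hne hA m h4 (pow_mem hζA _) h3
  exact (hζ.pow_eq_one_iff_dvd (q - 1)).mp h5

end Frob

section Cyc

variable (p : ℕ) [Fact p.Prime] (m : ℕ)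

instance neZero_pow : NeZero (p ^ m) := ⟨(pow_pos (Fact.out : p.Prime).pos m).ne'⟩

/-- The mod `p^m` cyclotomic character of `G_ℚ`. -/
noncomputable def cycPow : GQ →* (ZMod (p ^ m))ˣ :=
  MonoidHom.mk'
    (fun σ => modularCyclotomicCharacter Qb (IsAlgClosed.card_rootsOfUnity_eq Qb (p ^ m))
      (σ : Qb ≃+* Qb))
    (fun a b => by rw [← map_mul]; congr 1)

theorem exists_primitiveRoot_pow : ∃ ζ : Qb, IsPrimitiveRoot ζ (p ^ m) := by
  have : NeZero ((p ^ m : ℕ) : Qb) := ⟨Nat.cast_ne_zero.mpr (NeZero.ne (p ^ m))⟩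
  exact HasEnoughRootsOfUnity.exists_primitiveRoot Qb (p ^ m)

variable {p m}

theorem apply_eq_pow_cycPow {ζ : Qb} (hζ : IsPrimitiveRoot ζ (p ^ m)) (σ : GQ) :
    σ ζ = ζ ^ ((cycPow p m σ : (ZMod (p ^ m))ˣ) : ZMod (p ^ m)).val := by
  have h := modularCyclotomicCharacter.spec Qb (IsAlgClosed.card_rootsOfUnity_eq Qb (p ^ m))
    (σ : Qb ≃+* Qb) (t := hζ.toRootsOfUnity) (SetLike.coe_mem hζ.toRootsOfUnity)
  exact h

/-- `cycPow σ = 1` iff `σ` fixes one (equivalently every) primitive `p^m`-th root of unity. -/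
theorem cycPow_eq_one_iff {ζ : Qb} (hζ : IsPrimitiveRoot ζ (p ^ m)) (σ : GQ) :
    cycPow p m σ = 1 ↔ σ ζ = ζ := by
  by_cases h1 : p ^ m = 1
  · have hζ1 : ζ = 1 := by
      rw [h1] at hζ
      exact IsPrimitiveRoot.one_right_iff.mp hζ
    haveI : Subsingleton (ZMod (p ^ m))ˣ := by
      rw [h1]; infer_instance
    exact ⟨fun _ => by rw [hζ1, map_one], fun _ => Subsingleton.elim _ _⟩
  · have hlt : 1 < p ^ m := lt_of_le_of_ne NeZero.one_le (Ne.symm h1)
    haveI : Fact (1 < p ^ m) := ⟨hlt⟩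
    constructor
    · intro h
      rw [apply_eq_pow_cycPow hζ, h, Units.val_one, ZMod.val_one, pow_one]
    · intro h
      have h2 : ζ ^ 1 = ζ ^ ((cycPow p m σ : (ZMod (p ^ m))ˣ) : ZMod (p ^ m)).val := by
        rw [pow_one, ← apply_eq_pow_cycPow hζ σ, h]
      have h3 := hζ.pow_inj hlt (ZMod.val_lt _) h2
      apply Units.ext
      rw [Units.val_one,
        ← ZMod.natCast_zmod_val ((cycPow p m σ : (ZMod (p ^ m))ˣ) : ZMod (p ^ m)), ← h3,
        Nat.cast_one]

/-- If `σ` fixes every `p^m`-th root of unity then `cycPow σ = 1`. -/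
theorem cycPow_eq_one_of_fixes {σ : GQ} (hσ : ∀ μ : Qb, μ ^ p ^ m = 1 → σ μ = μ) :
    cycPow p m σ = 1 := by
  obtain ⟨ζ, hζ⟩ := exists_primitiveRoot_pow p m
  exact (cycPow_eq_one_iff hζ σ).mpr (hσ ζ hζ.pow_eq_one)

variable (p m)

/-- The mod `p^m` cyclotomic character factors through `ℚ(ζ_{p^m})`. -/
theorem cycPow_finiteLevel : GaloisFactorsThroughFiniteLevel (cycPow p m) := by
  obtain ⟨ζ, hζ⟩ := exists_primitiveRoot_pow p m
  have hint : IsIntegral ℚ ζ :=
    (hζ.isIntegral (pow_pos (Fact.out : p.Prime).pos m)).tower_top (R := ℤ)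
  refine ⟨IntermediateField.adjoin ℚ {ζ}, IntermediateField.adjoin.finiteDimensional hint,
    fun σ hσ => ?_⟩
  rw [cycPow_eq_one_iff hζ]
  exact hσ ζ (IntermediateField.mem_adjoin_simple_self ℚ ζ)

end Cyc

section TW

open Fermat.Agent.GP.TW.ChebExist

variable {M : Type} [Monoid M]

/-- **Taylor–Wiles prime, existence form with the frozen S56 quantifiers**: for a finite-level
`ρ : G_ℚ →* M`, a prime `p`, `m : ℕ`, `σ₀ ∈ G_ℚ` fixing `μ_{p^m}` and a finite set `B` of primes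
there is a prime `q ∉ B` with `p ^ m ∣ q - 1` such that for EVERY Frobenius lift `τ` at EVERY place
of `ℚ̄` over `q`, `ρ τ` is the `ρ`-image of a conjugate of `σ₀`. -/
theorem exists_tw_prime (ρ : GQ →* M) (hρ : GaloisFactorsThroughFiniteLevel ρ)
    (p : ℕ) [Fact p.Prime] (m : ℕ) (σ₀ : GQ) (hσ₀ : ∀ μ : Qb, μ ^ p ^ m = 1 → σ₀ μ = μ)
    (B : Finset ℕ) :
    ∃ q : ℕ, q.Prime ∧ q ∉ B ∧ q ≠ p ∧ p ^ m ∣ q - 1 ∧
      ∀ (A : ValuationSubring Qb) (τ : GQ), A.LiesOverPrime q → A.IsFrobeniusAt τ q →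
        ∃ g : GQ, ρ τ = ρ (g * σ₀ * g⁻¹) := by
  classical
  obtain ⟨ζ, hζ⟩ := exists_primitiveRoot_pow p m
  obtain ⟨q, hq, hqB, h⟩ := exists_prime_forall_frob (ρ.prod (cycPow p m))
    (factorsThroughFiniteLevel_prod _ _ hρ (cycPow_finiteLevel p m)) σ₀ (insert p B)
  have hqp : q ≠ p := fun h' => hqB (h' ▸ Finset.mem_insert_self _ _)
  have hqB' : q ∉ B := fun h' => hqB (Finset.mem_insert_of_mem h')
  have hσ₀1 : cycPow p m σ₀ = 1 := cycPow_eq_one_of_fixes hσ₀
  refine ⟨q, hq, hqB', hqp, ?_, fun A τ hA hτ => ?_⟩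
  · obtain ⟨A, hA⟩ := exists_liesOverPrime q hq
    obtain ⟨τ, hτ⟩ := exists_isFrobeniusAt_of_liesOver A q hq hA
    obtain ⟨g, hg⟩ := h A τ hA hτ
    have h2 : cycPow p m τ = cycPow p m (g * σ₀ * g⁻¹) := by
      have := congrArg Prod.snd hg
      simpa [MonoidHom.prod_apply] using this
    rw [map_mul, map_mul, hσ₀1, mul_one, map_inv, mul_inv_cancel] at h2
    exact dvd_sub_one_of_frob_fixes hq hqp hA hτ hζ ((cycPow_eq_one_iff hζ τ).mp h2)
  · obtain ⟨g, hg⟩ := h A τ hA hτ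
    refine ⟨g, ?_⟩
    have := congrArg Prod.fst hg
    simpa [MonoidHom.prod_apply] using this

end TW

end Fermat.Agent.GP.TW.CycPow
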