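/-
GATE-P / S56 [P-TW] node T6(iv): the CLIFFORD step, Mathlib-only core (helper45).

`ρ : G →* GL₂`-valued (as a monoid hom into `Matrix (Fin 2) (Fin 2) k`), `N ⊲ G` with abelian
quotient, all characteristic polynomials split over `k`, and `ρ` has no common eigenvector on any
subgroup of index `1` or `2`.  Then `ρ|N` has no common eigenvector.

Any field, no hypothesis on the characteristic, no finiteness.
-/
import Mathlib
import Fermat.Agent.GP.TW.SigmaLemma

set_option autoImplicit false
set_option maxHeartbeats 400000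

open Matrix Polynomial

namespace Fermat.Agent.GP.TW.CliffordCore

open Fermat.Agent.GP.TW.SigmaLemma

variable {k : Type*} [Field k]

/-! ### the `2 × 2` determinant of two vectors -/

/-- the determinant of the matrix with columns `a`, `b` -/
def dd (a b : Fin 2 → k) : k := a 0 * b 1 - a 1 * b 0

theorem dd_self (a : Fin 2 → k) : dd a a = 0 := by
  unfold dd; ring

theorem dd_smul_right (a b : Fin 2 → k) (c : k) : dd a (c • b) = c * dd a b := by
  simp only [dd, Pi.smul_apply, smul_eq_mul]; ring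

theorem dd_smul_left (a b : Fin 2 → k) (c : k) : dd (c • a) b = c * dd a b := by
  simp only [dd, Pi.smul_apply, smul_eq_mul]; ring

theorem dd_mulVec (m : Matrix (Fin 2) (Fin 2) k) (a b : Fin 2 → k) :
    dd (m *ᵥ a) (m *ᵥ b) = m.det * dd a b := by
  simp only [dd, Matrix.mulVec, dotProduct, Fin.sum_univ_two, Matrix.det_fin_two]; ring

theorem dd_trace (m : Matrix (Fin 2) (Fin 2) k) (a b : Fin 2 → k) :
    dd (m *ᵥ a) b + dd a (m *ᵥ b) = m.trace * dd a b := by
  simp only [dd, Matrix.mulVec, dotProduct, Fin.sum_univ_two, Matrix.trace_fin_two]; ring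

theorem exists_smul_of_dd_eq_zero {a b : Fin 2 → k} (ha : a ≠ 0) (h : dd a b = 0) :
    ∃ c : k, b = c • a := by
  unfold dd at h
  by_cases h0 : a 0 = 0
  · have h1 : a 1 ≠ 0 := by
      intro h1
      apply ha
      funext i
      fin_cases i
      · exact h0
      · exact h1
    refine ⟨b 1 / a 1, ?_⟩
    funext i
    fin_cases i
    · simp only [Fin.zero_eta, Pi.smul_apply, smul_eq_mul]
      rw [h0, zero_mul, zero_sub, neg_eq_zero] at h
      rcases mul_eq_zero.mp h with h | h
      · exact absurd h h1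
      · rw [h, h0, mul_zero]
    · simp only [Fin.mk_one, Pi.smul_apply, smul_eq_mul]
      field_simp
  · refine ⟨b 0 / a 0, ?_⟩
    funext i
    fin_cases i
    · simp only [Fin.zero_eta, Pi.smul_apply, smul_eq_mul]
      field_simp
    · simp only [Fin.mk_one, Pi.smul_apply, smul_eq_mul]
      field_simp
      linear_combination h

/-- two independent eigenvectors: the eigenvalues add up to the trace -/
theorem add_eq_trace_of_eigen {m : Matrix (Fin 2) (Fin 2) k} {v x : Fin 2 → k} {l1 l2 : k}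
    (hd : dd v x ≠ 0) (hv : m *ᵥ v = l1 • v) (hx : m *ᵥ x = l2 • x) : l1 + l2 = m.trace := by
  have h := dd_trace m v x
  rw [hv, hx, dd_smul_left, dd_smul_right, ← add_mul] at h
  exact mul_right_cancel₀ hd h

/-- two independent eigenvectors for the same eigenvalue: the matrix is scalar -/
theorem eq_smul_one_of_eigen {m : Matrix (Fin 2) (Fin 2) k} {v x : Fin 2 → k} {l : k}
    (hd : dd v x ≠ 0) (hv : m *ᵥ v = l • v) (hx : m *ᵥ x = l • x) :
    m = l • (1 : Matrix (Fin 2) (Fin 2) k) := by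
  have hv0 := congrFun hv 0
  have hv1 := congrFun hv 1
  have hx0 := congrFun hx 0
  have hx1 := congrFun hx 1
  simp only [Matrix.mulVec, dotProduct, Fin.sum_univ_two, Pi.smul_apply, smul_eq_mul] at hv0 hv1 hx0 hx1
  unfold dd at hd
  have e00 : (m 0 0 - l) * (v 0 * x 1 - v 1 * x 0) = 0 := by
    linear_combination x 1 * hv0 - v 1 * hx0
  have e01 : m 0 1 * (v 0 * x 1 - v 1 * x 0) = 0 := by
    linear_combination v 0 * hx0 - x 0 * hv0
  have e10 : m 1 0 * (v 0 * x 1 - v 1 * x 0) = 0 := by
    linear_combination x 1 * hv1 - v 1 * hx1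
  have e11 : (m 1 1 - l) * (v 0 * x 1 - v 1 * x 0) = 0 := by
    linear_combination v 0 * hx1 - x 0 * hv1
  have f00 := (mul_eq_zero.mp e00).resolve_right hd
  have f01 := (mul_eq_zero.mp e01).resolve_right hd
  have f10 := (mul_eq_zero.mp e10).resolve_right hd
  have f11 := (mul_eq_zero.mp e11).resolve_right hd
  ext i j
  fin_cases i <;> fin_cases j
  · simp only [Fin.zero_eta, Matrix.smul_apply, Matrix.one_apply_eq, smul_eq_mul, mul_one]
    exact sub_eq_zero.mp f00
  · simp only [Fin.zero_eta, Fin.mk_one, Matrix.smul_apply, smul_eq_mul, ne_eq, zero_ne_one,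
      not_false_eq_true, Matrix.one_apply_ne, mul_zero]
    exact f01
  · simp only [Fin.zero_eta, Fin.mk_one, Matrix.smul_apply, smul_eq_mul, ne_eq, one_ne_zero,
      not_false_eq_true, Matrix.one_apply_ne, mul_zero]
    exact f10
  · simp only [Fin.mk_one, Matrix.smul_apply, Matrix.one_apply_eq, smul_eq_mul, mul_one]
    exact sub_eq_zero.mp f11

/-! ### subgroups of index at most two -/

section Index

variable {G : Type*} [Group G]

theorem index_eq_one_or_two (K : Subgroup G) (h : ∀ a b : G, a ∉ K → b ∉ K → b * a ∈ K) :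
    K.index = 1 ∨ K.index = 2 := by
  by_cases htop : K = ⊤
  · left
    rw [htop]
    exact Subgroup.index_top
  · right
    obtain ⟨a, ha⟩ : ∃ a, a ∉ K := by
      by_contra hne
      push Not at hne
      exact htop ((Subgroup.eq_top_iff' K).mpr hne)
    rw [Subgroup.index_eq_two_iff]
    refine ⟨a, fun b => ?_⟩
    by_cases hb : b ∈ K
    · refine Or.inr ⟨hb, fun hba => ha ?_⟩
      have := K.mul_mem (K.inv_mem hb) hba
      simpa using this
    · exact Or.inl ⟨h a b ha hb, hb⟩

end Index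

/-! ### the two auxiliary subgroups -/

section Rep

variable {G : Type*} [Group G] (ρ : G →* Matrix (Fin 2) (Fin 2) k)

/-- the stabiliser of the line spanned by `v` -/
def lineStab (v : Fin 2 → k) : Subgroup G where
  carrier := {g | ∃ c : k, ρ g *ᵥ v = c • v}
  one_mem' := ⟨1, by rw [map_one, Matrix.one_mulVec, one_smul]⟩
  mul_mem' := by
    rintro a b ⟨ca, ha⟩ ⟨cb, hb⟩
    refine ⟨cb * ca, ?_⟩
    rw [map_mul, ← Matrix.mulVec_mulVec, hb, Matrix.mulVec_smul, ha, smul_smul]
  inv_mem' := by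
    rintro a ⟨ca, ha⟩
    have hinv : ρ a⁻¹ *ᵥ (ρ a *ᵥ v) = v := by
      rw [Matrix.mulVec_mulVec, map_inv_mul_map, Matrix.one_mulVec]
    rw [ha, Matrix.mulVec_smul] at hinv
    by_cases hc : ca = 0
    · refine ⟨0, ?_⟩
      rw [hc, zero_smul] at hinv
      rw [← hinv, Matrix.mulVec_zero, smul_zero]
    · refine ⟨ca⁻¹, ?_⟩
      rw [← hinv, smul_smul, inv_mul_cancel₀ hc, one_smul]
      rw [hinv]

theorem mem_lineStab {v : Fin 2 → k} {g : G} : g ∈ lineStab ρ v ↔ ∃ c : k, ρ g *ᵥ v = c • v :=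
  Iff.rfl

/-- the elements commuting with `m` -/
def commStab (m : Matrix (Fin 2) (Fin 2) k) : Subgroup G where
  carrier := {g | ρ g * m = m * ρ g}
  one_mem' := by simp
  mul_mem' := by
    intro a b ha hb
    change ρ a * m = m * ρ a at ha
    change ρ b * m = m * ρ b at hb
    change ρ (a * b) * m = m * ρ (a * b)
    rw [map_mul, mul_assoc, hb, ← mul_assoc, ha, mul_assoc]
  inv_mem' := by
    intro a ha
    change ρ a * m = m * ρ a at ha
    change ρ a⁻¹ * m = m * ρ a⁻¹
    calc ρ a⁻¹ * m = ρ a⁻¹ * m * (ρ a * ρ a⁻¹) := by rw [map_mul_map_inv, mul_one]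
      _ = ρ a⁻¹ * (m * ρ a) * ρ a⁻¹ := by simp only [mul_assoc]
      _ = ρ a⁻¹ * (ρ a * m) * ρ a⁻¹ := by rw [ha]
      _ = (ρ a⁻¹ * ρ a) * m * ρ a⁻¹ := by simp only [mul_assoc]
      _ = m * ρ a⁻¹ := by rw [map_inv_mul_map, one_mul]

theorem mem_commStab {m : Matrix (Fin 2) (Fin 2) k} {g : G} :
    g ∈ commStab ρ m ↔ ρ g * m = m * ρ g := Iff.rfl

variable {ρ}

/-- `NoEigen` on the whole group, from `NoEigen` on `⊤` -/
theorem noEigen_of_top (h : NoEigen (ρ.comp (⊤ : Subgroup G).subtype)) : NoEigen ρ := by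
  intro v hv0 hv
  exact h v hv0 (fun g => hv g.1)

/-- a subgroup fixing a line has a common eigenvector -/
theorem not_noEigen_of_le_lineStab {K : Subgroup G} {v : Fin 2 → k} (hv0 : v ≠ 0)
    (hK : K ≤ lineStab ρ v) : ¬ NoEigen (ρ.comp K.subtype) := by
  intro h
  exact h v hv0 (fun g => hK g.2)

/-! ### the Clifford step -/

/-- **Clifford step**: no common eigenvector on the subgroups of index `≤ 2` implies no common
eigenvector on a normal subgroup with abelian quotient. -/
theorem noEigen_restrict_normal (N : Subgroup G) [hN : N.Normal]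
    (hab : ∀ a b : G, a * b * a⁻¹ * b⁻¹ ∈ N) (hsplit : ∀ g, IsSplit (ρ g))
    (hidx : ∀ K : Subgroup G, K.index = 1 ∨ K.index = 2 → NoEigen (ρ.comp K.subtype)) :
    NoEigen (ρ.comp N.subtype) := by
  intro v hv0 hv
  have hvN : ∀ n ∈ N, ∃ c : k, ρ n *ᵥ v = c • v := fun n hn => hv ⟨n, hn⟩
  by_cases hsc : ∀ n ∈ N, ∃ a : k, ρ n = a • (1 : Matrix (Fin 2) (Fin 2) k)
  · -- Case A : `ρ(N)` consists of scalars
    have hirrG : NoEigen ρ := noEigen_of_top (hidx ⊤ (Or.inl Subgroup.index_top))
    obtain ⟨g0, hg0⟩ : ∃ g0, ∀ a : k, ρ g0 ≠ a • (1 : Matrix (Fin 2) (Fin 2) k) := by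
      by_contra hall
      push Not at hall
      exact not_noEigen_of_scalar hall hirrG
    obtain ⟨α, β, hαβ⟩ := hsplit g0
    obtain ⟨e, he0, he⟩ := exists_eigenvector_of_split hαβ
    set m := ρ g0 with hm
    -- every element commutes or anticommutes with `m`
    have hca : ∀ g, ρ g * m = m * ρ g ∨ ρ g * m = -(m * ρ g) := by
      intro g
      obtain ⟨c, hc⟩ := hsc _ (hab g g0)
      have h1 : ρ g * m = c • (m * ρ g) := by
        have : ρ (g * g0 * g⁻¹ * g0⁻¹) * (ρ g0 * ρ g) = ρ g * m := by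
          rw [hm, ← map_mul, ← map_mul, ← map_mul]
          congr 1
          group
        rw [← this, hc, Matrix.smul_mul, Matrix.one_mul]
      have hdet := congrArg Matrix.det h1
      rw [Matrix.det_smul, Matrix.det_mul, Matrix.det_mul, Fintype.card_fin] at hdet
      have hd1 : (ρ g).det ≠ 0 := det_map_ne_zero g
      have hd2 : m.det ≠ 0 := det_map_ne_zero g0
      have hc2 : c * c = 1 := by
        have h3 : (ρ g).det * m.det ≠ 0 := mul_ne_zero hd1 hd2
        have : (c * c - 1) * ((ρ g).det * m.det) = 0 := by linear_combination -hdet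
        have := (mul_eq_zero.mp this).resolve_right h3
        linear_combination this
      rcases mul_self_eq_one_iff.mp hc2 with hc1 | hc1
      · left
        rw [h1, hc1, one_smul]
      · right
        rw [h1, hc1, neg_smul, one_smul]
    have hidxK : (commStab ρ m).index = 1 ∨ (commStab ρ m).index = 2 := by
      apply index_eq_one_or_two
      intro a b ha hb
      rw [mem_commStab] at ha hb ⊢
      have ha' := (hca a).resolve_left ha
      have hb' := (hca b).resolve_left hb
      rw [map_mul, mul_assoc, ha', Matrix.mul_neg, ← mul_assoc, hb', Matrix.neg_mul, neg_neg,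
        mul_assoc]
    refine not_noEigen_of_le_lineStab (ρ := ρ) (K := commStab ρ m) he0 ?_ (hidx _ hidxK)
    intro g hg
    rw [mem_commStab] at hg
    rw [mem_lineStab]
    by_contra hne
    have hd : dd e (ρ g *ᵥ e) ≠ 0 := by
      intro h0
      obtain ⟨c, hc⟩ := exists_smul_of_dd_eq_zero he0 h0
      exact hne ⟨c, hc⟩
    have hx : m *ᵥ (ρ g *ᵥ e) = α • (ρ g *ᵥ e) := by
      rw [Matrix.mulVec_mulVec, ← hg, ← Matrix.mulVec_mulVec, he, Matrix.mulVec_smul]
    exact hg0 α (eq_smul_one_of_eigen hd he hx)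
  · -- Case B : some `ρ n0`, `n0 ∈ N`, is not scalar
    push Not at hsc
    obtain ⟨n0, hn0N, hn0⟩ := hsc
    -- translates of `v` are common eigenvectors of `ρ(N)`
    have htr : ∀ g : G, ∀ n ∈ N, ∃ c : k, ρ n *ᵥ (ρ g *ᵥ v) = c • (ρ g *ᵥ v) := by
      intro g n hn
      have hconj : g⁻¹ * n * g ∈ N := by
        have := hN.conj_mem n hn g⁻¹
        simpa using this
      obtain ⟨c, hc⟩ := hvN _ hconj
      refine ⟨c, ?_⟩
      have : ρ n * ρ g = ρ g * ρ (g⁻¹ * n * g) := by
        rw [← map_mul, ← map_mul]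
        congr 1
        group
      rw [Matrix.mulVec_mulVec, this, ← Matrix.mulVec_mulVec, hc, Matrix.mulVec_smul]
    set m := ρ n0 with hm
    have hidxK : (lineStab ρ v).index = 1 ∨ (lineStab ρ v).index = 2 := by
      apply index_eq_one_or_two
      intro a b ha hb
      by_contra hba
      have hda : dd v (ρ a *ᵥ v) ≠ 0 := by
        intro h0
        obtain ⟨c, hc⟩ := exists_smul_of_dd_eq_zero hv0 h0
        exact ha ⟨c, hc⟩
      have hdb : dd v (ρ b *ᵥ v) ≠ 0 := by
        intro h0
        obtain ⟨c, hc⟩ := exists_smul_of_dd_eq_zero hv0 h0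
        exact hb ⟨c, hc⟩
      have hdba : dd v (ρ (b * a) *ᵥ v) ≠ 0 := by
        intro h0
        obtain ⟨c, hc⟩ := exists_smul_of_dd_eq_zero hv0 h0
        exact hba ⟨c, hc⟩
      obtain ⟨l0, hl0⟩ := hvN n0 hn0N
      obtain ⟨l2, hl2⟩ := htr b n0 hn0N
      obtain ⟨l3, hl3⟩ := htr (b * a) n0 hn0N
      have e2 := add_eq_trace_of_eigen hdb hl0 hl2
      have e3 := add_eq_trace_of_eigen hdba hl0 hl3
      have h23 : l3 = l2 := by linear_combination e3 - e2
      rw [h23] at hl3
      have hdyz : dd (ρ b *ᵥ v) (ρ (b * a) *ᵥ v) ≠ 0 := by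
        rw [map_mul, ← Matrix.mulVec_mulVec, dd_mulVec]
        exact mul_ne_zero (det_map_ne_zero b) hda
      exact hn0 l2 (eq_smul_one_of_eigen hdyz hl2 hl3)
    exact not_noEigen_of_le_lineStab (ρ := ρ) (K := lineStab ρ v) hv0 le_rfl (hidx _ hidxK)

end Rep

end Fermat.Agent.GP.TW.CliffordCore
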