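/-
GATE-P / S56 [P-TW]: the fixer of the `m`-th roots of unity in an automorphism group is a normal
subgroup containing all commutators (helper45).  Mathlib only.

This is the `N`, `[N.Normal]`, `hab` input of `CliffordCore.noEigen_restrict_normal` for
`G = Gal(ℚ̄/ℚ)`, `m = p ^ (n + 1)`.
-/
import Mathlib

set_option autoImplicit false
set_option maxHeartbeats 400000

namespace Fermat.Agent.GP.TW.CycNormal

/-- two monoid endomorphisms of a domain commute on the `m`-th roots of unity -/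
theorem map_map_comm_of_pow_eq_one {K : Type*} [CommRing K] [IsDomain K] {A : Type*}
    [FunLike A K K] [MonoidHomClass A K K] (m : ℕ) [NeZero m] (σ τ : A) {ζ : K}
    (hζ : ζ ^ m = 1) : σ (τ ζ) = τ (σ ζ) := by
  obtain ⟨i, hi⟩ := MonoidHom.map_cyclic (restrictRootsOfUnity σ m)
  obtain ⟨j, hj⟩ := MonoidHom.map_cyclic (restrictRootsOfUnity τ m)
  have h1 : restrictRootsOfUnity σ m (restrictRootsOfUnity τ m (rootsOfUnity.mkOfPowEq ζ hζ)) =
      restrictRootsOfUnity τ m (restrictRootsOfUnity σ m (rootsOfUnity.mkOfPowEq ζ hζ)) := by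
    rw [hj, hi, hi, hj, ← zpow_mul, ← zpow_mul, mul_comm]
  have h2 := congrArg (fun x : rootsOfUnity m K => ((x : Kˣ) : K)) h1
  simpa [restrictRootsOfUnity_coe_apply] using h2

variable (F K : Type*) [Field F] [Field K] [Algebra F K] (m : ℕ)

/-- the automorphisms fixing all `m`-th roots of unity -/
def rootFixer : Subgroup (K ≃ₐ[F] K) where
  carrier := {σ | ∀ ζ : K, ζ ^ m = 1 → σ ζ = ζ}
  one_mem' := fun _ _ => rfl
  mul_mem' := by
    intro a b ha hb ζ hζ
    rw [AlgEquiv.mul_apply, hb ζ hζ, ha ζ hζ]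
  inv_mem' := by
    intro a ha ζ hζ
    apply a.injective
    rw [ha ζ hζ]
    exact AlgEquiv.apply_symm_apply a ζ

variable {F K m}

theorem mem_rootFixer {σ : K ≃ₐ[F] K} :
    σ ∈ rootFixer F K m ↔ ∀ ζ : K, ζ ^ m = 1 → σ ζ = ζ := Iff.rfl

instance rootFixer_normal : (rootFixer F K m).Normal where
  conj_mem := by
    intro n hn g ζ hζ
    have h1 : (g⁻¹ ζ) ^ m = 1 := by rw [← map_pow, hζ, map_one]
    rw [AlgEquiv.mul_apply, AlgEquiv.mul_apply, hn _ h1]
    exact AlgEquiv.apply_symm_apply g ζ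

/-- the automorphism group acts on the `m`-th roots of unity through an abelian group -/
theorem commutator_mem_rootFixer [NeZero m] (a b : K ≃ₐ[F] K) :
    a * b * a⁻¹ * b⁻¹ ∈ rootFixer F K m := by
  intro ζ hζ
  have h1 : (b⁻¹ ζ) ^ m = 1 := by rw [← map_pow, hζ, map_one]
  have h2 : (a⁻¹ (b⁻¹ ζ)) ^ m = 1 := by rw [← map_pow, h1, map_one]
  rw [AlgEquiv.mul_apply, AlgEquiv.mul_apply, AlgEquiv.mul_apply,
    map_map_comm_of_pow_eq_one m a b h2]
  have h3 : a (a⁻¹ (b⁻¹ ζ)) = b⁻¹ ζ := AlgEquiv.apply_symm_apply a _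
  rw [h3]
  exact AlgEquiv.apply_symm_apply b ζ

end Fermat.Agent.GP.TW.CycNormal
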