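/-
GATE-P / S56 [P-TW] node T6 (ii)+(iv): from the FROZEN hypotheses `habs`, `hTW`, `hsplit` of S56 to
the matrix hypotheses of `CliffordCore.noEigen_restrict_normal`, and the resulting
`NoEigen` on the fixer of the `m`-th roots of unity (helper45).
-/
import Mathlib
import Fermat.Prelude.Def_GaloisRep_Residual
import Fermat.Agent.GP.TW.CliffordCore
import Fermat.Agent.GP.TW.CycNormal

set_option autoImplicit false
set_option maxHeartbeats 400000

open Matrix Polynomial
open scoped TensorProduct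

namespace Fermat.Agent.GP.TW.IdxAdapter

open Fermat.Agent.GP.TW.SigmaLemma Fermat.Agent.GP.TW.CliffordCore Fermat.Agent.GP.TW.CycNormal

/-- a nonzero vector stays nonzero after extension of scalars -/
theorem one_tmul_ne_zero {k : Type*} [Field k] {V : Type*} [AddCommGroup V] [Module k V]
    {ι : Type*} (b : Module.Basis ι k V) (K' : Type*) [Field K'] [Algebra k K'] {x : V}
    (hx : x ≠ 0) : (1 : K') ⊗ₜ[k] x ≠ 0 := by
  intro h0
  have h1 := congrArg (Algebra.TensorProduct.basis K' b).repr h0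
  rw [Algebra.TensorProduct.basis_repr_tmul, map_zero, one_smul] at h1
  have h2 : b.repr x = 0 := by
    apply Finsupp.mapRange_injective (algebraMap k K') (map_zero _) (algebraMap k K').injective
    rw [h1, Finsupp.mapRange_zero]
  exact hx ((LinearEquiv.map_eq_zero_iff _).mp h2)

variable {k : Type} [Field k]

/-- the matrix form of a residual representation in a basis -/
noncomputable def matRep (ρbar : ResidualGaloisRep k) (b : Module.Basis (Fin 2) k ρbar.V) :
    (AlgebraicClosure ℚ ≃ₐ[ℚ] AlgebraicClosure ℚ) →* Matrix (Fin 2) (Fin 2) k :=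
  ((LinearMap.toMatrixAlgEquiv b : Module.End k ρbar.V ≃ₐ[k] Matrix (Fin 2) (Fin 2) k) :
    Module.End k ρbar.V →* Matrix (Fin 2) (Fin 2) k).comp ρbar.ρ

theorem toMatrix_eq_matRep (ρbar : ResidualGaloisRep k) (b : Module.Basis (Fin 2) k ρbar.V)
    (σ : AlgebraicClosure ℚ ≃ₐ[ℚ] AlgebraicClosure ℚ) :
    LinearMap.toMatrix b b (ρbar.ρ σ) = matRep ρbar b σ := rfl

/-- a basis of the underlying space -/
noncomputable def stdBasis (ρbar : ResidualGaloisRep k) : Module.Basis (Fin 2) k ρbar.V :=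
  Module.finBasisOfFinrankEq k ρbar.V ρbar.finrank_eq

variable (ρbar : ResidualGaloisRep k) (b : Module.Basis (Fin 2) k ρbar.V)
  (R : (AlgebraicClosure ℚ ≃ₐ[ℚ] AlgebraicClosure ℚ) →* Matrix (Fin 2) (Fin 2) k)
  (hR : ∀ σ, LinearMap.toMatrix b b (ρbar.ρ σ) = R σ)

include hR in
/-- irreducibility of the restriction to `G` after some extension of scalars gives `NoEigen` of the
matrix form on `G` -/
theorem noEigen_of_irred_baseChange (K' : Type) [Field K'] [Algebra k K']
    (G : Subgroup (AlgebraicClosure ℚ ≃ₐ[ℚ] AlgebraicClosure ℚ))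
    (hirr : ∀ W : Submodule K' (ρbar.baseChange K').V,
      (∀ σ ∈ G, ∀ x ∈ W, (ρbar.baseChange K').ρ σ x ∈ W) → W = ⊥ ∨ W = ⊤) :
    NoEigen (R.comp G.subtype) := by
  intro v hv0 hv
  set x : ρbar.V := b.equivFun.symm v with hx
  have hbx : b.equivFun x = v := by rw [hx, LinearEquiv.apply_symm_apply]
  have hx0 : x ≠ 0 := by
    intro h0
    apply hv0
    rw [← hbx, h0, map_zero]
  have heig : ∀ σ ∈ G, ∃ c : k, ρbar.ρ σ x = c • x := by
    intro σ hσ
    obtain ⟨c, hc⟩ := hv ⟨σ, hσ⟩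
    refine ⟨c, ?_⟩
    have h1 := LinearMap.toMatrix_mulVec_repr b b (ρbar.ρ σ) x
    rw [hR] at h1
    apply b.equivFun.injective
    rw [map_smul, hbx, Module.Basis.equivFun_apply, ← h1, ← Module.Basis.equivFun_apply, hbx]
    exact hc
  let y : (ρbar.baseChange K').V := (1 : K') ⊗ₜ[k] x
  have hy0 : y ≠ 0 := one_tmul_ne_zero b K' hx0
  let W : Submodule K' (ρbar.baseChange K').V := Submodule.span K' {y}
  have hstab : ∀ σ ∈ G, ∀ z ∈ W, (ρbar.baseChange K').ρ σ z ∈ W := by
    intro σ hσ z hz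
    obtain ⟨a, rfl⟩ := Submodule.mem_span_singleton.mp hz
    obtain ⟨c, hc⟩ := heig σ hσ
    have h1 : (ρbar.baseChange K').ρ σ y = (algebraMap k K' c) • y := by
      change (ρbar.ρ σ).baseChange K' ((1 : K') ⊗ₜ[k] x) = (algebraMap k K' c) • ((1 : K') ⊗ₜ[k] x)
      rw [LinearMap.baseChange_tmul, hc, TensorProduct.tmul_smul, algebraMap_smul]
    rw [map_smul, h1]
    exact W.smul_mem _ (W.smul_mem _ (Submodule.subset_span rfl))
  rcases hirr W hstab with hW | hW
  · apply hy0
    have : y ∈ W := Submodule.subset_span rfl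
    rw [hW] at this
    exact (Submodule.mem_bot K').mp this
  · have h1 : Module.finrank K' W = 1 := finrank_span_singleton hy0
    rw [hW, finrank_top, (ρbar.baseChange K').finrank_eq] at h1
    omega

include hR in
/-- the hypothesis `hidx` of the Clifford step, from the frozen `habs` and `hTW` -/
theorem hidx_of_frozen (habs : ρbar.IsAbsolutelyIrreducible)
    (hTW : ∀ (K : Type) [Field K] [Algebra k K]
      (G : Subgroup (AlgebraicClosure ℚ ≃ₐ[ℚ] AlgebraicClosure ℚ)), G.index = 2 →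
      ∀ V : Submodule K (ρbar.baseChange K).V,
        (∀ σ ∈ G, ∀ x ∈ V, (ρbar.baseChange K).ρ σ x ∈ V) → V = ⊥ ∨ V = ⊤) :
    ∀ K : Subgroup (AlgebraicClosure ℚ ≃ₐ[ℚ] AlgebraicClosure ℚ),
      K.index = 1 ∨ K.index = 2 → NoEigen (R.comp K.subtype) := by
  intro K hK
  rcases hK with h1 | h2
  · have htop : K = ⊤ := Subgroup.index_eq_one.mp h1
    subst htop
    apply noEigen_of_irred_baseChange ρbar b R hR (AlgebraicClosure k) ⊤
    intro W hW
    exact habs W (fun σ x hx => hW σ (Subgroup.mem_top σ) x hx)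
  · exact noEigen_of_irred_baseChange ρbar b R hR k K (hTW k K h2)

include hR in
/-- the frozen `hsplit` in matrix form -/
theorem isSplit_of_frozen
    (hsplit : ∀ σ : AlgebraicClosure ℚ ≃ₐ[ℚ] AlgebraicClosure ℚ,
      ∃ α β : k, LinearMap.charpoly (ρbar.ρ σ) = (X - C α) * (X - C β)) :
    ∀ σ, IsSplit (R σ) := by
  intro σ
  obtain ⟨α, β, h⟩ := hsplit σ
  exact ⟨α, β, by rw [← hR, LinearMap.charpoly_toMatrix]; exact h⟩

include hR in
/-- **the output**: the matrix form of `ρbar` has no common eigenvector on the fixer of the `m`-th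
roots of unity -/
theorem noEigen_rootFixer (habs : ρbar.IsAbsolutelyIrreducible)
    (hsplit : ∀ σ : AlgebraicClosure ℚ ≃ₐ[ℚ] AlgebraicClosure ℚ,
      ∃ α β : k, LinearMap.charpoly (ρbar.ρ σ) = (X - C α) * (X - C β))
    (hTW : ∀ (K : Type) [Field K] [Algebra k K]
      (G : Subgroup (AlgebraicClosure ℚ ≃ₐ[ℚ] AlgebraicClosure ℚ)), G.index = 2 →
      ∀ V : Submodule K (ρbar.baseChange K).V,
        (∀ σ ∈ G, ∀ x ∈ V, (ρbar.baseChange K).ρ σ x ∈ V) → V = ⊥ ∨ V = ⊤)
    (m : ℕ) [NeZero m] :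
    NoEigen (R.comp (rootFixer ℚ (AlgebraicClosure ℚ) m).subtype) :=
  noEigen_restrict_normal (rootFixer ℚ (AlgebraicClosure ℚ) m) commutator_mem_rootFixer
    (isSplit_of_frozen ρbar b R hR hsplit) (hidx_of_frozen ρbar b R hR habs hTW)

include hR in
/-- `NoEigen` on the whole Galois group -/
theorem noEigen_of_frozen (habs : ρbar.IsAbsolutelyIrreducible) : NoEigen R := by
  apply noEigen_of_top
  apply noEigen_of_irred_baseChange ρbar b R hR (AlgebraicClosure k) ⊤
  intro W hW
  exact habs W (fun σ x hx => hW σ (Subgroup.mem_top σ) x hx)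

end Fermat.Agent.GP.TW.IdxAdapter
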