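import Fermat.Agent.GP.TW.ChebExist
import Fermat.Agent.GJ.CycChar

/-!
# GATE-P / S56 [P-TW] leaf (helper24): the congruence `q ≡ 1 mod p ^ m` of a Taylor–Wiles prime

* `eq_one_of_sub_one_mem_nonunits` : away from `p`, a `p`-power root of unity congruent to `1`
  modulo the maximal ideal of a valuation subring is `1`;
* `pow_dvd_sub_one_of_frob` : if a Frobenius lift at `q ≠ p` fixes the `p ^ m`-th roots of unity
  then `p ^ m ∣ q - 1`;
* `exists_galois_level_ge` : a finite-level `ρ` factors through `Gal(E/ℚ)` for a finite Galois `E`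
  containing a prescribed finite extension;
* `exists_tw_prime` : **Chebotarev with the congruence built in**: for a finite-level
  `ρ : G_ℚ →* M`, `σ₀ ∈ G_ℚ` fixing the `p ^ m`-th roots of unity and a finite set `B` there is a
  prime `q ∉ B`, `q ≠ p`, `p ^ m ∣ q - 1`, such that for EVERY Frobenius lift `τ` at EVERY place over
  `q`, `ρ τ = ρ (g σ₀ g⁻¹)` for some `g`.
-/

set_option autoImplicit false

open Fermat.Agent.Common_helper32
open Fermat.Agent.GJ.FrobLift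
open Fermat.Agent.GJ.CycChar

namespace Fermat.Agent.GP.TW.CycFrob

section General

variable {L : Type*} [Field L]

/-- Away from `p`, a `p`-power root of unity congruent to `1` modulo the maximal ideal is `1`. -/
theorem eq_one_of_sub_one_mem_nonunits {A : ValuationSubring L} {p q : ℕ} [Fact p.Prime]
    (hq : q.Prime) (hne : q ≠ p) (hA : A.LiesOverPrime q) {η : L} {m : ℕ}
    (hη : η ^ p ^ m = 1) (hηA : η ∈ A) (h : η - 1 ∈ A.nonunits) : η = 1 := by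
  have hp : p.Prime := Fact.out
  by_contra hη1
  have hord : orderOf η ∣ p ^ m := orderOf_dvd_of_pow_eq_one hη
  obtain ⟨j, -, hj⟩ := (Nat.dvd_prime_pow hp).1 hord
  have hj0 : j ≠ 0 := by
    rintro rfl
    rw [pow_zero, orderOf_eq_one_iff] at hj
    exact hη1 hj
  obtain ⟨i, rfl⟩ := Nat.exists_eq_succ_of_ne_zero hj0
  have hprim : IsPrimitiveRoot η (p ^ (i + 1)) := hj ▸ IsPrimitiveRoot.orderOf η
  have hprim' : IsPrimitiveRoot (η ^ p ^ i) p :=
    hprim.pow (pow_pos hp.pos _) (pow_succ p i)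
  have hmem : η ^ p ^ i - 1 ∈ A.nonunits := by
    have hdvd : η ^ p ^ i - 1 = (η - 1) * ∑ k ∈ Finset.range (p ^ i), η ^ k := by
      rw [mul_comm, geom_sum_mul]
    rw [hdvd]
    have hsum : (∑ k ∈ Finset.range (p ^ i), η ^ k) ∈ A := sum_mem fun k _ => pow_mem hηA k
    rw [A.mem_nonunits_iff] at h ⊢
    rw [map_mul]
    exact mul_lt_one_of_lt_of_le h ((A.valuation_le_one_iff _).mpr hsum)
  exact false_of_two_primes_mem hp hq hne
    (natCast_mem_nonunits_of_sub_one_mem hprim' (pow_mem hηA _) hmem) hA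

end General

/-- If a Frobenius lift at `q ≠ p` fixes the `p ^ m`-th roots of unity then `p ^ m ∣ q - 1`. -/
theorem pow_dvd_sub_one_of_frob {p q m : ℕ} [Fact p.Prime] (hq : q.Prime) (hne : q ≠ p)
    {A : ValuationSubring Qb} (hA : A.LiesOverPrime q) {τ : GQ} (hτ : A.IsFrobeniusAt τ q)
    (hfix : ∀ μ : Qb, μ ^ p ^ m = 1 → τ μ = μ) : p ^ m ∣ q - 1 := by
  have hp : p.Prime := Fact.out
  have hne0 : NeZero ((p ^ m : ℕ) : Qb) := ⟨Nat.cast_ne_zero.mpr (pow_pos hp.pos m).ne'⟩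
  obtain ⟨ζ, hζ⟩ := HasEnoughRootsOfUnity.exists_primitiveRoot Qb (p ^ m)
  have hζA : ζ ∈ A := isIntegral_mem_valuationSubring A ζ (hζ.isIntegral (pow_pos hp.pos m))
  have h1 := apply_sub_pow_mem_nonunits hτ hζA
  rw [hfix ζ hζ.pow_eq_one] at h1
  -- `ζ - ζ ^ q = - ζ (ζ ^ (q - 1) - 1)`
  have hval : A.valuation ζ = 1 := by
    have h2 : A.valuation ζ ^ (p ^ m) = 1 := by rw [← map_pow, hζ.pow_eq_one, map_one]
    exact (pow_eq_one_iff_left (pow_pos hp.pos m).ne').mp h2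
  have hq1 : q = (q - 1) + 1 := by have := hq.pos; omega
  have hmem : ζ ^ (q - 1) - 1 ∈ A.nonunits := by
    have e : ζ - ζ ^ q = -(ζ * (ζ ^ (q - 1) - 1)) := by
      conv_lhs => rw [hq1, pow_succ]
      ring
    rw [e, A.mem_nonunits_iff, Valuation.map_neg, map_mul, hval, one_mul] at h1
    rwa [A.mem_nonunits_iff]
  have hone : ζ ^ (q - 1) = 1 :=
    eq_one_of_sub_one_mem_nonunits hq hne hA (m := m)
      (by rw [← pow_mul, mul_comm, pow_mul, hζ.pow_eq_one, one_pow]) (pow_mem hζA _) hmem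
  exact (hζ.pow_eq_one_iff_dvd _).1 hone

section Level

variable {M : Type} [Monoid M]

/-- A finite-level `ρ` factors through `Gal(E/ℚ)` for a finite Galois `E` containing a prescribed
finite extension `L₁`. -/
theorem exists_galois_level_ge (ρ : GQ →* M) (hρ : GaloisFactorsThroughFiniteLevel ρ)
    (L₁ : IntermediateField ℚ Qb) [FiniteDimensional ℚ L₁] :
    ∃ (E : IntermediateField ℚ Qb) (_ : FiniteDimensional ℚ E) (_ : IsGalois ℚ E), L₁ ≤ E ∧
      ∀ σ σ' : GQ, AlgEquiv.restrictNormalHom E σ = AlgEquiv.restrictNormalHom E σ' →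
        ρ σ = ρ σ' := by
  obtain ⟨L₀, hfin, h1⟩ := hρ
  have : FiniteDimensional ℚ L₀ := hfin
  have hn : Normal ℚ (IntermediateField.normalClosure ℚ ↥(L₀ ⊔ L₁) Qb) :=
    normalClosure.normal ℚ ↥(L₀ ⊔ L₁) Qb
  refine ⟨IntermediateField.normalClosure ℚ ↥(L₀ ⊔ L₁) Qb, inferInstance, ⟨⟩,
    le_trans le_sup_right (IntermediateField.le_normalClosure (L₀ ⊔ L₁)), fun σ σ' h => ?_⟩
  have hfix : ∀ x ∈ L₀, (σ⁻¹ * σ') x = x := by
    intro x hx
    have hxE : x ∈ IntermediateField.normalClosure ℚ ↥(L₀ ⊔ L₁) Qb :=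
      IntermediateField.le_normalClosure (L₀ ⊔ L₁) ((le_sup_left : L₀ ≤ L₀ ⊔ L₁) hx)
    set E := IntermediateField.normalClosure ℚ ↥(L₀ ⊔ L₁) Qb with hE
    have h2 : ((AlgEquiv.restrictNormalHom E σ (⟨x, hxE⟩ : E) : E) : Qb) =
        ((AlgEquiv.restrictNormalHom E σ' (⟨x, hxE⟩ : E) : E) : Qb) := by rw [h]
    have e1 : ((AlgEquiv.restrictNormalHom E σ (⟨x, hxE⟩ : E) : E) : Qb) = σ x :=
      AlgEquiv.restrictNormal_commutes σ E (⟨x, hxE⟩ : E)
    have e2 : ((AlgEquiv.restrictNormalHom E σ' (⟨x, hxE⟩ : E) : E) : Qb) = σ' x :=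
      AlgEquiv.restrictNormal_commutes σ' E (⟨x, hxE⟩ : E)
    rw [e1, e2] at h2
    show σ⁻¹ (σ' x) = x
    rw [← h2]
    exact σ.symm_apply_apply x
  have h3 := h1 (σ⁻¹ * σ') hfix
  calc ρ σ = ρ σ * ρ (σ⁻¹ * σ') := by rw [h3, mul_one]
    _ = ρ σ' := by rw [← map_mul, mul_inv_cancel_left]

/-- **Chebotarev with the Taylor–Wiles congruence built in.** -/
theorem exists_tw_prime (ρ : GQ →* M) (hρ : GaloisFactorsThroughFiniteLevel ρ) (p m : ℕ)
    [Fact p.Prime] (σ₀ : GQ) (hσ₀ : ∀ μ : Qb, μ ^ p ^ m = 1 → σ₀ μ = μ) (B : Finset ℕ) :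
    ∃ q : ℕ, q.Prime ∧ q ∉ B ∧ q ≠ p ∧ p ^ m ∣ q - 1 ∧
      ∀ (A : ValuationSubring Qb) (τ : GQ), A.LiesOverPrime q → A.IsFrobeniusAt τ q →
        ∃ g : GQ, ρ τ = ρ (g * σ₀ * g⁻¹) := by
  have hp : p.Prime := Fact.out
  have hne0 : NeZero ((p ^ m : ℕ) : Qb) := ⟨Nat.cast_ne_zero.mpr (pow_pos hp.pos m).ne'⟩
  obtain ⟨ζ, hζ⟩ := HasEnoughRootsOfUnity.exists_primitiveRoot Qb (p ^ m)
  have hint : IsIntegral ℚ ζ := (hζ.isIntegral (pow_pos hp.pos m)).tower_top (R := ℤ)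
  have : FiniteDimensional ℚ (IntermediateField.adjoin ℚ {ζ}) :=
    IntermediateField.adjoin.finiteDimensional hint
  obtain ⟨E, hfin, hgal, hLE, hlevel⟩ :=
    exists_galois_level_ge ρ hρ (IntermediateField.adjoin ℚ {ζ})
  have hζE : ζ ∈ E := hLE (IntermediateField.mem_adjoin_simple_self ℚ ζ)
  obtain ⟨q, hq, hqB, h⟩ :=
    Fermat.Agent.GP.TW.ChebExist.exists_prime_forall_frob_field E σ₀ (insert p B)
  rw [Finset.mem_insert, not_or] at hqB
  refine ⟨q, hq, hqB.2, hqB.1, ?_, fun A τ hA hτ => ?_⟩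
  · -- the congruence, from any Frobenius lift
    obtain ⟨A, τ, hA, hτ⟩ : ∃ (A : ValuationSubring Qb) (τ : GQ),
        A.LiesOverPrime q ∧ A.IsFrobeniusAt τ q := by
      obtain ⟨A, hA⟩ := exists_liesOverPrime q hq
      obtain ⟨τ, hτ⟩ := exists_isFrobeniusAt_of_liesOver A q hq hA
      exact ⟨A, τ, hA, hτ⟩
    obtain ⟨g, hg⟩ := h A τ hA hτ
    -- `τ ζ = g σ₀ g⁻¹ ζ = ζ`
    have hτζ : τ ζ = ζ := by
      have e1 : ((AlgEquiv.restrictNormalHom E τ (⟨ζ, hζE⟩ : E) : E) : Qb) = τ ζ :=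
        AlgEquiv.restrictNormal_commutes τ E (⟨ζ, hζE⟩ : E)
      have e2 : ((AlgEquiv.restrictNormalHom E (g * σ₀ * g⁻¹) (⟨ζ, hζE⟩ : E) : E) : Qb) =
          (g * σ₀ * g⁻¹) ζ :=
        AlgEquiv.restrictNormal_commutes (g * σ₀ * g⁻¹) E (⟨ζ, hζE⟩ : E)
      rw [← e1, hg, e2]
      show g (σ₀ (g⁻¹ ζ)) = ζ
      have h3 : (g⁻¹ ζ) ^ p ^ m = 1 := by rw [← map_pow, hζ.pow_eq_one, map_one]
      rw [hσ₀ _ h3]
      exact g.apply_symm_apply ζ
    refine pow_dvd_sub_one_of_frob hq hqB.1 hA hτ (fun μ hμ => ?_)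
    obtain ⟨i, -, rfl⟩ := hζ.eq_pow_of_pow_eq_one hμ
    rw [map_pow, hτζ]
  · obtain ⟨g, hg⟩ := h A τ hA hτ
    exact ⟨g, hlevel _ _ hg⟩

end Level

end Fermat.Agent.GP.TW.CycFrob
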