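/-
GATE-P / S56 [P-TW] (helper1): **the `GT1` binder of helper55's `Export.tw_export` from helper52's
`h1_vanish` shape** (via `GT1Plug`), including the `p = 5` determinant clause.

* `exists_det_sq_ne_one` : in characteristic `5`, a Frobenius lift `τ` at `2` has
  `det ρbar τ = 2`, and `2² ≠ 1`;
* `gt1_of_h1_vanish` : `Export.GT1 (matRep ρbar b)` from the frozen binders and `h1v`
  (= the announced statement of `H1Dir.h1_vanish`, board 4069, as a hypothesis);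
* `tw_export_h1v` : `Export.tw_export` with `h1v` instead of `GT1`.
-/
import Mathlib
import Fermat.Agent.GP.TW.GT1Plug
import Fermat.Agent.GP.TW.Export

set_option autoImplicit false

open Matrix Polynomial

namespace Fermat.Agent.GP.TW.ExportGT1

open Fermat.Agent.GP.TW.SigmaLemma Fermat.Agent.GP.TW.TWPrime Fermat.Agent.GP.TW.GTGlue
  Fermat.Agent.GP.TW.GT1Plug Fermat.Agent.GP.TW.Grp Fermat.Agent.GP.TW.Export
  Fermat.Agent.Common_helper32

local notation "Qb" => AlgebraicClosure ℚ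
local notation "GQ" => (AlgebraicClosure ℚ ≃ₐ[ℚ] AlgebraicClosure ℚ)

variable {k : Type} [Field k]

local notation "M2" => Matrix (Fin 2) (Fin 2) k

/-- the `p = 5` clause: a Frobenius lift at `2` has determinant `2`, and `2² ≠ 1` in
characteristic `5`. -/
theorem exists_det_sq_ne_one (R : GQ →* M2) (hp0 : ((5 : ℕ) : k) = 0)
    (hdetA : ∀ (σ : GQ) (a : ℕ), (∀ μ : Qb, μ ^ 5 = 1 → σ μ = μ ^ a) → (R σ).det = (a : k)) :
    ∃ σ, (R σ).det ^ 2 ≠ 1 := by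
  have h2p : Nat.Prime 2 := Nat.prime_two
  obtain ⟨A, hA⟩ : ∃ A : ValuationSubring Qb, A.LiesOverPrime 2 := exists_liesOverPrime 2 h2p
  obtain ⟨τ, hτ⟩ := exists_isFrobeniusAt_of_liesOver A 2 h2p hA
  have hcyc := Fermat.Agent.DS.P5.cycM_frob (M := 5) h2p (by norm_num) hA hτ
  have hdet : (R τ).det = ((2 : ℕ) : k) := by
    refine hdetA τ 2 fun μ hμ => ?_
    have h := Fermat.Agent.DS.P5.cycM_spec (M := 5) τ μ hμ
    rw [hcyc] at h
    have hv : ((2 : ℕ) : ZMod 5).val = 2 := by decide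
    rw [hv] at h
    exact h
  refine ⟨τ, ?_⟩
  rw [hdet]
  intro h
  have h3 : ((3 : ℕ) : k) = 0 := by
    have : ((2 : ℕ) : k) ^ 2 - 1 = ((3 : ℕ) : k) := by push_cast; ring
    rw [← this, h, sub_self]
  have h1 : ((1 : ℕ) : k) = 0 := by
    have : ((1 : ℕ) : k) = 2 * ((3 : ℕ) : k) - ((5 : ℕ) : k) := by push_cast; ring
    rw [this, h3, hp0, mul_zero, sub_zero]
  rw [Nat.cast_one] at h1
  exact one_ne_zero h1

/-- **`GT1` from helper52's `h1_vanish`** (as a hypothesis in its announced shape). -/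
theorem gt1_of_h1_vanish [Finite k] (p : ℕ) [Fact p.Prime] (hp2 : p ≠ 2)
    (ρbar : ResidualGaloisRep k)
    (habs : ρbar.IsAbsolutelyIrreducible)
    (hdet : (GaloisRepAdic.ofResidualGaloisRep ρbar).DetIsCyclotomic p)
    (hsplit : ∀ σ : GQ, ∃ α β : k, LinearMap.charpoly (ρbar.ρ σ) = (X - C α) * (X - C β))
    (hTW : ∀ (K : Type) [Field K] [Algebra k K] (G : Subgroup GQ), G.index = 2 →
      ∀ V : Submodule K (ρbar.baseChange K).V,
        (∀ σ ∈ G, ∀ x ∈ V, (ρbar.baseChange K).ρ σ x ∈ V) → V = ⊥ ∨ V = ⊤)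
    (h1v : ∀ (Γ : Subgroup (GL (Fin 2) k)) [Finite Γ],
      (∀ v : Fin 2 → k, v ≠ 0 → ∃ g ∈ Γ, ¬ ∃ a : k, (g : M2) *ᵥ v = a • v) →
      (p = 5 → ∃ g ∈ Γ, ((Matrix.GeneralLinearGroup.det g : kˣ) : k) ^ 2 ≠ 1) →
      ∀ c : Γ → M2, H1Dir.IsCocycle (H1Dir.tad.comp Γ.subtype) c → (∀ g, (c g).trace = 0) →
        ∃ m : M2, m.trace = 0 ∧ ∀ g : Γ, c g = H1Dir.tad g.1 m - m)
    (b : Module.Basis (Fin 2) k ρbar.V) : GT1 (matRep ρbar b) := by
  have hp : p.Prime := Fact.out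
  obtain ⟨-, hp0, hL, -, -, -, -, hdetA, -⟩ :=
    matrix_hyps p hp2 ρbar habs hdet hsplit hTW b
  have hirr : NoEigen (matRep ρbar b) := hL
  have : CharP k p := (CharP.charP_iff_prime_eq_zero hp).2 hp0
  have hdet5 : p = 5 → ∃ σ, (matRep ρbar b σ).det ^ 2 ≠ 1 := by
    intro h5
    subst h5
    exact exists_det_sq_ne_one (matRep ρbar b) hp0 hdetA
  exact hGT1_of_h1_vanish (R := matRep ρbar b) p h1v hirr hdet5

variable {F : Type*} [Field F] [Algebra F k]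
variable {W : Type*} [AddCommGroup W] [Module F W] [FiniteDimensional F W]

/-- **[P-TW] export with the `h1_vanish` binder.** -/
theorem tw_export_h1v [Finite k] (p : ℕ) [Fact p.Prime] (hp2 : p ≠ 2)
    (ρbar : ResidualGaloisRep k)
    (habs : ρbar.IsAbsolutelyIrreducible)
    (hdet : (GaloisRepAdic.ofResidualGaloisRep ρbar).DetIsCyclotomic p)
    (hsplit : ∀ σ : GQ, ∃ α β : k, LinearMap.charpoly (ρbar.ρ σ) = (X - C α) * (X - C β))
    (hTW : ∀ (K : Type) [Field K] [Algebra k K] (G : Subgroup GQ), G.index = 2 →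
      ∀ V : Submodule K (ρbar.baseChange K).V,
        (∀ σ ∈ G, ∀ x ∈ V, (ρbar.baseChange K).ρ σ x ∈ V) → V = ⊥ ∨ V = ⊤)
    (h1v : ∀ (Γ : Subgroup (GL (Fin 2) k)) [Finite Γ],
      (∀ v : Fin 2 → k, v ≠ 0 → ∃ g ∈ Γ, ¬ ∃ a : k, (g : M2) *ᵥ v = a • v) →
      (p = 5 → ∃ g ∈ Γ, ((Matrix.GeneralLinearGroup.det g : kˣ) : k) ^ 2 ≠ 1) →
      ∀ c : Γ → M2, H1Dir.IsCocycle (H1Dir.tad.comp Γ.subtype) c → (∀ g, (c g).trace = 0) →
        ∃ m : M2, m.trace = 0 ∧ ∀ g : Γ, c g = H1Dir.tad g.1 m - m)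
    (b : Module.Basis (Fin 2) k ρbar.V)
    (cz : W →ₗ[F] (GQ → M2)) (hcz : ∀ w, IsCocycle (adAct (matRep ρbar b)) (cz w))
    (hctr : ∀ w g, (cz w g).trace = 0)
    (hcl : ∀ w, ∃ L : IntermediateField ℚ Qb, FiniteDimensional ℚ L ∧
      ∀ σ : GQ, (∀ x ∈ L, σ x = x) → cz w σ = 0)
    (hW : ∀ w : W, w ≠ 0 →
      ¬ ∃ m : M2, m.trace = 0 ∧ ∀ g, cz w g = adAct (matRep ρbar b) g m - m)
    (n : ℕ) (B₀ : Finset ℕ) :
    ∃ qv : Fin (Module.finrank F W) → ℕ, Function.Injective qv ∧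
      (∀ i, (qv i).Prime ∧ qv i ∉ B₀ ∧ p ^ (n + 1) ∣ qv i - 1) ∧
      (∀ i, ∀ (A : ValuationSubring Qb) (τ : GQ), A.LiesOverPrime (qv i) →
        A.IsFrobeniusAt τ (qv i) →
        ∃ α β : k, α ≠ β ∧ LinearMap.charpoly (ρbar.ρ τ) = (X - C α) * (X - C β)) ∧
      ∀ w : W, (∀ i, w ∈ locKerF (adAct (matRep ρbar b)) cz (qv i)) → w = 0 :=
  tw_export p hp2 ρbar habs hdet hsplit hTW b
    (gt1_of_h1_vanish p hp2 ρbar habs hdet hsplit hTW h1v b) cz hcz hctr hcl hW n B₀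

end Fermat.Agent.GP.TW.ExportGT1
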