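/-
GATE-P / S56 [P-TW] (helper52), key S56-TW-GT1HOLDS: the binder `GT1 (matRep ρbar b)` of
`Export.tw_export` (helper55) HOLDS under the frozen hypotheses of S56 (`k` finite):
`H1Dir.h1_vanish` (helper52 / helper38 / helper34) + `GT1Plug` (helper1) + `Grp.matrix_hyps`,
`Grp.exists_matRep_det_sq_ne_one` (helper49).  Hence `tw_export_holds` = [P-TW] EXPORT with no
group-theoretic binder left.
-/
import Fermat.Agent.GP.TW.Export
import Fermat.Agent.GP.TW.GT1Plug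
import Fermat.Agent.GP.TW.Grp.AdapterDet
import Fermat.Agent.GP.TW.H1Dir.Main

set_option autoImplicit false

open Matrix Polynomial

namespace Fermat.Agent.GP.TW.GT1Holds

open Fermat.Agent.GP.TW.SigmaLemma Fermat.Agent.GP.TW.TWPrime Fermat.Agent.GP.TW.GTGlue
open Fermat.Agent.GP.TW.Grp Fermat.Agent.GP.TW.Export

local notation "Qb" => AlgebraicClosure ℚ
local notation "GQ" => (AlgebraicClosure ℚ ≃ₐ[ℚ] AlgebraicClosure ℚ)

variable {k : Type} [Field k]

local notation "M2" => Matrix (Fin 2) (Fin 2) k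

/-- a field in which the prime `p` vanishes has characteristic `p`. -/
theorem charP_of_prime_natCast_eq_zero (p : ℕ) [hp : Fact p.Prime] (h : (p : k) = 0) :
    CharP k p := by
  obtain ⟨q, hq⟩ := CharP.exists k
  have hdvd : q ∣ p := (CharP.cast_eq_zero_iff k q p).1 h
  rcases (Nat.dvd_prime hp.out).1 hdvd with h1 | h1
  · exact absurd h1 (CharP.char_ne_one k q)
  · rw [← h1]; exact hq

/-- **GT1 holds** for the matrix form of `ρbar`, under the frozen hypotheses. -/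
theorem gt1_holds [Finite k] (p : ℕ) [Fact p.Prime] (hp2 : p ≠ 2) (ρbar : ResidualGaloisRep k)
    (habs : ρbar.IsAbsolutelyIrreducible)
    (hdet : (GaloisRepAdic.ofResidualGaloisRep ρbar).DetIsCyclotomic p)
    (hsplit : ∀ σ : GQ, ∃ α β : k, LinearMap.charpoly (ρbar.ρ σ) = (X - C α) * (X - C β))
    (hTW : ∀ (K : Type) [Field K] [Algebra k K] (G : Subgroup GQ), G.index = 2 →
      ∀ V : Submodule K (ρbar.baseChange K).V,
        (∀ σ ∈ G, ∀ x ∈ V, (ρbar.baseChange K).ρ σ x ∈ V) → V = ⊥ ∨ V = ⊤)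
    (b : Module.Basis (Fin 2) k ρbar.V) : GT1 (matRep ρbar b) := by
  obtain ⟨-, hp0, hL, -, -, -, -, -, -⟩ := matrix_hyps p hp2 ρbar habs hdet hsplit hTW b
  haveI : CharP k p := charP_of_prime_natCast_eq_zero p hp0
  refine GT1Plug.hGT1_of_h1_vanish (R := matRep ρbar b) p
    (fun Γ _ hirr h5 c hc htr => H1Dir.h1_vanish' p hp2 Γ hirr h5 c hc htr)
    (noEigen_of_noStableLine hL) ?_
  intro h5
  have hp3 : p ≠ 3 := by omega
  exact exists_matRep_det_sq_ne_one p hp2 hp3 ρbar hdet b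

variable {F : Type*} [Field F] [Algebra F k]
variable {W : Type*} [AddCommGroup W] [Module F W] [FiniteDimensional F W]

/-- **[P-TW] EXPORT, no group-theoretic binder.** -/
theorem tw_export_holds [Finite k] (p : ℕ) [Fact p.Prime] (hp2 : p ≠ 2)
    (ρbar : ResidualGaloisRep k)
    (habs : ρbar.IsAbsolutelyIrreducible)
    (hdet : (GaloisRepAdic.ofResidualGaloisRep ρbar).DetIsCyclotomic p)
    (hsplit : ∀ σ : GQ, ∃ α β : k, LinearMap.charpoly (ρbar.ρ σ) = (X - C α) * (X - C β))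
    (hTW : ∀ (K : Type) [Field K] [Algebra k K] (G : Subgroup GQ), G.index = 2 →
      ∀ V : Submodule K (ρbar.baseChange K).V,
        (∀ σ ∈ G, ∀ x ∈ V, (ρbar.baseChange K).ρ σ x ∈ V) → V = ⊥ ∨ V = ⊤)
    (b : Module.Basis (Fin 2) k ρbar.V)
    (cz : W →ₗ[F] (GQ → M2)) (hcz : ∀ w, IsCocycle (adAct (matRep ρbar b)) (cz w))
    (hctr : ∀ w g, (cz w g).trace = 0)
    (hcl : ∀ w, ∃ L : IntermediateField ℚ Qb, FiniteDimensional ℚ L ∧
      ∀ σ : GQ, (∀ x ∈ L, σ x = x) → cz w σ = 0)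
    (hW : ∀ w : W, w ≠ 0 →
      ¬ ∃ m : M2, m.trace = 0 ∧ ∀ g, cz w g = adAct (matRep ρbar b) g m - m)
    (n : ℕ) (B₀ : Finset ℕ) :
    ∃ qv : Fin (Module.finrank F W) → ℕ, Function.Injective qv ∧
      (∀ i, (qv i).Prime ∧ qv i ∉ B₀ ∧ p ^ (n + 1) ∣ qv i - 1) ∧
      (∀ i, ∀ (A : ValuationSubring Qb) (τ : GQ), A.LiesOverPrime (qv i) →
        A.IsFrobeniusAt τ (qv i) →
        ∃ α β : k, α ≠ β ∧ LinearMap.charpoly (ρbar.ρ τ) = (X - C α) * (X - C β)) ∧
      ∀ w : W, (∀ i, w ∈ locKerF (adAct (matRep ρbar b)) cz (qv i)) → w = 0 :=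
  tw_export p hp2 ρbar habs hdet hsplit hTW b
    (gt1_holds p hp2 ρbar habs hdet hsplit hTW b) cz hcz hctr hcl hW n B₀

end Fermat.Agent.GP.TW.GT1Holds
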