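/-
GATE-P / S56 [P-TW]→[SEL] bridge (helper24), key S56-TW-LOCKERRES (re-aim of helper55, board 4161):
**`locKer` ⟺ `loc_q = 0`, function-cocycle model.**

`act : G_ℚ →* Module.End k M` a finite-level action, `c : G_ℚ → M` a finite-level 1-cocycle
(`TWPrime.IsCocycle act c`), `q` a prime at which `(act, c)` is UNRAMIFIED
(`∀ A | q, ∀ σ ∈ I_A, act σ = 1 ∧ c σ = 0`).  Then the following are equivalent:

1. `∀ A | q, ∀ τ` Frobenius at `A` : `c τ ∈ (τ - 1) M`      (= `w ∈ TWPrime.locKer` / `Export.locKerF`);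
2. `∃ A | q, ∃ τ` Frobenius at `A` : `c τ ∈ (τ - 1) M`;
3. `∀ A | q` : `c|_{D_A}` is a coboundary (`∃ m, ∀ σ ∈ D_A, c σ = σ m - m`);
4. `∃ A | q` : `c|_{D_A}` is a coboundary                     (= `loc_q [c] = 0` at ONE chosen place).

Inputs: helper67 `GP/Loc/FrobGen.exists_restrictNormalHom_eq` (`D_A = ⟨φ⟩·I_A` modulo every finite
Galois level), helper29 `GP/Loc/PlaceConj.exists_smul_eq_of_liesOverPrime` (places over `q` are
conjugate), helper1 `TWPrime` (function cocycles, `affHom`).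

Main statements: `coboundary_on_decomposition_of_frob` (2 ⟹ 4 at the same place),
`coboundary_on_decomposition_smul` (transport along `g • A`), `locKer_tfae`-style iff's
`forall_frob_iff_forall_coboundary`, `forall_frob_iff_exists_coboundary`,
`mem_locKer_iff_coboundary` / `mem_locKerF_iff_coboundary`.
-/
import Mathlib
import Fermat.Agent.GP.TW.TWPrime
import Fermat.Agent.GP.TW.Export
import Fermat.Agent.GP.Loc.FrobGen
import Fermat.Agent.GP.Loc.PlaceConj
import Fermat.Prelude.Def_GroupCohomology_ContinuousUnramified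

set_option autoImplicit false

open scoped Pointwise
open Fermat.Agent.Common_helper32
open Fermat.Agent.GP.TW.TWPrime

namespace Fermat.Agent.GP.TW.LocKerRes

/-! ### cocycles: powers, and vanishing on a subgroup -/

section Abstract

variable {G : Type*} [Group G] {k : Type*} [Field k] {M : Type*} [AddCommGroup M] [Module k M]
variable {act : G →* Module.End k M} {c : G → M}

/-- the coboundary of `m`. -/
def cob (act : G →* Module.End k M) (m : M) : G → M := fun σ => act σ m - m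

theorem cob_apply (m : M) (σ : G) : cob act m σ = act σ m - m := rfl

theorem isCocycle_cob (m : M) : IsCocycle act (cob act m) := by
  intro σ τ
  simp only [cob_apply]
  rw [act_mul_apply, map_sub]
  abel

theorem isCocycle_sub {c c' : G → M} (hc : IsCocycle act c) (hc' : IsCocycle act c') :
    IsCocycle act (fun σ => c σ - c' σ) := by
  intro σ τ
  show c (σ * τ) - c' (σ * τ) = c σ - c' σ + act σ (c τ - c' τ)
  rw [hc σ τ, hc' σ τ, map_sub]
  abel

/-- a cocycle vanishing at `φ` vanishes on the powers of `φ`. -/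
theorem pow_eq_zero_of_isCocycle (hc : IsCocycle act c) {φ : G} (h : c φ = 0) (n : ℕ) :
    c (φ ^ n) = 0 := by
  induction n with
  | zero => rw [pow_zero]; exact hc.map_one
  | succ n ih => rw [pow_succ, hc (φ ^ n) φ, ih, h, map_zero, add_zero]

/-- `c σ ∈ (σ - 1) M` iff `c - ∂m` vanishes at `σ` for some `m`. -/
theorem mem_range_iff_exists_cob (σ : G) :
    c σ ∈ LinearMap.range (act σ - 1) ↔ ∃ m : M, c σ = act σ m - m := by
  constructor
  · rintro ⟨m, hm⟩
    refine ⟨m, ?_⟩
    rw [← hm, LinearMap.sub_apply, Module.End.one_apply]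
  · rintro ⟨m, hm⟩
    refine ⟨m, ?_⟩
    rw [hm, LinearMap.sub_apply, Module.End.one_apply]

/-- transport of "coboundary on a subset" under conjugation: if `c σ = σ m - m` for `σ ∈ D` then
`c (g σ g⁻¹) = (g σ g⁻¹) m' - m'` with `m' = g m - c g`. -/
theorem conj_cob_of_isCocycle (hc : IsCocycle act c) (g σ : G) (m : M) (h : c σ = act σ m - m) :
    c (g * σ * g⁻¹) = act (g * σ * g⁻¹) (act g m - c g) - (act g m - c g) := by
  rw [hc.conj g σ, h, map_sub, map_sub]
  have e : act (g * σ * g⁻¹) (act g m) = act g (act σ m) := by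
    rw [← act_mul_apply, ← act_mul_apply]
    congr 2
    group
  rw [e]
  abel

end Abstract

/-! ### the decomposition group at `g • A` -/

section Decomp

theorem mem_decompositionSubgroup_smul_iff (g σ : GQ) (A : ValuationSubring Qb) :
    σ ∈ (g • A).decompositionSubgroup ℚ ↔ g⁻¹ * σ * g ∈ A.decompositionSubgroup ℚ := by
  show σ • g • A = g • A ↔ (g⁻¹ * σ * g) • A = A
  rw [mul_smul, mul_smul, inv_smul_eq_iff]

end Decomp

/-! ### main statements -/

section Main

variable {k : Type} [Field k] {M : Type} [AddCommGroup M] [Module k M]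
variable {act : GQ →* Module.End k M} {c : GQ → M}

/-- finite Galois level for the pair `(act, c)`. -/
theorem exists_galois_level_pair (hc : IsCocycle act c)
    (hact : GaloisFactorsThroughFiniteLevel act)
    (hcl : ∃ L : IntermediateField ℚ Qb, FiniteDimensional ℚ L ∧
      ∀ σ : GQ, (∀ x ∈ L, σ x = x) → c σ = 0) :
    ∃ (E : IntermediateField ℚ Qb) (_ : FiniteDimensional ℚ E) (_ : IsGalois ℚ E),
      ∀ σ σ' : GQ, AlgEquiv.restrictNormalHom E σ = AlgEquiv.restrictNormalHom E σ' →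
        c σ = c σ' ∧ act σ = act σ' := by
  obtain ⟨E, hfin, hgal, h⟩ :=
    Fermat.Agent.GJ.FrobLift.exists_galois_level (affHom hc) (affHom_finiteLevel hc hact hcl)
  exact ⟨E, hfin, hgal, fun σ σ' hσ => (affHom_eq_iff hc σ σ').1 (h σ σ' hσ)⟩

/-- **(2) ⟹ (4), at the same place**: `(act, c)` unramified at `A | q`, `φ` a Frobenius at `A`
with `c φ ∈ (φ - 1) M` ⟹ `c` is a coboundary on the whole decomposition group `D_A`. -/
theorem coboundary_on_decomposition_of_frob (hc : IsCocycle act c)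
    (hact : GaloisFactorsThroughFiniteLevel act)
    (hcl : ∃ L : IntermediateField ℚ Qb, FiniteDimensional ℚ L ∧
      ∀ σ : GQ, (∀ x ∈ L, σ x = x) → c σ = 0)
    {q : ℕ} (hq : q.Prime) {A : ValuationSubring Qb} (hA : A.LiesOverPrime q)
    (hunr : ∀ σ ∈ A.inertiaSubgroupIn ℚ, act σ = 1 ∧ c σ = 0)
    {φ : GQ} (hφ : A.IsFrobeniusAt φ q) (hmem : c φ ∈ LinearMap.range (act φ - 1)) :
    ∃ m : M, ∀ σ ∈ A.decompositionSubgroup ℚ, c σ = act σ m - m := by
  obtain ⟨m, hm⟩ := (mem_range_iff_exists_cob φ).1 hmem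
  refine ⟨m, fun σ hσ => ?_⟩
  -- the corrected cocycle `c' = c - ∂m`
  set c' : GQ → M := fun σ => c σ - cob act m σ with hc'def
  have hc' : IsCocycle act c' := isCocycle_sub hc (isCocycle_cob m)
  have hφ0 : c' φ = 0 := by
    show c φ - (act φ m - m) = 0
    rw [hm, sub_self]
  have hI0 : ∀ τ ∈ A.inertiaSubgroupIn ℚ, c' τ = 0 := by
    intro τ hτ
    obtain ⟨h1, h2⟩ := hunr τ hτ
    show c τ - (act τ m - m) = 0
    rw [h2, h1, Module.End.one_apply, sub_self, sub_self]
  -- finite level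
  obtain ⟨E, hfin, hgal, hE⟩ := exists_galois_level_pair hc hact hcl
  obtain ⟨n, τ, hτ, hres⟩ :=
    Fermat.Agent.GP.Loc.FrobGen.exists_restrictNormalHom_eq E A hq hA hφ hσ
  obtain ⟨e1, e2⟩ := hE σ (φ ^ n * τ) hres
  have h3 : c' (φ ^ n * τ) = 0 := by
    rw [hc' (φ ^ n) τ, pow_eq_zero_of_isCocycle hc' hφ0 n, hI0 τ hτ, map_zero, add_zero]
  have h4 : c' σ = c' (φ ^ n * τ) := by
    show c σ - (act σ m - m) = c (φ ^ n * τ) - (act (φ ^ n * τ) m - m)
    rw [e1, e2]
  have h5 : c σ - (act σ m - m) = 0 := by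
    have : c' σ = 0 := by rw [h4, h3]
    exact this
  exact sub_eq_zero.1 h5

/-- **transport along conjugate places**: a coboundary on `D_A` is a coboundary on `D_{g • A}`. -/
theorem coboundary_on_decomposition_smul (hc : IsCocycle act c) (g : GQ)
    {A : ValuationSubring Qb}
    (h : ∃ m : M, ∀ σ ∈ A.decompositionSubgroup ℚ, c σ = act σ m - m) :
    ∃ m : M, ∀ σ ∈ (g • A).decompositionSubgroup ℚ, c σ = act σ m - m := by
  obtain ⟨m, hm⟩ := h
  refine ⟨act g m - c g, fun σ hσ => ?_⟩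
  have h1 := (mem_decompositionSubgroup_smul_iff g σ A).1 hσ
  have h2 := conj_cob_of_isCocycle hc g (g⁻¹ * σ * g) m (hm _ h1)
  have e : g * (g⁻¹ * σ * g) * g⁻¹ = σ := by group
  rw [e] at h2
  exact h2

/-- a coboundary on `D_A` takes values in `(τ - 1) M` at every Frobenius `τ` at `A`. -/
theorem mem_range_of_coboundary {q : ℕ} {A : ValuationSubring Qb}
    (h : ∃ m : M, ∀ σ ∈ A.decompositionSubgroup ℚ, c σ = act σ m - m)
    {τ : GQ} (hτ : A.IsFrobeniusAt τ q) : c τ ∈ LinearMap.range (act τ - 1) := by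
  obtain ⟨m, hm⟩ := h
  exact (mem_range_iff_exists_cob τ).2 ⟨m, hm τ hτ.mem_decompositionSubgroup⟩

/-- **(4) ⟹ (1)**: `c` a coboundary on `D_{A₀}` for ONE place `A₀ | q` ⟹ `c τ ∈ (τ - 1) M` for
EVERY Frobenius `τ` at EVERY place over `q`. -/
theorem forall_frob_of_exists_coboundary (hc : IsCocycle act c) {q : ℕ} (hq : q.Prime)
    {A₀ : ValuationSubring Qb} (hA₀ : A₀.LiesOverPrime q)
    (h : ∃ m : M, ∀ σ ∈ A₀.decompositionSubgroup ℚ, c σ = act σ m - m)
    (A : ValuationSubring Qb) (τ : GQ) (hA : A.LiesOverPrime q) (hτ : A.IsFrobeniusAt τ q) :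
    c τ ∈ LinearMap.range (act τ - 1) := by
  obtain ⟨g, rfl⟩ := Fermat.Agent.GP.Loc.PlaceConj.exists_smul_eq_of_liesOverPrime hq A₀ A hA₀ hA
  exact mem_range_of_coboundary (coboundary_on_decomposition_smul hc g h) hτ

variable (hc : IsCocycle act c) (hact : GaloisFactorsThroughFiniteLevel act)
  (hcl : ∃ L : IntermediateField ℚ Qb, FiniteDimensional ℚ L ∧
    ∀ σ : GQ, (∀ x ∈ L, σ x = x) → c σ = 0)
  {q : ℕ} (hq : q.Prime)
  (hunr : ∀ A : ValuationSubring Qb, A.LiesOverPrime q → ∀ σ ∈ A.inertiaSubgroupIn ℚ,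
    act σ = 1 ∧ c σ = 0)

include hc hact hcl hq hunr

/-- **(1) ⟺ (3)**. -/
theorem forall_frob_iff_forall_coboundary :
    (∀ (A : ValuationSubring Qb) (τ : GQ), A.LiesOverPrime q → A.IsFrobeniusAt τ q →
      c τ ∈ LinearMap.range (act τ - 1)) ↔
    ∀ A : ValuationSubring Qb, A.LiesOverPrime q →
      ∃ m : M, ∀ σ ∈ A.decompositionSubgroup ℚ, c σ = act σ m - m := by
  constructor
  · intro h A hA
    obtain ⟨τ, hτ⟩ := exists_isFrobeniusAt_of_liesOver A q hq hA
    exact coboundary_on_decomposition_of_frob hc hact hcl hq hA (hunr A hA) hτ (h A τ hA hτ)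
  · intro h A τ hA hτ
    exact mem_range_of_coboundary (h A hA) hτ

/-- **(1) ⟺ (4) at a chosen place `A₀ | q`** (the shape of `loc_q = 0` in the pinned model, where
`G_{ℚ_q} → G_ℚ` has image `D_{A₀}` for ONE place `A₀`). -/
theorem forall_frob_iff_coboundary_at {A₀ : ValuationSubring Qb} (hA₀ : A₀.LiesOverPrime q) :
    (∀ (A : ValuationSubring Qb) (τ : GQ), A.LiesOverPrime q → A.IsFrobeniusAt τ q →
      c τ ∈ LinearMap.range (act τ - 1)) ↔
    ∃ m : M, ∀ σ ∈ A₀.decompositionSubgroup ℚ, c σ = act σ m - m := by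
  constructor
  · intro h
    exact ((forall_frob_iff_forall_coboundary hc hact hcl hq hunr).1 h) A₀ hA₀
  · intro h A τ hA hτ
    exact forall_frob_of_exists_coboundary hc hq hA₀ h A τ hA hτ

/-- **(2) ⟹ (1)**: ONE Frobenius at ONE place suffices. -/
theorem forall_frob_of_exists_frob {A₀ : ValuationSubring Qb} (hA₀ : A₀.LiesOverPrime q)
    {τ₀ : GQ} (hτ₀ : A₀.IsFrobeniusAt τ₀ q) (h₀ : c τ₀ ∈ LinearMap.range (act τ₀ - 1))
    (A : ValuationSubring Qb) (τ : GQ) (hA : A.LiesOverPrime q) (hτ : A.IsFrobeniusAt τ q) :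
    c τ ∈ LinearMap.range (act τ - 1) :=
  forall_frob_of_exists_coboundary hc hq hA₀
    (coboundary_on_decomposition_of_frob hc hact hcl hq hA₀ (hunr A₀ hA₀) hτ₀ h₀) A τ hA hτ

end Main

/-! ### in the language of `locKer` / `locKerF` -/

section LocKer

variable {k : Type} [Field k] {M : Type} [AddCommGroup M] [Module k M]

/-- `w ∈ TWPrime.locKer act cz q` ⟺ the cocycle `cz w` is a coboundary on `D_{A₀}` for a chosen
place `A₀ | q` (all `cz w` finite-level and unramified at `q`). -/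
theorem mem_locKer_iff_coboundary {W : Type*} [AddCommGroup W] [Module k W]
    {act : GQ →* Module.End k M} (hact : GaloisFactorsThroughFiniteLevel act)
    (cz : W →ₗ[k] (GQ → M)) (w : W) (hcz : IsCocycle act (cz w))
    (hcl : ∃ L : IntermediateField ℚ Qb, FiniteDimensional ℚ L ∧
      ∀ σ : GQ, (∀ x ∈ L, σ x = x) → cz w σ = 0)
    {q : ℕ} (hq : q.Prime)
    (hunr : ∀ A : ValuationSubring Qb, A.LiesOverPrime q → ∀ σ ∈ A.inertiaSubgroupIn ℚ,
      act σ = 1 ∧ cz w σ = 0)
    {A₀ : ValuationSubring Qb} (hA₀ : A₀.LiesOverPrime q) :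
    w ∈ locKer act cz q ↔
      ∃ m : M, ∀ σ ∈ A₀.decompositionSubgroup ℚ, cz w σ = act σ m - m := by
  rw [mem_locKer]
  exact forall_frob_iff_coboundary_at hcz hact hcl hq hunr hA₀

/-- the same for helper55's two-field `Export.locKerF` (`W`, `cz` over a subfield `F`). -/
theorem mem_locKerF_iff_coboundary {F : Type*} [Field F] [Algebra F k] [Module F M]
    [IsScalarTower F k M] {W : Type*} [AddCommGroup W] [Module F W]
    {act : GQ →* Module.End k M} (hact : GaloisFactorsThroughFiniteLevel act)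
    (cz : W →ₗ[F] (GQ → M)) (w : W) (hcz : IsCocycle act (cz w))
    (hcl : ∃ L : IntermediateField ℚ Qb, FiniteDimensional ℚ L ∧
      ∀ σ : GQ, (∀ x ∈ L, σ x = x) → cz w σ = 0)
    {q : ℕ} (hq : q.Prime)
    (hunr : ∀ A : ValuationSubring Qb, A.LiesOverPrime q → ∀ σ ∈ A.inertiaSubgroupIn ℚ,
      act σ = 1 ∧ cz w σ = 0)
    {A₀ : ValuationSubring Qb} (hA₀ : A₀.LiesOverPrime q) :
    w ∈ Fermat.Agent.GP.TW.Export.locKerF act cz q ↔
      ∃ m : M, ∀ σ ∈ A₀.decompositionSubgroup ℚ, cz w σ = act σ m - m := by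
  rw [Fermat.Agent.GP.TW.Export.mem_locKerF]
  exact forall_frob_iff_coboundary_at hcz hact hcl hq hunr hA₀

end LocKer

/-! ### discharging `hcl` / `hunr` from level-constancy (the `levelS Σ` shape) -/

section Level

variable {k : Type} [Field k] {M : Type} [AddCommGroup M] [Module k M]
variable {act : GQ →* Module.End k M} {c : GQ → M}

/-- a cocycle that is right-invariant under a subgroup `U` vanishes on `U`. -/
theorem eq_zero_of_rightInvariant (hc : IsCocycle act c) {U : Subgroup GQ}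
    (hU : ∀ g s : GQ, s ∈ U → c (g * s) = c g) {σ : GQ} (hσ : σ ∈ U) : c σ = 0 := by
  have h := hU 1 σ hσ
  rw [one_mul, hc.map_one] at h
  exact h

/-- `hcl` from right-invariance under the fixing subgroup of a finite extension. -/
theorem hcl_of_rightInvariant (hc : IsCocycle act c) (F : IntermediateField ℚ Qb)
    (hfd : FiniteDimensional ℚ F)
    (hF : ∀ g s : GQ, s ∈ F.fixingSubgroup → c (g * s) = c g) :
    ∃ L : IntermediateField ℚ Qb, FiniteDimensional ℚ L ∧
      ∀ σ : GQ, (∀ x ∈ L, σ x = x) → c σ = 0 :=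
  ⟨F, hfd, fun _ hσ => eq_zero_of_rightInvariant hc hF
    ((IntermediateField.mem_fixingSubgroup_iff F _).2 hσ)⟩

/-- the `c`-half of `hunr` for a cocycle that is level-constant for `levelS S`, at `q ∉ S`. -/
theorem eq_zero_on_inertia_of_isUnramifiedOutside (hc : IsCocycle act c) {S : Finset Nat.Primes}
    {F : IntermediateField ℚ Qb} (hFS : F.IsUnramifiedOutside S)
    (hF : ∀ g s : GQ, s ∈ F.fixingSubgroup → c (g * s) = c g)
    {q : Nat.Primes} (hq : q ∉ S) {A : ValuationSubring Qb} (hA : A.LiesOverPrime (q : ℕ))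
    {σ : GQ} (hσ : σ ∈ A.inertiaSubgroupIn ℚ) : c σ = 0 :=
  eq_zero_of_rightInvariant hc hF (hFS.2 q hq A hA hσ)

/-- **pinned-model form**: `c` level-constant for `levelS S` (witness `F`), `act` unramified at
`q ∉ S`; then `locKer`-membership at `q` ⟺ `c` is a coboundary on `D_{A₀}`. -/
theorem forall_frob_iff_coboundary_at_of_level (hc : IsCocycle act c)
    (hact : GaloisFactorsThroughFiniteLevel act) {S : Finset Nat.Primes}
    {F : IntermediateField ℚ Qb} (hFS : F.IsUnramifiedOutside S)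
    (hF : ∀ g s : GQ, s ∈ F.fixingSubgroup → c (g * s) = c g)
    {q : Nat.Primes} (hq : q ∉ S)
    (hactq : ∀ A : ValuationSubring Qb, A.LiesOverPrime (q : ℕ) →
      ∀ σ ∈ A.inertiaSubgroupIn ℚ, act σ = 1)
    {A₀ : ValuationSubring Qb} (hA₀ : A₀.LiesOverPrime (q : ℕ)) :
    (∀ (A : ValuationSubring Qb) (τ : GQ), A.LiesOverPrime (q : ℕ) → A.IsFrobeniusAt τ (q : ℕ) →
      c τ ∈ LinearMap.range (act τ - 1)) ↔
    ∃ m : M, ∀ σ ∈ A₀.decompositionSubgroup ℚ, c σ = act σ m - m :=
  forall_frob_iff_coboundary_at hc hact (hcl_of_rightInvariant hc F hFS.1 hF) q.2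
    (fun A hA σ hσ => ⟨hactq A hA σ hσ,
      eq_zero_on_inertia_of_isUnramifiedOutside hc hFS hF hq hA hσ⟩) hA₀

end Level

end Fermat.Agent.GP.TW.LocKerRes
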