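import Mathlib

/-!
# S56 (Taylor–Wiles primes), node [P-TW], group theory (GT2) (helper55)

A Dickson-free lemma, valid over every field with `2 ≠ 0` (in particular for `p = 3`):

let `H` be a group of `2 × 2` matrices of determinant one over a field `k`, with no stable line in
`k²` and not commutative (in dimension two, with `2 ≠ 0`, these two conditions together are
absolute irreducibility), and let `X ≠ 0` be a `k`-subspace of traceless matrices stable under
conjugation by `H`.  Then there are a REGULAR SEMISIMPLE `h ∈ H` (`(tr h)² ≠ 4`) and `x ∈ X` with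
`tr (x h) ≠ 0`  (`Sees H X`).

In the Taylor–Wiles argument `H = ρ̄(G_{ℚ(ζ_{p^{n+1}})})`, `X` is the span of the values on
`G_{F_n}` of a dual Selmer class `ψ`, and `tr (ψ(τ) ρ̄(σ₀)) ≠ 0` says that `ψ(τ)` does not lie in
`(σ₀ - 1) ad⁰ρ̄(1)` (`trace_mul_eq_zero_of_mem_range`).

Proof.  If every non-regular element of `H` is `± 1` (Case A), a nonzero `x ∈ X` is
trace-orthogonal to all of `H`, hence `H` has a stable line (`det x = 0`) or is commutative
(`det x ≠ 0`).  Otherwise `H` contains a unipotent `u ≠ 1` (Case B); conjugating `u` to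
`(1 1; 0 1)`, the subspace `X` contains `E = (0 1; 0 0)` (apply `Ad u - 1` at most twice), some
`g ∈ H` has `g₂₁ ≠ 0`, and one of `u (g u g⁻¹)`, `u² (g u g⁻¹)` is regular with
`tr (E h) = - g₂₁² ≠ 0`.
-/

set_option autoImplicit false

namespace Fermat.Agent.GP.TW.RegSS

open Matrix

variable {k : Type*} [Field k]

/-! ### the hypotheses -/

/-- `H` is a group of `2 × 2` matrices of determinant one (inverse = adjugate) -/
structure IsSL2Group (H : Set (Matrix (Fin 2) (Fin 2) k)) : Prop where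
  one_mem : (1 : Matrix (Fin 2) (Fin 2) k) ∈ H
  mul_mem : ∀ {g h : Matrix (Fin 2) (Fin 2) k}, g ∈ H → h ∈ H → g * h ∈ H
  det_eq_one : ∀ {g : Matrix (Fin 2) (Fin 2) k}, g ∈ H → g.det = 1
  adj_mem : ∀ {g : Matrix (Fin 2) (Fin 2) k}, g ∈ H → g.adjugate ∈ H

/-- `X` is a space of traceless matrices stable under conjugation by `H` -/
structure IsAdStable (H : Set (Matrix (Fin 2) (Fin 2) k))
    (X : Submodule k (Matrix (Fin 2) (Fin 2) k)) : Prop where
  trace_eq_zero : ∀ {x : Matrix (Fin 2) (Fin 2) k}, x ∈ X → x.trace = 0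
  conj_mem : ∀ {g x : Matrix (Fin 2) (Fin 2) k}, g ∈ H → x ∈ X → g * x * g.adjugate ∈ X

/-- no line of `k²` is stable under `H` -/
def NoStableLine (H : Set (Matrix (Fin 2) (Fin 2) k)) : Prop :=
  ∀ v : Fin 2 → k, v ≠ 0 → ∃ g ∈ H, ∀ c : k, g *ᵥ v ≠ c • v

/-- `H` is not commutative -/
def NonComm (H : Set (Matrix (Fin 2) (Fin 2) k)) : Prop :=
  ∃ g ∈ H, ∃ g' ∈ H, g * g' ≠ g' * g

/-- some regular semisimple element of `H` is not trace-orthogonal to `X` -/
def Sees (H : Set (Matrix (Fin 2) (Fin 2) k)) (X : Submodule k (Matrix (Fin 2) (Fin 2) k)) :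
    Prop :=
  ∃ h ∈ H, h.trace ^ 2 ≠ 4 ∧ ∃ x ∈ X, (x * h).trace ≠ 0

/-! ### coordinates -/

theorem trace_mul_fin_two (A B : Matrix (Fin 2) (Fin 2) k) :
    (A * B).trace = A 0 0 * B 0 0 + A 0 1 * B 1 0 + A 1 0 * B 0 1 + A 1 1 * B 1 1 := by
  rw [Matrix.trace_fin_two, Matrix.mul_apply, Matrix.mul_apply, Fin.sum_univ_two,
    Fin.sum_univ_two]
  ring

theorem mulVec_fin_two (A : Matrix (Fin 2) (Fin 2) k) (v : Fin 2 → k) :
    A *ᵥ v = ![A 0 0 * v 0 + A 0 1 * v 1, A 1 0 * v 0 + A 1 1 * v 1] := by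
  ext i
  fin_cases i <;> simp [Matrix.mulVec, dotProduct, Fin.sum_univ_two]

omit [Field k] in
theorem ext_fin_two {A B : Matrix (Fin 2) (Fin 2) k} (h00 : A 0 0 = B 0 0) (h01 : A 0 1 = B 0 1)
    (h10 : A 1 0 = B 1 0) (h11 : A 1 1 = B 1 1) : A = B := by
  ext i j
  fin_cases i <;> fin_cases j
  · exact h00
  · exact h01
  · exact h10
  · exact h11

theorem ne_zero_fin_two {A : Matrix (Fin 2) (Fin 2) k} (hA : A ≠ 0) :
    A 0 0 ≠ 0 ∨ A 0 1 ≠ 0 ∨ A 1 0 ≠ 0 ∨ A 1 1 ≠ 0 := by
  by_contra h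
  simp only [not_or, not_not] at h
  exact hA (ext_fin_two h.1 h.2.1 h.2.2.1 h.2.2.2)

/-! ### Case A: the non-regular elements are `± 1` -/

theorem sees_of_caseA {H : Set (Matrix (Fin 2) (Fin 2) k)}
    {X : Submodule k (Matrix (Fin 2) (Fin 2) k)} (hH : IsSL2Group H) (hX : IsAdStable H X)
    (hirr : NoStableLine H) (hnc : NonComm H)
    (hA : ∀ g ∈ H, g.trace ^ 2 = 4 → g = 1 ∨ g = -1)
    {x : Matrix (Fin 2) (Fin 2) k} (hx : x ∈ X) (hx0 : x ≠ 0) : Sees H X := by
  by_contra hS
  -- `x` is trace-orthogonal to all of `H`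
  have hperp : ∀ g ∈ H, (x * g).trace = 0 := by
    intro g hg
    by_cases hreg : g.trace ^ 2 = 4
    · rcases hA g hg hreg with rfl | rfl
      · rw [mul_one]; exact hX.trace_eq_zero hx
      · rw [mul_neg, mul_one, Matrix.trace_neg, hX.trace_eq_zero hx, neg_zero]
    · by_contra hne
      exact hS ⟨g, hg, hreg, x, hx, hne⟩
  have htr := hX.trace_eq_zero hx
  rw [Matrix.trace_fin_two] at htr
  have h11 : x 1 1 = -x 0 0 := by linear_combination htr
  by_cases hδ : x 0 0 ^ 2 + x 0 1 * x 1 0 = 0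
  · -- `x` is nilpotent: a stable line
    by_cases hz : x 1 0 = 0
    · have hx00 : x 0 0 = 0 := by
        have : x 0 0 ^ 2 = 0 := by rw [hz, mul_zero, add_zero] at hδ; exact hδ
        exact pow_eq_zero_iff (two_ne_zero) |>.mp this
      have hy : x 0 1 ≠ 0 := by
        rcases ne_zero_fin_two hx0 with h | h | h | h
        · exact absurd hx00 h
        · exact h
        · exact absurd hz h
        · rw [h11, hx00, neg_zero] at h; exact absurd rfl h
      obtain ⟨g, hg, hgv⟩ := hirr ![1, 0] (by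
        intro h
        have := congrFun h 0
        simp at this)
      have h1 := hperp g hg
      rw [trace_mul_fin_two, hx00, hz, h11, hx00] at h1
      have hc : g 1 0 = 0 := by
        have : x 0 1 * g 1 0 = 0 := by linear_combination h1
        rcases mul_eq_zero.mp this with h | h
        · exact absurd h hy
        · exact h
      apply hgv (g 0 0)
      rw [mulVec_fin_two]
      ext i
      fin_cases i <;> simp [hc]
    · obtain ⟨g, hg, hgv⟩ := hirr ![x 0 0, x 1 0] (by
        intro h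
        have := congrFun h 1
        simp at this
        exact hz this)
      have h1 := hperp g hg
      rw [trace_mul_fin_two, h11] at h1
      apply hgv ((g 1 0 * x 0 0 + g 1 1 * x 1 0) / x 1 0)
      rw [mulVec_fin_two]
      ext i
      fin_cases i
      · simp only [Fin.zero_eta, Fin.isValue, cons_val_zero, cons_val_one, Pi.smul_apply,
          smul_eq_mul]
        field_simp
        linear_combination x 1 0 * h1 - g 1 0 * hδ
      · simp only [Fin.mk_one, Fin.isValue, cons_val_one, cons_val_zero, Pi.smul_apply,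
          smul_eq_mul]
        field_simp
  · -- `det x ≠ 0`: `H` is commutative
    obtain ⟨g, hg, g', hg', hne⟩ := hnc
    apply hne
    have hL := hperp g hg
    have hL' := hperp g' hg'
    have hLL := hperp (g * g') (hH.mul_mem hg hg')
    have hLL' := hperp (g' * g) (hH.mul_mem hg' hg)
    rw [trace_mul_fin_two, h11] at hL hL' hLL hLL'
    simp only [Matrix.mul_apply, Fin.sum_univ_two] at hLL hLL'
    apply ext_fin_two <;> simp only [Matrix.mul_apply, Fin.sum_univ_two] <;> grind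

/-! ### Case B in normal form: `H` contains `(1 1; 0 1)` -/

theorem adjugate_stdU :
    (!![1, 1; 0, 1] : Matrix (Fin 2) (Fin 2) k).adjugate = !![1, -1; 0, 1] := by
  rw [Matrix.adjugate_fin_two_of]
  simp

/-- `(Ad u - 1) x` for `u = (1 1; 0 1)` and a traceless `x` -/
theorem conj_stdU_sub {x : Matrix (Fin 2) (Fin 2) k} (hx : x.trace = 0) :
    (!![1, 1; 0, 1] : Matrix (Fin 2) (Fin 2) k) * x *
        (!![1, 1; 0, 1] : Matrix (Fin 2) (Fin 2) k).adjugate - x =
      !![x 1 0, -2 * x 0 0 - x 1 0; 0, -x 1 0] := by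
  rw [Matrix.trace_fin_two] at hx
  have h11 : x 1 1 = -x 0 0 := by linear_combination hx
  rw [adjugate_stdU]
  apply ext_fin_two <;>
    simp only [Matrix.sub_apply, Matrix.mul_apply, Fin.sum_univ_two] <;> simp [h11] <;> ring

/-- if `(1 1; 0 1) ∈ H` and `X ≠ 0`, then `(0 1; 0 0) ∈ X` -/
theorem stdE_mem {H : Set (Matrix (Fin 2) (Fin 2) k)}
    {X : Submodule k (Matrix (Fin 2) (Fin 2) k)} (hX : IsAdStable H X) (h2 : (2 : k) ≠ 0)
    (hu : (!![1, 1; 0, 1] : Matrix (Fin 2) (Fin 2) k) ∈ H)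
    {x : Matrix (Fin 2) (Fin 2) k} (hx : x ∈ X) (hx0 : x ≠ 0) :
    (!![0, 1; 0, 0] : Matrix (Fin 2) (Fin 2) k) ∈ X := by
  -- `D x = (Ad u - 1) x`
  have hD : ∀ y ∈ X, (!![y 1 0, -2 * y 0 0 - y 1 0; 0, -y 1 0] : Matrix (Fin 2) (Fin 2) k) ∈ X := by
    intro y hy
    rw [← conj_stdU_sub (hX.trace_eq_zero hy)]
    exact X.sub_mem (hX.conj_mem hu hy) hy
  -- a nonzero multiple of `E` in `X` suffices
  have key : ∀ c : k, c ≠ 0 → (!![0, c; 0, 0] : Matrix (Fin 2) (Fin 2) k) ∈ X →
      (!![0, 1; 0, 0] : Matrix (Fin 2) (Fin 2) k) ∈ X := by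
    intro c hc hmem
    have := X.smul_mem c⁻¹ hmem
    convert this using 1
    apply ext_fin_two <;> simp [hc]
  have htr := hX.trace_eq_zero hx
  rw [Matrix.trace_fin_two] at htr
  have h11 : x 1 1 = -x 0 0 := by linear_combination htr
  by_cases hz : x 1 0 = 0
  · by_cases ha : x 0 0 = 0
    · -- `x = y E`
      have hy : x 0 1 ≠ 0 := by
        rcases ne_zero_fin_two hx0 with h | h | h | h
        · exact absurd ha h
        · exact h
        · exact absurd hz h
        · rw [h11, ha, neg_zero] at h; exact absurd rfl h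
      apply key (x 0 1) hy
      convert hx using 1
      apply ext_fin_two <;> simp [ha, hz, h11]
    · apply key (-2 * x 0 0) (mul_ne_zero (neg_ne_zero.mpr h2) ha)
      have := hD x hx
      rw [hz] at this
      convert this using 1
      apply ext_fin_two <;> simp
  · apply key (-2 * x 1 0) (mul_ne_zero (neg_ne_zero.mpr h2) hz)
    have := hD _ (hD x hx)
    convert this using 1
    apply ext_fin_two <;> simp


/-- the conjugate of `(1 1; 0 1)` by a matrix of determinant one -/
theorem conj_stdU {g : Matrix (Fin 2) (Fin 2) k} (hg : g.det = 1) :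
    g * (!![1, 1; 0, 1] : Matrix (Fin 2) (Fin 2) k) * g.adjugate =
      !![1 - g 0 0 * g 1 0, g 0 0 ^ 2; -(g 1 0) ^ 2, 1 + g 0 0 * g 1 0] := by
  rw [Matrix.det_fin_two] at hg
  rw [Matrix.adjugate_fin_two]
  apply ext_fin_two <;>
    simp only [Matrix.mul_apply, Fin.sum_univ_two] <;> simp <;>
    first
      | linear_combination hg
      | linear_combination (-1 : k) * hg
      | ring

theorem sees_of_stdU {H : Set (Matrix (Fin 2) (Fin 2) k)}
    {X : Submodule k (Matrix (Fin 2) (Fin 2) k)} (hH : IsSL2Group H)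
    (h2 : (2 : k) ≠ 0) (hu : (!![1, 1; 0, 1] : Matrix (Fin 2) (Fin 2) k) ∈ H)
    {g : Matrix (Fin 2) (Fin 2) k} (hg : g ∈ H) (hc : g 1 0 ≠ 0)
    (hE : (!![0, 1; 0, 0] : Matrix (Fin 2) (Fin 2) k) ∈ X) : Sees H X := by
  have hu' : g * (!![1, 1; 0, 1] : Matrix (Fin 2) (Fin 2) k) * g.adjugate ∈ H :=
    hH.mul_mem (hH.mul_mem hg hu) (hH.adj_mem hg)
  rw [conj_stdU (hH.det_eq_one hg)] at hu'
  set a := g 0 0 with ha
  set c := g 1 0 with hc'
  have hc2 : c ^ 2 ≠ 0 := pow_ne_zero 2 hc
  -- the two candidates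
  have h1 : (!![1, 1; 0, 1] : Matrix (Fin 2) (Fin 2) k) *
      !![1 - a * c, a ^ 2; -c ^ 2, 1 + a * c] ∈ H := hH.mul_mem hu hu'
  have h2' : (!![1, 1; 0, 1] : Matrix (Fin 2) (Fin 2) k) *
      ((!![1, 1; 0, 1] : Matrix (Fin 2) (Fin 2) k) *
        !![1 - a * c, a ^ 2; -c ^ 2, 1 + a * c]) ∈ H := hH.mul_mem hu h1
  by_cases h4 : c ^ 2 = 4
  · refine ⟨_, h2', ?_, _, hE, ?_⟩
    · simp only [Matrix.trace_fin_two, Matrix.mul_apply, Fin.sum_univ_two]
      simp
      intro h
      have : c ^ 2 * (c ^ 2 - 2) * 4 = 0 := by linear_combination h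
      rw [h4] at this
      have h40 : (4 : k) ≠ 0 := by
        have : (4 : k) = 2 * 2 := by norm_num
        rw [this]; exact mul_ne_zero h2 h2
      have h42 : (4 : k) - 2 ≠ 0 := by
        have : (4 : k) - 2 = 2 := by norm_num
        rw [this]; exact h2
      exact mul_ne_zero (mul_ne_zero h40 h42) h40 this
    · rw [trace_mul_fin_two]
      simp only [Matrix.mul_apply, Fin.sum_univ_two]
      simp
      exact hc
  · refine ⟨_, h1, ?_, _, hE, ?_⟩
    · simp only [Matrix.trace_fin_two, Matrix.mul_apply, Fin.sum_univ_two]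
      simp
      intro h
      have : c ^ 2 * (c ^ 2 - 4) = 0 := by linear_combination h
      rcases mul_eq_zero.mp this with h | h
      · exact hc2 h
      · exact h4 (by linear_combination h)
    · rw [trace_mul_fin_two]
      simp only [Matrix.mul_apply, Fin.sum_univ_two]
      simp
      exact hc


/-! ### change of basis -/

/-- the conjugate `P H Q` of `H` (`Q = P⁻¹`) -/
def conjSet (P Q : Matrix (Fin 2) (Fin 2) k) (H : Set (Matrix (Fin 2) (Fin 2) k)) :
    Set (Matrix (Fin 2) (Fin 2) k) :=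
  {m | Q * m * P ∈ H}

/-- the conjugate `P X Q` of `X` (`Q = P⁻¹`) -/
def conjSub (P Q : Matrix (Fin 2) (Fin 2) k) (X : Submodule k (Matrix (Fin 2) (Fin 2) k)) :
    Submodule k (Matrix (Fin 2) (Fin 2) k) :=
  X.comap ((LinearMap.mulLeft k Q).comp (LinearMap.mulRight k P))

theorem mem_conjSet {P Q : Matrix (Fin 2) (Fin 2) k} {H : Set (Matrix (Fin 2) (Fin 2) k)}
    {m : Matrix (Fin 2) (Fin 2) k} : m ∈ conjSet P Q H ↔ Q * m * P ∈ H := Iff.rfl

theorem mem_conjSub {P Q : Matrix (Fin 2) (Fin 2) k}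
    {X : Submodule k (Matrix (Fin 2) (Fin 2) k)} {x : Matrix (Fin 2) (Fin 2) k} :
    x ∈ conjSub P Q X ↔ Q * x * P ∈ X := by
  simp [conjSub, mul_assoc]

theorem adjugate_eq_of_mul_eq_one {P Q : Matrix (Fin 2) (Fin 2) k} (hPQ : P * Q = 1) :
    P.adjugate = P.det • Q := by
  calc P.adjugate = P.adjugate * (P * Q) := by rw [hPQ, mul_one]
    _ = (P.adjugate * P) * Q := by rw [mul_assoc]
    _ = P.det • Q := by rw [Matrix.adjugate_mul, Matrix.smul_mul, one_mul]

theorem adjugate_conj {P Q : Matrix (Fin 2) (Fin 2) k} (hPQ : P * Q = 1)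
    (m : Matrix (Fin 2) (Fin 2) k) : (Q * m * P).adjugate = Q * m.adjugate * P := by
  have hQP : Q * P = 1 := mul_eq_one_comm.mp hPQ
  have hdet : P.det * Q.det = 1 := by rw [← Matrix.det_mul, hPQ, Matrix.det_one]
  rw [Matrix.adjugate_mul_distrib, Matrix.adjugate_mul_distrib, adjugate_eq_of_mul_eq_one hPQ,
    adjugate_eq_of_mul_eq_one hQP]
  simp only [Matrix.smul_mul, Matrix.mul_smul, smul_smul]
  rw [mul_comm Q.det, hdet, one_smul, mul_assoc]

theorem conj_mul_conj {P Q : Matrix (Fin 2) (Fin 2) k} (hPQ : P * Q = 1)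
    (m m' : Matrix (Fin 2) (Fin 2) k) : Q * m * P * (Q * m' * P) = Q * (m * m') * P := by
  calc Q * m * P * (Q * m' * P) = Q * m * (P * Q) * m' * P := by simp only [mul_assoc]
    _ = Q * (m * m') * P := by rw [hPQ, mul_one]; simp only [mul_assoc]

theorem trace_conj {P Q : Matrix (Fin 2) (Fin 2) k} (hPQ : P * Q = 1)
    (m : Matrix (Fin 2) (Fin 2) k) : (Q * m * P).trace = m.trace := by
  rw [Matrix.trace_mul_comm, ← mul_assoc, hPQ, one_mul]

theorem isSL2Group_conjSet {P Q : Matrix (Fin 2) (Fin 2) k} (hPQ : P * Q = 1)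
    {H : Set (Matrix (Fin 2) (Fin 2) k)} (hH : IsSL2Group H) : IsSL2Group (conjSet P Q H) := by
  have hQP : Q * P = 1 := mul_eq_one_comm.mp hPQ
  have hdet : Q.det * P.det = 1 := by rw [← Matrix.det_mul, hQP, Matrix.det_one]
  refine ⟨?_, ?_, ?_, ?_⟩
  · rw [mem_conjSet, mul_one, hQP]; exact hH.one_mem
  · intro g h hg hh
    rw [mem_conjSet] at hg hh ⊢
    rw [← conj_mul_conj hPQ]
    exact hH.mul_mem hg hh
  · intro g hg
    have := hH.det_eq_one hg
    rw [Matrix.det_mul, Matrix.det_mul] at this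
    calc g.det = (Q.det * P.det) * g.det := by rw [hdet, one_mul]
      _ = Q.det * g.det * P.det := by ring
      _ = 1 := this
  · intro g hg
    rw [mem_conjSet] at hg ⊢
    rw [← adjugate_conj hPQ]
    exact hH.adj_mem hg

theorem isAdStable_conj {P Q : Matrix (Fin 2) (Fin 2) k} (hPQ : P * Q = 1)
    {H : Set (Matrix (Fin 2) (Fin 2) k)} {X : Submodule k (Matrix (Fin 2) (Fin 2) k)}
    (hX : IsAdStable H X) : IsAdStable (conjSet P Q H) (conjSub P Q X) := by
  refine ⟨?_, ?_⟩
  · intro x hx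
    rw [mem_conjSub] at hx
    rw [← trace_conj hPQ]
    exact hX.trace_eq_zero hx
  · intro g x hg hx
    rw [mem_conjSet] at hg
    rw [mem_conjSub] at hx ⊢
    rw [← conj_mul_conj hPQ, ← conj_mul_conj hPQ, ← adjugate_conj hPQ]
    exact hX.conj_mem hg hx

theorem sees_of_conj {P Q : Matrix (Fin 2) (Fin 2) k} (hPQ : P * Q = 1)
    {H : Set (Matrix (Fin 2) (Fin 2) k)} {X : Submodule k (Matrix (Fin 2) (Fin 2) k)}
    (h : Sees (conjSet P Q H) (conjSub P Q X)) : Sees H X := by
  obtain ⟨m, hm, htr, x, hx, hxm⟩ := h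
  rw [mem_conjSub] at hx
  refine ⟨Q * m * P, hm, ?_, Q * x * P, hx, ?_⟩
  · rw [trace_conj hPQ]; exact htr
  · rw [conj_mul_conj hPQ, trace_conj hPQ]; exact hxm

/-- no stable line: after any change of basis some element has a nonzero lower left entry -/
theorem exists_lower_ne_zero {P Q : Matrix (Fin 2) (Fin 2) k} (hPQ : P * Q = 1)
    {H : Set (Matrix (Fin 2) (Fin 2) k)} (hirr : NoStableLine H) :
    ∃ m ∈ conjSet P Q H, m 1 0 ≠ 0 := by
  have hQP : Q * P = 1 := mul_eq_one_comm.mp hPQ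
  have hv : Q *ᵥ ![1, 0] ≠ 0 := by
    intro h
    have h1 : P *ᵥ (Q *ᵥ ![1, 0]) = ![1, 0] := by
      rw [Matrix.mulVec_mulVec, hPQ, Matrix.one_mulVec]
    rw [h, Matrix.mulVec_zero] at h1
    have := congrFun h1 0
    simp at this
  obtain ⟨h, hh, hne⟩ := hirr _ hv
  refine ⟨P * h * Q, ?_, ?_⟩
  · rw [mem_conjSet]
    have : Q * (P * h * Q) * P = (Q * P) * h * (Q * P) := by simp only [mul_assoc]
    rw [this, hQP, one_mul, mul_one]
    exact hh
  · intro h0
    apply hne ((P * h * Q) 0 0)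
    have h1 : (P * h * Q) *ᵥ ![1, 0] = (P * h * Q) 0 0 • ![1, 0] := by
      rw [mulVec_fin_two]
      ext i
      fin_cases i <;> simp [h0]
    calc h *ᵥ (Q *ᵥ ![1, 0]) = (Q * P) *ᵥ (h *ᵥ (Q *ᵥ ![1, 0])) := by
          rw [hQP, Matrix.one_mulVec]
      _ = Q *ᵥ ((P * h * Q) *ᵥ ![1, 0]) := by
          simp only [Matrix.mulVec_mulVec, mul_assoc]
      _ = (P * h * Q) 0 0 • Q *ᵥ ![1, 0] := by
          rw [h1, Matrix.mulVec_smul]


/-! ### Case B: `H` contains a non-regular element other than `± 1` -/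

/-- Cayley–Hamilton for a `2 × 2` matrix of determinant one -/
theorem sq_eq_of_det_eq_one {g : Matrix (Fin 2) (Fin 2) k} (hg : g.det = 1) :
    g * g = g.trace • g - 1 := by
  rw [Matrix.det_fin_two] at hg
  apply ext_fin_two <;>
    simp only [Matrix.mul_apply, Fin.sum_univ_two, Matrix.sub_apply, Matrix.smul_apply,
      Matrix.trace_fin_two, smul_eq_mul] <;> simp <;>
    first
      | linear_combination hg
      | linear_combination (-1 : k) * hg
      | ring

/-- a non-regular element other than `± 1` yields a unipotent element `≠ 1` -/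
theorem exists_unipotent {H : Set (Matrix (Fin 2) (Fin 2) k)} (hH : IsSL2Group H)
    (h2 : (2 : k) ≠ 0) {g : Matrix (Fin 2) (Fin 2) k} (hg : g ∈ H) (htr : g.trace ^ 2 = 4)
    (h1 : g ≠ 1) (hm1 : g ≠ -1) : ∃ u ∈ H, u.trace = 2 ∧ u ≠ 1 := by
  have hcases : g.trace = 2 ∨ g.trace = -2 := by
    have : (g.trace - 2) * (g.trace + 2) = 0 := by linear_combination htr
    rcases mul_eq_zero.mp this with h | h
    · left; linear_combination h
    · right; linear_combination h
  rcases hcases with h | h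
  · exact ⟨g, hg, h, h1⟩
  · refine ⟨g * g, hH.mul_mem hg hg, ?_, ?_⟩
    · rw [sq_eq_of_det_eq_one (hH.det_eq_one hg), Matrix.trace_sub, Matrix.trace_smul, h,
        Matrix.trace_one]
      simp
      norm_num
    · rw [sq_eq_of_det_eq_one (hH.det_eq_one hg), h]
      intro hh
      apply hm1
      have h3 : (2 : k) • (g + 1) = 0 := by
        rw [smul_add, two_smul, two_smul]
        have : (-2 : k) • g = -(g + g) := by
          rw [neg_smul, two_smul]
        rw [this] at hh
        have : g + g + (1 + 1) = -((-(g + g) - 1) - 1) + 0 := by abel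
        rw [this, hh]
        abel
      rcases smul_eq_zero.mp h3 with h | h
      · exact absurd h h2
      · exact eq_neg_of_add_eq_zero_left h


theorem exists_conj_stdU_aux (n m l : k) (hN : n ^ 2 + m * l = 0)
    (hne : ¬ (n = 0 ∧ m = 0 ∧ l = 0)) :
    ∃ P Q : Matrix (Fin 2) (Fin 2) k, P * Q = 1 ∧
      Q * (!![1, 1; 0, 1] : Matrix (Fin 2) (Fin 2) k) * P = !![1 + n, m; l, 1 - n] := by
  by_cases hl0 : l = 0
  · have hn0 : n = 0 := by
      rw [hl0, mul_zero, add_zero] at hN
      exact pow_eq_zero_iff (two_ne_zero) |>.mp hN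
    have hm0 : m ≠ 0 := fun hm0 => hne ⟨hn0, hm0, hl0⟩
    subst hl0 hn0
    refine ⟨!![1, 0; 0, m], !![1, 0; 0, m⁻¹], ?_, ?_⟩
    · apply ext_fin_two <;> simp [Matrix.mul_apply, Fin.sum_univ_two, hm0]
    · apply ext_fin_two <;>
        simp only [Matrix.mul_apply, Fin.sum_univ_two] <;> simp [hm0]
  · refine ⟨!![0, l⁻¹; 1, -n * l⁻¹], !![n, 1; l, 0], ?_, ?_⟩
    · apply ext_fin_two <;> simp [Matrix.mul_apply, Fin.sum_univ_two, hl0]
    · apply ext_fin_two <;>
        simp only [Matrix.mul_apply, Fin.sum_univ_two] <;> simp [hl0]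
      · ring
      · field_simp
        linear_combination -hN
      · field_simp
        ring

/-- a unipotent element `≠ 1` is conjugate to `(1 1; 0 1)` -/
theorem exists_conj_stdU {u : Matrix (Fin 2) (Fin 2) k} (hdet : u.det = 1) (htr : u.trace = 2)
    (hu1 : u ≠ 1) :
    ∃ P Q : Matrix (Fin 2) (Fin 2) k, P * Q = 1 ∧
      Q * (!![1, 1; 0, 1] : Matrix (Fin 2) (Fin 2) k) * P = u := by
  rw [Matrix.det_fin_two] at hdet
  rw [Matrix.trace_fin_two] at htr
  have hu : u = !![1 + (u 0 0 - 1), u 0 1; u 1 0, 1 - (u 0 0 - 1)] := by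
    apply ext_fin_two <;> simp
    linear_combination htr
  have h11 : u 1 1 = 2 - u 0 0 := by linear_combination htr
  obtain ⟨P, Q, hPQ, h⟩ := exists_conj_stdU_aux (u 0 0 - 1) (u 0 1) (u 1 0)
    (by rw [h11] at hdet; linear_combination -hdet)
    (by
      rintro ⟨h1, h2, h3⟩
      apply hu1
      apply ext_fin_two
      · simp; linear_combination h1
      · simpa using h2
      · simpa using h3
      · simp; rw [h11]; linear_combination -h1)
  exact ⟨P, Q, hPQ, h.trans hu.symm⟩


/-! ### the theorem -/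

/-- **Regular semisimple elements see every stable subspace.**  `H` a group of `2 × 2` matrices
of determinant one over a field with `2 ≠ 0`, without stable line and not commutative; `X ≠ 0` a
conjugation-stable space of traceless matrices.  Then some `h ∈ H` with `(tr h)² ≠ 4` and some
`x ∈ X` have `tr (x h) ≠ 0`. -/
theorem sees {H : Set (Matrix (Fin 2) (Fin 2) k)} {X : Submodule k (Matrix (Fin 2) (Fin 2) k)}
    (hH : IsSL2Group H) (hX : IsAdStable H X) (h2 : (2 : k) ≠ 0) (hirr : NoStableLine H)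
    (hnc : NonComm H) (hX0 : X ≠ ⊥) : Sees H X := by
  obtain ⟨x, hx, hx0⟩ := Submodule.exists_mem_ne_zero_of_ne_bot hX0
  by_cases hA : ∀ g ∈ H, g.trace ^ 2 = 4 → g = 1 ∨ g = -1
  · exact sees_of_caseA hH hX hirr hnc hA hx hx0
  · simp only [not_forall, not_or] at hA
    obtain ⟨g, hg, htr, h1, hm1⟩ := hA
    obtain ⟨u, hu, hutr, hu1⟩ := exists_unipotent hH h2 hg htr h1 hm1
    obtain ⟨P, Q, hPQ, hconj⟩ := exists_conj_stdU (hH.det_eq_one hu) hutr hu1
    have hQP : Q * P = 1 := mul_eq_one_comm.mp hPQ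
    apply sees_of_conj hPQ
    have hH' := isSL2Group_conjSet hPQ hH
    have hX' := isAdStable_conj hPQ hX
    have hu' : (!![1, 1; 0, 1] : Matrix (Fin 2) (Fin 2) k) ∈ conjSet P Q H := by
      rw [mem_conjSet, hconj]; exact hu
    obtain ⟨m, hm, hm10⟩ := exists_lower_ne_zero hPQ hirr
    have hx' : P * x * Q ∈ conjSub P Q X := by
      rw [mem_conjSub]
      have : Q * (P * x * Q) * P = (Q * P) * x * (Q * P) := by simp only [mul_assoc]
      rw [this, hQP, one_mul, mul_one]
      exact hx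
    have hx'0 : P * x * Q ≠ 0 := by
      intro h
      apply hx0
      have : x = Q * (P * x * Q) * P := by
        have : Q * (P * x * Q) * P = (Q * P) * x * (Q * P) := by simp only [mul_assoc]
        rw [this, hQP, one_mul, mul_one]
      rw [this, h, mul_zero, zero_mul]
    exact sees_of_stdU hH' h2 hu' hm hm10 (stdE_mem hX' h2 hu' hx' hx'0)

/-- the form used for Taylor–Wiles primes: `W` any set of traceless matrices, not `{0}`, whose
`k`-span is conjugation-stable; the witness `w` can be taken in `W` itself -/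
theorem exists_regular_of_set {H : Set (Matrix (Fin 2) (Fin 2) k)} (hH : IsSL2Group H)
    (h2 : (2 : k) ≠ 0) (hirr : NoStableLine H) (hnc : NonComm H)
    {W : Set (Matrix (Fin 2) (Fin 2) k)} (hW0 : ∃ w ∈ W, w ≠ 0) (hWtr : ∀ w ∈ W, w.trace = 0)
    (hWconj : ∀ g ∈ H, ∀ w ∈ W, g * w * g.adjugate ∈ Submodule.span k W) :
    ∃ h ∈ H, h.trace ^ 2 ≠ 4 ∧ ∃ w ∈ W, (w * h).trace ≠ 0 := by
  have hX : IsAdStable H (Submodule.span k W) := by
    refine ⟨?_, ?_⟩
    · intro x hx
      induction hx using Submodule.span_induction with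
      | mem x hx => exact hWtr x hx
      | zero => exact Matrix.trace_zero _ _
      | add x y _ _ hx hy => rw [Matrix.trace_add, hx, hy, add_zero]
      | smul c x _ hx => rw [Matrix.trace_smul, hx, smul_zero]
    · intro g x hg hx
      induction hx using Submodule.span_induction with
      | mem x hx => exact hWconj g hg x hx
      | zero => rw [mul_zero, zero_mul]; exact Submodule.zero_mem _
      | add x y _ _ hx hy => rw [mul_add, add_mul]; exact Submodule.add_mem _ hx hy
      | smul c x _ hx => rw [Matrix.mul_smul, Matrix.smul_mul]; exact Submodule.smul_mem _ c hx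
  have hX0 : Submodule.span k W ≠ ⊥ := by
    obtain ⟨w, hw, hw0⟩ := hW0
    intro h
    apply hw0
    have : w ∈ Submodule.span k W := Submodule.subset_span hw
    rw [h] at this
    exact (Submodule.mem_bot k).mp this
  obtain ⟨h, hh, htr, x, hx, hxh⟩ := sees hH hX h2 hirr hnc hX0
  refine ⟨h, hh, htr, ?_⟩
  by_contra hcon
  simp only [not_exists, not_and, not_not] at hcon
  apply hxh
  clear hxh
  induction hx using Submodule.span_induction with
  | mem x hx => exact hcon x hx
  | zero => rw [zero_mul, Matrix.trace_zero]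
  | add x y _ _ hx hy => rw [add_mul, Matrix.trace_add, hx, hy, add_zero]
  | smul c x _ hx => rw [Matrix.smul_mul, Matrix.trace_smul, hx, smul_zero]

/-- `tr (x h) ≠ 0` keeps `x` out of the image of `Ad h - 1` -/
theorem trace_mul_eq_zero_of_mem_range {h : Matrix (Fin 2) (Fin 2) k} (hdet : h.det = 1)
    (z : Matrix (Fin 2) (Fin 2) k) : ((h * z * h.adjugate - z) * h).trace = 0 := by
  rw [sub_mul, mul_assoc, Matrix.adjugate_mul, hdet, one_smul, mul_one, Matrix.trace_sub,
    Matrix.trace_mul_comm, sub_self]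

theorem not_mem_range_of_trace_ne_zero {h x : Matrix (Fin 2) (Fin 2) k} (hdet : h.det = 1)
    (hx : (x * h).trace ≠ 0) : ¬ ∃ z : Matrix (Fin 2) (Fin 2) k, x = h * z * h.adjugate - z := by
  rintro ⟨z, rfl⟩
  exact hx (trace_mul_eq_zero_of_mem_range hdet z)

end Fermat.Agent.GP.TW.RegSS
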