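import Fermat.Agent.GP.TW.ExportAt
import Fermat.Agent.GP.TW.GT1Plug
import Fermat.Agent.GP.TW.H1Dir.ReducePlug
import Fermat.Agent.GP.TW.H1Dir.Bad5Plug
import Fermat.Agent.GP.TW.Grp.AdapterDet

/-!
# S56, node [P-TW]: FINAL — no group-theory binder left (helper55, co-owner of [P-TW])

* `gt1_frozen` : **(GT1)** `H¹(im ρ̄, ad⁰ρ̄(1)) = 0` in the function-cocycle form `Export.GT1`, from
  the FROZEN hypotheses of S56 (`p ≠ 2`, `habs`, `hdet`, `hsplit`, `hTW`, finite residue field):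
  helper52 `H1Dir` (trace identity + functional equation) + helper34 `ConjNP`/`ReducePlug` +
  helper38 `Bad5Plug` + helper1 `GT1Plug` + helper49 `Grp.matrix_hyps` / `AdapterDet`.
* `tw_final`, `tw_final_at` : `Export.tw_export`, `Export.tw_export_at` with `GT1` discharged.  The
  ONLY remaining input of `[P-TW]` is the package `(W, cz, hcz, hctr, hcl, hW)` of cocycle
  representatives (from `[SEL]`).
-/

set_option autoImplicit false

open Matrix Polynomial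

namespace Fermat.Agent.GP.TW.TWFinal

open Fermat.Agent.GP.TW.SigmaLemma Fermat.Agent.GP.TW.TWPrime Fermat.Agent.GP.TW.GTGlue
open Fermat.Agent.GP.TW.Grp Fermat.Agent.GP.TW.Export

local notation "Qb" => AlgebraicClosure ℚ
local notation "GQ" => (AlgebraicClosure ℚ ≃ₐ[ℚ] AlgebraicClosure ℚ)

variable {k : Type} [Field k] [Finite k]

local notation "M2" => Matrix (Fin 2) (Fin 2) k

/-- **(GT1) from the frozen hypotheses.** -/
theorem gt1_frozen (p : ℕ) [Fact p.Prime] (hp2 : p ≠ 2) (ρbar : ResidualGaloisRep k)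
    (habs : ρbar.IsAbsolutelyIrreducible)
    (hdet : (GaloisRepAdic.ofResidualGaloisRep ρbar).DetIsCyclotomic p)
    (hsplit : ∀ σ : GQ, ∃ α β : k, LinearMap.charpoly (ρbar.ρ σ) = (X - C α) * (X - C β))
    (hTW : ∀ (K : Type) [Field K] [Algebra k K] (G : Subgroup GQ), G.index = 2 →
      ∀ V : Submodule K (ρbar.baseChange K).V,
        (∀ σ ∈ G, ∀ x ∈ V, (ρbar.baseChange K).ρ σ x ∈ V) → V = ⊥ ∨ V = ⊤)
    (b : Module.Basis (Fin 2) k ρbar.V) : GT1 (matRep ρbar b) := by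
  obtain ⟨-, hp0, hL, -, -, -, -, -, -⟩ := matrix_hyps p hp2 ρbar habs hdet hsplit hTW b
  have hp : p.Prime := Fact.out
  have : CharP k p := (CharP.charP_iff_prime_eq_zero hp).2 hp0
  refine GT1Plug.hGT1_of_h1_vanish (R := matRep ρbar b) p
    (fun Γ _ hirr h5 c hc htr =>
      H1Dir.h1_vanish_of_bad5Stmt p hp2 (H1Dir.bad5Stmt_holds k) Γ hirr h5 c hc htr)
    (noEigen_of_noStableLine hL) (fun h5 => ?_)
  have hp3 : p ≠ 3 := by omega
  exact exists_matRep_det_sq_ne_one p hp2 hp3 ρbar hdet b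

variable {F : Type*} [Field F] [Algebra F k]
variable {W : Type*} [AddCommGroup W] [Module F W] [FiniteDimensional F W]

/-- **[P-TW] FINAL** (all places, all Frobenius lifts). -/
theorem tw_final (p : ℕ) [Fact p.Prime] (hp2 : p ≠ 2) (ρbar : ResidualGaloisRep k)
    (habs : ρbar.IsAbsolutelyIrreducible)
    (hdet : (GaloisRepAdic.ofResidualGaloisRep ρbar).DetIsCyclotomic p)
    (hsplit : ∀ σ : GQ, ∃ α β : k, LinearMap.charpoly (ρbar.ρ σ) = (X - C α) * (X - C β))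
    (hTW : ∀ (K : Type) [Field K] [Algebra k K] (G : Subgroup GQ), G.index = 2 →
      ∀ V : Submodule K (ρbar.baseChange K).V,
        (∀ σ ∈ G, ∀ x ∈ V, (ρbar.baseChange K).ρ σ x ∈ V) → V = ⊥ ∨ V = ⊤)
    (b : Module.Basis (Fin 2) k ρbar.V)
    (cz : W →ₗ[F] (GQ → M2)) (hcz : ∀ w, IsCocycle (adAct (matRep ρbar b)) (cz w))
    (hctr : ∀ w g, (cz w g).trace = 0)
    (hcl : ∀ w, ∃ L : IntermediateField ℚ Qb, FiniteDimensional ℚ L ∧
      ∀ σ : GQ, (∀ x ∈ L, σ x = x) → cz w σ = 0)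
    (hW : ∀ w : W, w ≠ 0 →
      ¬ ∃ m : M2, m.trace = 0 ∧ ∀ g, cz w g = adAct (matRep ρbar b) g m - m)
    (n : ℕ) (B₀ : Finset ℕ) :
    ∃ qv : Fin (Module.finrank F W) → ℕ, Function.Injective qv ∧
      (∀ i, (qv i).Prime ∧ qv i ∉ B₀ ∧ p ^ (n + 1) ∣ qv i - 1) ∧
      (∀ i, ∀ (A : ValuationSubring Qb) (τ : GQ), A.LiesOverPrime (qv i) →
        A.IsFrobeniusAt τ (qv i) →
        ∃ α β : k, α ≠ β ∧ LinearMap.charpoly (ρbar.ρ τ) = (X - C α) * (X - C β)) ∧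
      ∀ w : W, (∀ i, w ∈ locKerF (adAct (matRep ρbar b)) cz (qv i)) → w = 0 :=
  tw_export p hp2 ρbar habs hdet hsplit hTW b
    (gt1_frozen p hp2 ρbar habs hdet hsplit hTW b) cz hcz hctr hcl hW n B₀

/-- **[P-TW] FINAL at chosen Frobenius elements** `fr q`. -/
theorem tw_final_at (p : ℕ) [Fact p.Prime] (hp2 : p ≠ 2) (ρbar : ResidualGaloisRep k)
    (habs : ρbar.IsAbsolutelyIrreducible)
    (hdet : (GaloisRepAdic.ofResidualGaloisRep ρbar).DetIsCyclotomic p)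
    (hsplit : ∀ σ : GQ, ∃ α β : k, LinearMap.charpoly (ρbar.ρ σ) = (X - C α) * (X - C β))
    (hTW : ∀ (K : Type) [Field K] [Algebra k K] (G : Subgroup GQ), G.index = 2 →
      ∀ V : Submodule K (ρbar.baseChange K).V,
        (∀ σ ∈ G, ∀ x ∈ V, (ρbar.baseChange K).ρ σ x ∈ V) → V = ⊥ ∨ V = ⊤)
    (b : Module.Basis (Fin 2) k ρbar.V)
    (cz : W →ₗ[F] (GQ → M2)) (hcz : ∀ w, IsCocycle (adAct (matRep ρbar b)) (cz w))
    (hctr : ∀ w g, (cz w g).trace = 0)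
    (hcl : ∀ w, ∃ L : IntermediateField ℚ Qb, FiniteDimensional ℚ L ∧
      ∀ σ : GQ, (∀ x ∈ L, σ x = x) → cz w σ = 0)
    (hW : ∀ w : W, w ≠ 0 →
      ¬ ∃ m : M2, m.trace = 0 ∧ ∀ g, cz w g = adAct (matRep ρbar b) g m - m)
    (fr : ℕ → GQ)
    (hfr : ∀ q : ℕ, q.Prime →
      ∃ A : ValuationSubring Qb, A.LiesOverPrime q ∧ A.IsFrobeniusAt (fr q) q)
    (n : ℕ) (B₀ : Finset ℕ) :
    ∃ qv : Fin (Module.finrank F W) → ℕ, Function.Injective qv ∧
      (∀ i, (qv i).Prime ∧ qv i ∉ B₀ ∧ p ^ (n + 1) ∣ qv i - 1) ∧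
      (∀ i, ∀ (A : ValuationSubring Qb) (τ : GQ), A.LiesOverPrime (qv i) →
        A.IsFrobeniusAt τ (qv i) →
        ∃ α β : k, α ≠ β ∧ LinearMap.charpoly (ρbar.ρ τ) = (X - C α) * (X - C β)) ∧
      ∀ w : W, (∀ i, cz w (fr (qv i)) ∈
        LinearMap.range (adAct (matRep ρbar b) (fr (qv i)) - 1)) → w = 0 :=
  tw_export_at p hp2 ρbar habs hdet hsplit hTW b
    (gt1_frozen p hp2 ρbar habs hdet hsplit hTW b) cz hcz hctr hcl hW fr hfr n B₀

end Fermat.Agent.GP.TW.TWFinal
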