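/-
GATE-P / S56 [P-TW] assembly (helper49, key S56-TW-FROZEN): `GTGlue.exists_tw_primes_matrix` with
every residual binder except GT1 (`hGT1`) and the cocycle package `cz` discharged from the FROZEN
hypotheses of S56 (`habs`, `hdet`, `hsplit`, `hTW`, `p ≠ 2`) through `Grp.matrix_hyps`.
-/
import Fermat.Agent.GP.TW.GTGlue
import Fermat.Agent.GP.TW.CycNormal
import Fermat.Agent.GP.TW.Grp.Adapter

set_option autoImplicit false

namespace Fermat.Agent.GP.TW.TWFrozen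

open Matrix Module Polynomial
open Fermat.Agent.GP.TW Fermat.Agent.GP.TW.Grp Fermat.Agent.GP.TW.GTGlue
  Fermat.Agent.GP.TW.TWPrime Fermat.Agent.GP.TW.CycNormal

/-- `ℚ̄`. -/
local notation "Qb" => AlgebraicClosure ℚ
/-- `G_ℚ`. -/
local notation "GQ" => (AlgebraicClosure ℚ ≃ₐ[ℚ] AlgebraicClosure ℚ)

variable {k : Type} [Field k]

/-- `H⁰(G_ℚ, ad⁰ρbar(1)) = 0` in matrix form, from the frozen hypotheses. -/
theorem inv_eq_zero_frozen (p : ℕ) [Fact p.Prime] (hp2 : p ≠ 2) (ρbar : ResidualGaloisRep k)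
    (habs : ρbar.IsAbsolutelyIrreducible)
    (hdet : (GaloisRepAdic.ofResidualGaloisRep ρbar).DetIsCyclotomic p)
    (hsplit : ∀ σ : GQ, ∃ α β : k, LinearMap.charpoly (ρbar.ρ σ) = (X - C α) * (X - C β))
    (hTW : ∀ (K : Type) [Field K] [Algebra k K] (G : Subgroup GQ), G.index = 2 →
      ∀ V : Submodule K (ρbar.baseChange K).V,
        (∀ σ ∈ G, ∀ x ∈ V, (ρbar.baseChange K).ρ σ x ∈ V) → V = ⊥ ∨ V = ⊤)
    (b : Basis (Fin 2) k ρbar.V) (m : Matrix (Fin 2) (Fin 2) k) (hm : m.trace = 0)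
    (hfix : ∀ g, adAct (Grp.matRep ρbar b) g m = m) : m = 0 := by
  obtain ⟨-, -, hL, hQ, -⟩ := matrix_hyps p hp2 ρbar habs hdet hsplit hTW b
  exact inv_eq_zero (noEigen_of_noStableLine hL) hQ m hm hfix

variable {W : Type*} [AddCommGroup W] [Module k W] [FiniteDimensional k W]

/-- **[P-TW] from the frozen hypotheses**: the only remaining inputs are GT1 (`hGT1`) and the
package of cocycle representatives `cz` of the dual Selmer classes. -/
theorem exists_tw_primes_frozen (p : ℕ) [Fact p.Prime] (hp2 : p ≠ 2) (ρbar : ResidualGaloisRep k)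
    (habs : ρbar.IsAbsolutelyIrreducible)
    (hdet : (GaloisRepAdic.ofResidualGaloisRep ρbar).DetIsCyclotomic p)
    (hsplit : ∀ σ : GQ, ∃ α β : k, LinearMap.charpoly (ρbar.ρ σ) = (X - C α) * (X - C β))
    (hTW : ∀ (K : Type) [Field K] [Algebra k K] (G : Subgroup GQ), G.index = 2 →
      ∀ V : Submodule K (ρbar.baseChange K).V,
        (∀ σ ∈ G, ∀ x ∈ V, (ρbar.baseChange K).ρ σ x ∈ V) → V = ⊥ ∨ V = ⊤)
    (b : Basis (Fin 2) k ρbar.V) (n : ℕ)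
    (hGT1 : ∀ c : GQ → Matrix (Fin 2) (Fin 2) k, (∀ g, (c g).trace = 0) →
      IsCocycle (adAct (Grp.matRep ρbar b)) c → (∀ s, Grp.matRep ρbar b s = 1 → c s = 0) →
      ∃ m : Matrix (Fin 2) (Fin 2) k, m.trace = 0 ∧
        ∀ g, c g = adAct (Grp.matRep ρbar b) g m - m)
    (cz : W →ₗ[k] (GQ → Matrix (Fin 2) (Fin 2) k))
    (hcz : ∀ w, IsCocycle (adAct (Grp.matRep ρbar b)) (cz w))
    (hctr : ∀ w g, (cz w g).trace = 0)
    (hcl : ∀ w, ∃ L : IntermediateField ℚ Qb, FiniteDimensional ℚ L ∧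
      ∀ σ : GQ, (∀ x ∈ L, σ x = x) → cz w σ = 0)
    (hW : ∀ w : W, w ≠ 0 → ¬ ∃ m : Matrix (Fin 2) (Fin 2) k, m.trace = 0 ∧
      ∀ g, cz w g = adAct (Grp.matRep ρbar b) g m - m)
    (B₀ : Finset ℕ) :
    ∃ qv : Fin (Module.finrank k W) → ℕ, Function.Injective qv ∧
      (∀ i, (qv i).Prime ∧ qv i ∉ B₀ ∧ p ^ (n + 1) ∣ qv i - 1) ∧
      (∀ i, ∀ (A : ValuationSubring Qb) (τ : GQ), A.LiesOverPrime (qv i) →
        A.IsFrobeniusAt τ (qv i) →
        ∃ α β : k, α ≠ β ∧ LinearMap.charpoly (ρbar.ρ τ) = (X - C α) * (X - C β)) ∧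
      ∀ w : W, (∀ i, w ∈ locKer (adAct (Grp.matRep ρbar b)) cz (qv i)) → w = 0 := by
  obtain ⟨h2, -, hL, hQ, hsp, hC, -, -, hd1⟩ := matrix_hyps p hp2 ρbar habs hdet hsplit hTW b
  have hp : p.Prime := Fact.out
  have : NeZero (p ^ (n + 1)) := ⟨pow_ne_zero _ hp.ne_zero⟩
  have hirr1 : ∀ v : Fin 2 → k, v ≠ 0 →
      ¬ ∀ σ : GQ, (∀ ζ : Qb, ζ ^ p ^ (n + 1) = 1 → σ ζ = ζ) →
        ∃ a : k, Grp.matRep ρbar b σ *ᵥ v = a • v := by
    intro v hv hall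
    exact (hC (rootFixer ℚ Qb (p ^ (n + 1))) (fun a c => commutator_mem_rootFixer a c)).1 v hv
      (fun σ hσ => hall σ (mem_rootFixer.1 hσ))
  exact exists_tw_primes_matrix h2 ρbar b (Grp.matRep ρbar b) (fun σ => rfl) p n (hd1 n) hirr1 hsp
    (fun m hm hfix => inv_eq_zero (noEigen_of_noStableLine hL) hQ m hm hfix)
    hGT1 cz hcz hctr hcl hW B₀

end Fermat.Agent.GP.TW.TWFrozen
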