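/-
GATE-P / S56 [P-TW], group-theory leaf (claim S56-TW-TORUS, helper84).  Mathlib only.

**The torus-size bound by a fixed-point count** (a classification-free substitute for the part of
Dickson's theorem that the Taylor–Wiles `H¹`-vanishing needs).

`card_stabilizer_ge` (faithful form): a finite group `Γ` acts on a finite set `X`, every
non-identity element has exactly one or two fixed points, `x₀ : X`, `P ≤ Stab x₀` is the set of
one-fixed-point elements of `Stab x₀` (plus `1`), every one-fixed-point element fixes a point of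
the orbit of `x₀`, and `Γ` moves `x₀`.  Then `(|P| - 1) * |P| ≤ 2 * |Stab x₀|`.

`card_sub_one_le_two_mul_ncard_image` (general form, kernel allowed): same for a possibly
non-faithful action, the conclusion being `|P| - 1 ≤ 2 * |θ (Stab x₀)|` for any function `θ` on the
group whose fibres on `Stab x₀` are contained in cosets of `P` modulo the kernel.
-/
import Mathlib

set_option autoImplicit false

namespace Fermat.Agent.GP.TW.TorusSize

open MulAction

/-- the arithmetic core: `n` = size of the special orbit, `b` = order of its point stabiliser,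
`q` = order of `P`, `e` = stabiliser order of the unique other non-regular orbit. -/
theorem torus_arith {n b q e : ℕ} (hq : 2 ≤ q) (hn : q + 1 ≤ n) (he : 1 ≤ e)
    (h : n * b = e * (2 + n * (q - 2))) : (q - 1) * q ≤ 2 * b := by
  obtain ⟨r, rfl⟩ : ∃ r, q = r + 2 := ⟨q - 2, by omega⟩
  simp only [Nat.add_sub_cancel] at h
  have hdvd : n ∣ 2 * e := by
    have h1 : n ∣ e * (2 + n * r) := ⟨b, h.symm⟩
    have h2 : e * (2 + n * r) = 2 * e + n * (e * r) := by ring
    rw [h2] at h1
    exact (Nat.dvd_add_left (dvd_mul_right n _)).mp h1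
  obtain ⟨j, hj⟩ := hdvd
  have hj1 : 1 ≤ j := by
    rcases Nat.eq_zero_or_pos j with h0 | h0
    · subst h0; omega
    · exact h0
  have hn0 : 0 < n := by omega
  have h3 : n * (2 * b) = n * (2 * j + j * n * r) := by
    have e1 : n * (2 * b) = 2 * (n * b) := by ring
    have e2 : 2 * (e * (2 + n * r)) = (2 * e) * (2 + n * r) := by ring
    rw [e1, h, e2, hj]
    ring
  have h4 : 2 * b = 2 * j + j * n * r := Nat.eq_of_mul_eq_mul_left hn0 h3
  have h5 : (r + 2 - 1) * (r + 2) = 2 + (r + 3) * r := by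
    have : r + 2 - 1 = r + 1 := by omega
    rw [this]
    ring
  rw [h5, h4]
  have h6 : (r + 3) * r ≤ j * n * r := by
    apply Nat.mul_le_mul_right
    calc r + 3 ≤ n := by omega
      _ = 1 * n := (one_mul n).symm
      _ ≤ j * n := Nat.mul_le_mul_right n hj1
  omega

section faithful

variable {Γ X : Type*} [Group Γ] [MulAction Γ X]

/-- conjugation invariance of the number of fixed points. -/
theorem ncard_fixedBy_conj (γ g : Γ) :
    (fixedBy X (γ * g * γ⁻¹)).ncard = (fixedBy X g).ncard := by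
  rw [← smul_fixedBy, Set.ncard_smul_set]


/-- **The torus-size bound, faithful form.** -/
theorem card_stabilizer_ge [Finite Γ] [Finite X]
    (h12 : ∀ g : Γ, g ≠ 1 → (fixedBy X g).ncard = 1 ∨ (fixedBy X g).ncard = 2)
    (x₀ : X) (P : Subgroup Γ) (hPB : P ≤ stabilizer Γ x₀)
    (hP1 : ∀ g ∈ stabilizer Γ x₀, g ≠ 1 → ((fixedBy X g).ncard = 1 ↔ g ∈ P))
    (hconj : ∀ g : Γ, g ≠ 1 → (fixedBy X g).ncard = 1 → ∃ γ : Γ, g • γ • x₀ = γ • x₀)
    (hmove : ∃ γ : Γ, γ • x₀ ≠ x₀) :
    (Nat.card P - 1) * Nat.card P ≤ 2 * Nat.card (stabilizer Γ x₀) := by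
  classical
  have := Fintype.ofFinite Γ
  have := Fintype.ofFinite X
  set N := Nat.card Γ with hN
  set b := Nat.card (stabilizer Γ x₀) with hb
  set q := Nat.card P with hq
  set n := (stabilizer Γ x₀).index with hn
  have hbn : b * n = N := Subgroup.card_mul_index _
  have hqb : q ≤ b := Subgroup.card_le_of_le hPB
  -- the trivial case
  rcases Nat.lt_or_ge q 4 with hq4 | hq4
  · have h1 : (q - 1) * q ≤ 2 * q := Nat.mul_le_mul_right q (by omega)
    exact le_trans h1 (by omega)
  -- non-identity elements of `P` fix only `x₀`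
  have hPfix : ∀ g ∈ P, g ≠ 1 → ∀ y : X, g • y = y → y = x₀ := by
    intro g hg hg1 y hy
    have h1 : (fixedBy X g).ncard = 1 := (hP1 g (hPB hg) hg1).mpr hg
    obtain ⟨a, ha⟩ := Set.ncard_eq_one.mp h1
    have hx₀ : x₀ ∈ fixedBy X g := hPB hg
    have hy' : y ∈ fixedBy X g := hy
    rw [ha, Set.mem_singleton_iff] at hx₀ hy'
    rw [hy', hx₀]
  -- the orbit of `x₀` has at least `q + 1` points
  obtain ⟨γ₀, hγ₀⟩ := hmove
  have hnq : q + 1 ≤ n := by
    rw [hn, index_stabilizer]
    have hinj : Function.Injective (fun g : P => (g : Γ) • γ₀ • x₀) := by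
      intro g g' hgg
      simp only at hgg
      by_contra hne
      have h1 : ((g⁻¹ * g' : P) : Γ) ≠ 1 := by
        intro h
        apply hne
        have h' : g⁻¹ * g' = 1 := Subtype.ext h
        exact inv_mul_eq_one.mp h'
      have h2 : ((g⁻¹ * g' : P) : Γ) • γ₀ • x₀ = γ₀ • x₀ := by
        rw [Subgroup.coe_mul, Subgroup.coe_inv, mul_smul, ← hgg, inv_smul_smul]
      exact hγ₀ (hPfix _ (g⁻¹ * g').2 h1 _ h2)
    have hsub : insert x₀ (Set.range fun g : P => (g : Γ) • γ₀ • x₀) ⊆ orbit Γ x₀ := by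
      intro z hz
      rcases hz with rfl | ⟨g, rfl⟩
      · exact mem_orbit_self _
      · exact ⟨(g : Γ) * γ₀, by simp [mul_smul]⟩
    have hx₀r : x₀ ∉ Set.range fun g : P => (g : Γ) • γ₀ • x₀ := by
      rintro ⟨g, hg⟩
      apply hγ₀
      have hg' : (g : Γ) • γ₀ • x₀ = x₀ := hg
      have h1 : γ₀ • x₀ = (g : Γ)⁻¹ • x₀ := by
        rw [eq_inv_smul_iff]
        exact hg'
      rw [h1]
      exact hPB (P.inv_mem g.2)
    calc q + 1 = (Set.range fun g : P => (g : Γ) • γ₀ • x₀).ncard + 1 := by
          rw [Set.ncard_range_of_injective hinj]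
      _ = (insert x₀ (Set.range fun g : P => (g : Γ) • γ₀ • x₀)).ncard :=
          (Set.ncard_insert_of_notMem hx₀r (Set.toFinite _)).symm
      _ ≤ (orbit Γ x₀).ncard := Set.ncard_le_ncard hsub (Set.toFinite _)
  -- the one-fixed-point elements
  set U : Finset Γ := (Finset.univ.erase (1 : Γ)).filter fun g => (fixedBy X g).ncard = 1 with hU
  set Ω : Finset X := Finset.univ.filter fun y => y ∈ orbit Γ x₀ with hΩ
  have hΩcard : Ω.card = n := by
    rw [hn, index_stabilizer, ← Set.ncard_coe_finset]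
    congr 1
    ext y
    simp [hΩ]
  have hUcount : U.card = n * (q - 1) := by
    have hdc := Finset.sum_card_bipartiteAbove_eq_sum_card_bipartiteBelow (s := U) (t := Ω)
      (fun (g : Γ) (y : X) => g • y = y)
    have hL : ∀ g ∈ U, (Ω.bipartiteAbove (fun (g : Γ) (y : X) => g • y = y) g).card = 1 := by
      intro g hg
      obtain ⟨hg1', hgf⟩ := Finset.mem_filter.mp hg
      have hg1 : g ≠ 1 := Finset.ne_of_mem_erase hg1'
      obtain ⟨a, ha⟩ := Set.ncard_eq_one.mp hgf
      obtain ⟨γ, hγ⟩ := hconj g hg1 hgf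
      have haΩ : a ∈ orbit Γ x₀ := by
        have h1 : γ • x₀ ∈ fixedBy X g := hγ
        rw [ha, Set.mem_singleton_iff] at h1
        rw [← h1]
        exact mem_orbit _ _
      rw [Finset.card_eq_one]
      refine ⟨a, ?_⟩
      ext y
      simp only [Finset.bipartiteAbove, Finset.mem_filter, Finset.mem_singleton, hΩ,
        Finset.mem_univ, true_and]
      constructor
      · rintro ⟨_, hy⟩
        have h1 : y ∈ fixedBy X g := hy
        rwa [ha, Set.mem_singleton_iff] at h1
      · rintro rfl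
        refine ⟨haΩ, ?_⟩
        have h1 : y ∈ fixedBy X g := by rw [ha]; exact Set.mem_singleton _
        exact h1
    have hR : ∀ y ∈ Ω, (U.bipartiteBelow (fun (g : Γ) (y : X) => g • y = y) y).card = q - 1 := by
      intro y hy
      obtain ⟨γ, rfl⟩ : ∃ γ : Γ, γ • x₀ = y := (Finset.mem_filter.mp hy).2
      set Pf : Finset Γ := Finset.univ.filter fun g => g ∈ P with hPf
      have hPfcard : Pf.card = q := by
        rw [hq, Nat.card_eq_fintype_card, Fintype.card_subtype]
      have h1Pf : (1 : Γ) ∈ Pf := by simp [hPf, P.one_mem]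
      have hconj1 : ∀ g : Γ, γ⁻¹ * g * γ = 1 → g = 1 := by
        intro g h
        have h' : g = γ * (γ⁻¹ * g * γ) * γ⁻¹ := by group
        rw [h', h]
        group
      have himg : U.bipartiteBelow (fun (g : Γ) (y : X) => g • y = y) (γ • x₀) =
          (Pf.erase 1).image (fun h => γ * h * γ⁻¹) := by
        ext g
        simp only [Finset.bipartiteBelow, Finset.mem_filter, Finset.mem_image, Finset.mem_erase,
          hU, hPf, Finset.mem_univ, true_and, and_true]
        constructor
        · rintro ⟨⟨hg1, hgf⟩, hgy⟩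
          have hne : γ⁻¹ * g * γ ≠ 1 := fun h => hg1 (hconj1 g h)
          refine ⟨γ⁻¹ * g * γ, ⟨hne, ?_⟩, by group⟩
          have hstab : γ⁻¹ * g * γ ∈ stabilizer Γ x₀ := by
            rw [mem_stabilizer_iff, mul_smul, mul_smul, hgy, inv_smul_smul]
          refine (hP1 _ hstab hne).mp ?_
          have h1 := ncard_fixedBy_conj (X := X) γ⁻¹ g
          rw [inv_inv] at h1
          rw [h1]
          exact hgf
        · rintro ⟨h, ⟨hh1, hhP⟩, rfl⟩
          refine ⟨⟨?_, ?_⟩, ?_⟩
          · intro hc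
            apply hh1
            have h' : h = γ⁻¹ * (γ * h * γ⁻¹) * γ := by group
            rw [h', hc]
            group
          · rw [ncard_fixedBy_conj]
            exact (hP1 h (hPB hhP) hh1).mpr hhP
          · have h1 : h • x₀ = x₀ := hPB hhP
            rw [mul_smul, mul_smul, inv_smul_smul, h1]
      rw [himg, Finset.card_image_of_injective, Finset.card_erase_of_mem h1Pf, hPfcard]
      intro h h' hh
      simpa using hh
    rw [Finset.sum_congr rfl hL, Finset.sum_congr rfl hR, Finset.sum_const, Finset.sum_const,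
      smul_eq_mul, smul_eq_mul, mul_one, hΩcard] at hdc
    exact hdc
  -- Burnside
  have hncard : Fintype.card Γ = N := by rw [hN, Nat.card_eq_fintype_card]
  have hB := sum_card_fixedBy_eq_card_orbits_mul_card_group Γ X
  let s : orbitRel.Quotient Γ X → ℕ := fun ω => (stabilizer Γ ω.out).index
  let e : orbitRel.Quotient Γ X → ℕ := fun ω => Nat.card (stabilizer Γ ω.out)
  have hes : ∀ ω, e ω * s ω = N := fun ω => Subgroup.card_mul_index _
  have he1 : ∀ ω, 1 ≤ e ω := fun ω => Nat.card_pos
  have hcardX : Fintype.card X = ∑ ω : orbitRel.Quotient Γ X, s ω := by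
    rw [Fintype.card_congr (selfEquivSigmaOrbits Γ X), Fintype.card_sigma]
    refine Finset.sum_congr rfl fun ω _ => ?_
    simp only [s]
    rw [index_stabilizer, ← Nat.card_eq_fintype_card, Nat.card_coe_set_eq]
  have hL : ∑ g : Γ, Fintype.card (fixedBy X g) + U.card = Fintype.card X + 2 * (N - 1) := by
    rw [← Finset.add_sum_erase Finset.univ _ (Finset.mem_univ (1 : Γ)), add_assoc]
    congr 1
    · refine Fintype.card_congr (Equiv.subtypeUnivEquiv ?_)
      intro x
      simp
    · rw [hU, Finset.card_filter, ← Finset.sum_add_distrib, Finset.sum_congr rfl (g := fun _ => 2)]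
      · rw [Finset.sum_const, Finset.card_erase_of_mem (Finset.mem_univ _), Finset.card_univ,
          hncard, smul_eq_mul, mul_comm]
      · intro g hg
        have hg1 : g ≠ 1 := Finset.ne_of_mem_erase hg
        rw [← Nat.card_eq_fintype_card, Nat.card_coe_set_eq]
        rcases h12 g hg1 with h | h
        · rw [if_pos h, h]
        · rw [if_neg (by omega), h]
  have hB' : ∑ ω : orbitRel.Quotient Γ X, N + U.card =
      (∑ ω : orbitRel.Quotient Γ X, s ω) + 2 * (N - 1) := by
    rw [Finset.sum_const, Finset.card_univ, smul_eq_mul, ← hcardX, ← hL, hB, hncard]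
  have hsle : ∀ ω, s ω ≤ N := fun ω => by
    have h1 := hes ω
    have h2 := he1 ω
    nlinarith
  let d : orbitRel.Quotient Γ X → ℕ := fun ω => N - s ω
  have hds : ∀ ω, d ω + s ω = N := fun ω => Nat.sub_add_cancel (hsle ω)
  have hdsum : ∑ ω : orbitRel.Quotient Γ X, d ω + U.card = 2 * (N - 1) := by
    have h1 : ∑ ω : orbitRel.Quotient Γ X, N = ∑ ω : orbitRel.Quotient Γ X, (d ω + s ω) :=
      Finset.sum_congr rfl fun ω _ => (hds ω).symm
    rw [Finset.sum_add_distrib] at h1
    omega
  -- the orbit of `x₀`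
  set ω₀ : orbitRel.Quotient Γ X := Quotient.mk'' x₀ with hω₀
  have hsω₀ : s ω₀ = n := by
    simp only [s]
    rw [hn, index_stabilizer, index_stabilizer]
    congr 1
    apply orbit_eq_iff.mpr
    have h1 : (Quotient.mk'' ω₀.out : orbitRel.Quotient Γ X) = Quotient.mk'' x₀ :=
      Quotient.out_eq' ω₀
    exact Quotient.exact' h1
  have hn1 : 1 ≤ n := by omega
  have hnN : n ≤ N := by rw [← hsω₀]; exact hsle ω₀
  have hdω₀ : d ω₀ = N - n := by simp only [d]; rw [hsω₀]
  -- the other non-regular orbits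
  set O : Finset (orbitRel.Quotient Γ X) :=
    (Finset.univ.erase ω₀).filter fun ω => s ω < N with hO
  have hdO : ∑ ω ∈ O, d ω + (N - n) + n * (q - 1) = 2 * (N - 1) := by
    rw [← hdsum, hUcount, ← hdω₀, ← Finset.add_sum_erase Finset.univ _ (Finset.mem_univ ω₀)]
    congr 1
    rw [add_comm]
    congr 1
    rw [hO, Finset.sum_filter_of_ne]
    intro ω _ hd
    have h1 := hds ω
    have h2 := hsle ω
    by_contra hlt
    apply hd
    simp only [d]
    omega
  have hq2 : n * (q - 1) = n * (q - 2) + n := by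
    have h1 : q - 1 = (q - 2) + 1 := by omega
    rw [h1, mul_add, mul_one]
  have hN1 : 1 ≤ N := by omega
  have hmain : ∑ ω ∈ O, d ω + n * (q - 2) + 2 = N := by omega
  have hO2 : ∀ ω ∈ O, N ≤ 2 * d ω := by
    intro ω hω
    have hlt : s ω < N := (Finset.mem_filter.mp hω).2
    have h1 := hes ω
    have h2 := he1 ω
    have h4 := hds ω
    have he2 : 2 ≤ e ω := by
      by_contra hlt2
      have h5 : e ω = 1 := by omega
      rw [h5, one_mul] at h1
      omega
    have h6 : 2 * s ω ≤ N := by nlinarith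
    omega
  have hcard_le : O.card ≤ 1 := by
    by_contra h2
    push Not at h2
    have h1 : O.card • N ≤ ∑ ω ∈ O, 2 * d ω :=
      Finset.card_nsmul_le_sum O _ N fun ω hω => hO2 ω hω
    rw [← Finset.mul_sum, smul_eq_mul] at h1
    have h3 : 2 * N ≤ O.card * N := Nat.mul_le_mul_right N h2
    omega
  have hnq2 : n * q = n * (q - 2) + 2 * n := by
    have h1 : q = (q - 2) + 2 := by omega
    rw [h1, mul_add, Nat.add_sub_cancel]
    ring
  have hcard_ne : O.card ≠ 0 := by
    intro h0
    rw [Finset.card_eq_zero.mp h0, Finset.sum_empty, zero_add] at hmain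
    have h1 : n * q ≤ N := by
      rw [← hbn, mul_comm]
      exact Nat.mul_le_mul_right n hqb
    omega
  obtain ⟨ω₁, hω₁⟩ := Finset.card_eq_one.mp (by omega : O.card = 1)
  rw [hω₁, Finset.sum_singleton] at hmain
  have hs1 : s ω₁ = 2 + n * (q - 2) := by
    have h1 := hds ω₁
    omega
  have hfin : n * b = e ω₁ * (2 + n * (q - 2)) := by
    rw [← hs1, hes ω₁, ← hbn, mul_comm]
  exact torus_arith (by omega) hnq (he1 ω₁) hfin

end faithful

section general

variable {G X : Type*} [Group G] [MulAction G X]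

/-- **The torus-size bound, general form** (the action may have a kernel).  `θ` is any function
on `G` whose fibres on `Stab x₀` lie in cosets of `P` modulo the kernel of the action. -/
theorem card_sub_one_le_two_mul_ncard_image {T : Type*} [Finite G] [Finite X]
    (h12 : ∀ g : G, (∃ x : X, g • x ≠ x) → (fixedBy X g).ncard = 1 ∨ (fixedBy X g).ncard = 2)
    (x₀ : X) (P : Subgroup G) (hPB : P ≤ stabilizer G x₀)
    (hPK : ∀ g ∈ P, (∀ x : X, g • x = x) → g = 1)
    (hP1 : ∀ g ∈ stabilizer G x₀, (∃ x : X, g • x ≠ x) →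
      ((fixedBy X g).ncard = 1 ↔ ∃ h ∈ P, ∀ x : X, g • x = h • x))
    (hconj : ∀ g : G, (∃ x : X, g • x ≠ x) → (fixedBy X g).ncard = 1 →
      ∃ γ : G, g • γ • x₀ = γ • x₀)
    (hmove : ∃ γ : G, γ • x₀ ≠ x₀)
    (θ : G → T)
    (hθ : ∀ β ∈ stabilizer G x₀, ∀ β' ∈ stabilizer G x₀, θ β = θ β' →
      ∃ h ∈ P, ∀ x : X, β' • x = β • h • x) :
    Nat.card P - 1 ≤ 2 * (θ '' (stabilizer G x₀ : Set G)).ncard := by
  classical
  set φ : G →* (MulAction.toPermHom G X).range := (MulAction.toPermHom G X).rangeRestrict with hφ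
  have hφs : Function.Surjective φ := (MulAction.toPermHom G X).rangeRestrict_surjective
  have hsmul : ∀ (g : G) (x : X), φ g • x = g • x := fun g x => rfl
  have hfix : ∀ g : G, fixedBy X (φ g) = fixedBy X g := by
    intro g
    ext x
    simp only [mem_fixedBy, hsmul]
  have hφeq : ∀ g h : G, φ g = φ h ↔ ∀ x : X, g • x = h • x := by
    intro g h
    constructor
    · intro e x
      rw [← hsmul, e, hsmul]
    · intro e
      apply Subtype.ext
      apply Equiv.ext
      intro x
      exact e x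
  have hφ1 : ∀ g : G, φ g ≠ 1 → ∃ x : X, g • x ≠ x := by
    intro g hg
    by_contra hall
    push Not at hall
    apply hg
    rw [← map_one φ, hφeq]
    intro x
    rw [one_smul]
    exact hall x
  have hstab : ∀ g : G, φ g ∈ stabilizer (MulAction.toPermHom G X).range x₀ ↔
      g ∈ stabilizer G x₀ := by
    intro g
    simp only [mem_stabilizer_iff, hsmul]
  have h12' : ∀ γ : (MulAction.toPermHom G X).range, γ ≠ 1 →
      (fixedBy X γ).ncard = 1 ∨ (fixedBy X γ).ncard = 2 := by
    intro γ hγ
    obtain ⟨g, rfl⟩ := hφs γ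
    rw [hfix]
    exact h12 g (hφ1 g hγ)
  have hPB' : P.map φ ≤ stabilizer (MulAction.toPermHom G X).range x₀ := by
    rintro γ ⟨g, hg, rfl⟩
    exact (hstab g).mpr (hPB hg)
  have hP1' : ∀ γ ∈ stabilizer (MulAction.toPermHom G X).range x₀, γ ≠ 1 →
      ((fixedBy X γ).ncard = 1 ↔ γ ∈ P.map φ) := by
    intro γ hγB hγ1
    obtain ⟨g, rfl⟩ := hφs γ
    rw [hfix, hP1 g ((hstab g).mp hγB) (hφ1 g hγ1)]
    constructor
    · rintro ⟨h, hh, hgh⟩
      exact ⟨h, hh, ((hφeq g h).mpr hgh).symm⟩
    · rintro ⟨h, hh, hgh⟩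
      exact ⟨h, hh, (hφeq g h).mp hgh.symm⟩
  have hconj' : ∀ γ : (MulAction.toPermHom G X).range, γ ≠ 1 → (fixedBy X γ).ncard = 1 →
      ∃ δ : (MulAction.toPermHom G X).range, γ • δ • x₀ = δ • x₀ := by
    intro γ hγ1 hγf
    obtain ⟨g, rfl⟩ := hφs γ
    rw [hfix] at hγf
    obtain ⟨δ, hδ⟩ := hconj g (hφ1 g hγ1) hγf
    exact ⟨φ δ, by rw [hsmul, hsmul]; exact hδ⟩
  have hmove' : ∃ δ : (MulAction.toPermHom G X).range, δ • x₀ ≠ x₀ := by
    obtain ⟨δ, hδ⟩ := hmove
    exact ⟨φ δ, by rw [hsmul]; exact hδ⟩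
  have key := card_stabilizer_ge h12' x₀ (P.map φ) hPB' hP1' hconj' hmove'
  -- `|φ P| = |P|`
  have hcardP : Nat.card (P.map φ) = Nat.card P := by
    have hinj : Set.InjOn φ (P : Set G) := by
      intro g hg h hh hgh
      have h1 : g⁻¹ * h ∈ P := P.mul_mem (P.inv_mem hg) hh
      have h2 : φ (g⁻¹ * h) = φ 1 := by
        rw [map_mul, map_inv, hgh, inv_mul_cancel, map_one]
      have h3 := hPK _ h1 (fun x => by rw [(hφeq _ _).mp h2 x, one_smul])
      exact inv_mul_eq_one.mp h3
    have e1 : Nat.card (P.map φ) =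
        ((P.map φ : Subgroup (MulAction.toPermHom G X).range) :
          Set (MulAction.toPermHom G X).range).ncard :=
      Nat.card_coe_set_eq ((P.map φ : Subgroup (MulAction.toPermHom G X).range) :
          Set (MulAction.toPermHom G X).range)
    have e2 : Nat.card P = (P : Set G).ncard := Nat.card_coe_set_eq (P : Set G)
    rw [e1, e2, Subgroup.coe_map]
    exact hinj.ncard_image
  -- `|Stab̄ x₀| ≤ |φ P| * |θ (Stab x₀)|`
  have hBbar : Nat.card (stabilizer (MulAction.toPermHom G X).range x₀) ≤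
      Nat.card (P.map φ) * (θ '' (stabilizer G x₀ : Set G)).ncard := by
    have := Fintype.ofFinite (MulAction.toPermHom G X).range
    choose pre hpre using hφs
    set Bf : Finset (MulAction.toPermHom G X).range :=
      Finset.univ.filter fun γ => γ ∈ stabilizer (MulAction.toPermHom G X).range x₀ with hBf
    set Pf : Finset (MulAction.toPermHom G X).range :=
      Finset.univ.filter fun γ => γ ∈ P.map φ with hPf
    have hBfcard : Bf.card = Nat.card (stabilizer (MulAction.toPermHom G X).range x₀) := by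
      rw [Nat.card_eq_fintype_card, Fintype.card_subtype]
    have hPfcard : Pf.card = Nat.card (P.map φ) := by
      rw [Nat.card_eq_fintype_card, Fintype.card_subtype]
    have hpreB : ∀ γ ∈ Bf, pre γ ∈ stabilizer G x₀ := by
      intro γ hγ
      rw [← hstab, hpre]
      exact (Finset.mem_filter.mp hγ).2
    have h1 := Finset.card_le_mul_card_image (f := fun γ => θ (pre γ)) Bf Pf.card ?_
    · rw [← hBfcard, ← hPfcard]
      refine le_trans h1 (Nat.mul_le_mul_left _ ?_)
      rw [← Set.ncard_coe_finset]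
      apply Set.ncard_le_ncard _ (Set.toFinite _)
      intro t ht
      rw [Finset.mem_coe, Finset.mem_image] at ht
      obtain ⟨γ, hγ, rfl⟩ := ht
      exact ⟨pre γ, hpreB γ hγ, rfl⟩
    · intro a ha
      obtain ⟨γ₀, hγ₀, rfl⟩ := Finset.mem_image.mp ha
      rw [← Finset.card_image_of_injective _ (mul_right_injective γ₀⁻¹)]
      apply Finset.card_le_card
      intro δ hδ
      obtain ⟨γ, hγ, rfl⟩ := Finset.mem_image.mp hδ
      obtain ⟨hγB, hγθ⟩ := Finset.mem_filter.mp hγ
      obtain ⟨h, hh, hact⟩ := hθ _ (hpreB γ₀ hγ₀) _ (hpreB γ hγB) hγθ.symm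
      rw [hPf, Finset.mem_filter]
      refine ⟨Finset.mem_univ _, h, hh, ?_⟩
      have h2 : φ (pre γ) = φ (pre γ₀ * h) := by
        rw [hφeq]
        intro x
        rw [hact x, mul_smul]
      rw [hpre, map_mul, hpre] at h2
      rw [h2, inv_mul_cancel_left]
  rw [hcardP] at key hBbar
  have hq0 : 0 < Nat.card P := Nat.card_pos
  have h3 : (Nat.card P - 1) * Nat.card P ≤
      (2 * (θ '' (stabilizer G x₀ : Set G)).ncard) * Nat.card P := by
    refine le_trans key ?_
    calc 2 * Nat.card (stabilizer (MulAction.toPermHom G X).range x₀)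
        ≤ 2 * (Nat.card P * (θ '' (stabilizer G x₀ : Set G)).ncard) :=
          Nat.mul_le_mul_left 2 hBbar
      _ = (2 * (θ '' (stabilizer G x₀ : Set G)).ncard) * Nat.card P := by ring
  exact Nat.le_of_mul_le_mul_right h3 hq0

end general

end Fermat.Agent.GP.TW.TorusSize
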