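/-
GATE-P / S56 [P-TW], group-theory leaf (claim S56-TW-TORUS-GL2, helper84).

**The torus-size bound for subgroups of `SL₂(k)` all of whose elements are split over `k`**:
the matrix instantiation of `GP/TW/TorusSize.lean` on the projective line `ℙ¹(k)`.
If `H ≤ GL₂(k)` (`k` a finite field of odd characteristic `p`) consists of matrices of
determinant one having an eigenvalue in `k`, does not fix the point `∞ = [1 : 0]`, and every
element of order dividing `p` is `H`-conjugate to an upper triangular matrix (e.g. a Sylow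
`p`-subgroup is upper triangular), then
`#{x | [1 x; 0 1] ∈ H} ≤ 2 * #{a / d | [a b; 0 d] ∈ H} + 1`.
-/
import Mathlib
import Fermat.Agent.DS.N4.Proj
import Fermat.Agent.GP.TW.TorusSize

set_option autoImplicit false

namespace Fermat.Agent.GP.TW.TorusSizeGL2

open Matrix Polynomial MulAction
open scoped LinearAlgebra.Projectivization
open Fermat.Agent.DS.N4

variable {k : Type*} [Field k]

/-! ### fixed points on the projective line -/

/-- a scalar matrix has a double root. -/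
theorem trace_sub_eq_of_scalar {M : Matrix (Fin 2) (Fin 2) k} {e c : k}
    (hM : M = e • (1 : Matrix (Fin 2) (Fin 2) k)) (hc : M.charpoly.IsRoot c) :
    M.trace - c = c := by
  rw [isRoot_charpoly_fin_two_iff] at hc
  have htr : M.trace = 2 * e := by
    rw [hM, Matrix.trace_fin_two]
    simp
    ring
  have hdet : M.det = e ^ 2 := by
    rw [hM, Matrix.det_fin_two]
    simp
    ring
  rw [htr, hdet] at hc
  have h1 : (c - e) ^ 2 = 0 := by linear_combination hc
  have h2 : c = e := sub_eq_zero.mp (pow_eq_zero_iff (by norm_num) |>.mp h1)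
  rw [htr, h2]
  ring

/-- **two fixed points**: distinct eigenvalues in `k`. -/
theorem fixedBy_ncard_eq_two_of_ne {g : GL (Fin 2) k} {c : k} (hc : g.1.charpoly.IsRoot c)
    (hdc : g.1.trace - c ≠ c) :
    (fixedBy (ℙ k (Fin 2 → k)) g).ncard = 2 := by
  have hns : ∀ e : k, g.1 ≠ e • (1 : Matrix (Fin 2) (Fin 2) k) :=
    fun e he => hdc (trace_sub_eq_of_scalar he hc)
  set d := g.1.trace - c with hd
  have hdroot : g.1.charpoly.IsRoot d := (isRoot_charpoly_iff_of_isRoot hc d).mpr (Or.inr rfl)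
  obtain ⟨vc, hvc0, hvc⟩ := exists_eigvec_of_isRoot hc
  obtain ⟨vd, hvd0, hvd⟩ := exists_eigvec_of_isRoot hdroot
  have hdet : det2 vc vd ≠ 0 := by
    intro h0
    obtain ⟨a, ha⟩ := exists_smul_of_det2_eq_zero hvc0 h0
    have h1 : g.1 *ᵥ vd = c • vd := by
      rw [ha, Matrix.mulVec_smul, hvc, smul_comm]
    rw [hvd] at h1
    have h2 : (d - c) • vd = 0 := by rw [sub_smul, h1, sub_self]
    rcases smul_eq_zero.mp h2 with h | h
    · exact hdc (sub_eq_zero.mp h)
    · exact hvd0 h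
  have hne : Projectivization.mk k vc hvc0 ≠ Projectivization.mk k vd hvd0 := by
    intro heq
    obtain ⟨a, ha⟩ := (Projectivization.mk_eq_mk_iff' k _ _ hvc0 hvd0).mp heq
    apply hdet
    rw [← ha]
    simp only [det2, Pi.smul_apply, smul_eq_mul]
    ring
  have hfix : fixedBy (ℙ k (Fin 2 → k)) g =
      {Projectivization.mk k vc hvc0, Projectivization.mk k vd hvd0} := by
    ext x
    simp only [mem_fixedBy, Set.mem_insert_iff, Set.mem_singleton_iff]
    constructor
    · induction x using Projectivization.ind with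
      | h w hw =>
        intro hx
        obtain ⟨e, he⟩ := (smul_mk_eq_iff g hw).mp hx
        have heroot := isRoot_of_eigvec hw he
        rcases (isRoot_charpoly_iff_of_isRoot hc e).mp heroot with rfl | rfl
        · left
          have h0 : det2 vc w = 0 := by
            by_contra hne0
            exact hns e (eq_smul_one_of_two_eigvec hne0 hvc he)
          obtain ⟨a, ha⟩ := exists_smul_of_det2_eq_zero hvc0 h0
          exact (Projectivization.mk_eq_mk_iff' k _ _ hw hvc0).mpr ⟨a, ha.symm⟩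
        · right
          have h0 : det2 vd w = 0 := by
            by_contra hne0
            exact hns _ (eq_smul_one_of_two_eigvec hne0 hvd he)
          obtain ⟨a, ha⟩ := exists_smul_of_det2_eq_zero hvd0 h0
          exact (Projectivization.mk_eq_mk_iff' k _ _ hw hvd0).mpr ⟨a, ha.symm⟩
    · rintro (rfl | rfl)
      · exact (smul_mk_eq_iff g hvc0).mpr ⟨c, hvc⟩
      · exact (smul_mk_eq_iff g hvd0).mpr ⟨d, hvd⟩
  rw [hfix, Set.ncard_pair hne]

/-- **one fixed point**: a non-scalar matrix with a double eigenvalue in `k`. -/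
theorem fixedBy_ncard_eq_one_of_eq {g : GL (Fin 2) k} {c : k} (hc : g.1.charpoly.IsRoot c)
    (hdc : g.1.trace - c = c)
    (hns : ∀ e : k, g.1 ≠ e • (1 : Matrix (Fin 2) (Fin 2) k)) :
    (fixedBy (ℙ k (Fin 2 → k)) g).ncard = 1 := by
  obtain ⟨vc, hvc0, hvc⟩ := exists_eigvec_of_isRoot hc
  have hfix : fixedBy (ℙ k (Fin 2 → k)) g = {Projectivization.mk k vc hvc0} := by
    ext x
    simp only [mem_fixedBy, Set.mem_singleton_iff]
    constructor
    · induction x using Projectivization.ind with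
      | h w hw =>
        intro hx
        obtain ⟨e, he⟩ := (smul_mk_eq_iff g hw).mp hx
        have heroot := isRoot_of_eigvec hw he
        have hec : e = c := by
          rcases (isRoot_charpoly_iff_of_isRoot hc e).mp heroot with h | h
          · exact h
          · rw [h, hdc]
        subst hec
        have h0 : det2 vc w = 0 := by
          by_contra hne0
          exact hns e (eq_smul_one_of_two_eigvec hne0 hvc he)
        obtain ⟨a, ha⟩ := exists_smul_of_det2_eq_zero hvc0 h0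
        exact (Projectivization.mk_eq_mk_iff' k _ _ hw hvc0).mpr ⟨a, ha.symm⟩
    · rintro rfl
      exact (smul_mk_eq_iff g hvc0).mpr ⟨c, hvc⟩
  rw [hfix, Set.ncard_singleton]

/-- an element moving a point is not scalar. -/
theorem not_scalar_of_moves {g : GL (Fin 2) k} (h : ∃ x : ℙ k (Fin 2 → k), g • x ≠ x) (e : k) :
    g.1 ≠ e • (1 : Matrix (Fin 2) (Fin 2) k) := by
  intro he
  obtain ⟨x, hx⟩ := h
  exact hx (smul_eq_self_of_scalar g he x)

/-- a non-scalar element moves a point. -/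
theorem moves_of_not_scalar {g : GL (Fin 2) k}
    (hns : ∀ e : k, g.1 ≠ e • (1 : Matrix (Fin 2) (Fin 2) k)) :
    ∃ x : ℙ k (Fin 2 → k), g • x ≠ x := by
  by_contra hall
  push Not at hall
  obtain ⟨c, hc⟩ := scalar_of_forall_smul_eq g hall
  exact hns c hc

/-- proportional matrices act in the same way on the projective line. -/
theorem smul_eq_smul_of_val_eq_smul {g h : GL (Fin 2) k} {e : k}
    (he : h.1 = e • g.1) (x : ℙ k (Fin 2 → k)) : h • x = g • x := by
  induction x using Projectivization.ind with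
  | h v hv =>
    rw [Projectivization.smul_mk, Projectivization.smul_mk, Projectivization.mk_eq_mk_iff']
    refine ⟨e, ?_⟩
    rw [GL_smul_vec, GL_smul_vec, he, Matrix.smul_mulVec]

/-! ### the power trick -/

section powerTrick

variable (p : ℕ) [Fact p.Prime] [CharP k p]

/-- for a matrix of determinant one with a double eigenvalue `c` (so `c = ±1`) in odd
characteristic `p`, the power `g ^ (p + 1)` is `c • g`: it is unipotent and acts like `g`. -/
theorem pow_succ_char_of_double_root (hp2 : p ≠ 2) {g : GL (Fin 2) k} {c : k}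
    (hc : g.1.charpoly.IsRoot c) (hdc : g.1.trace - c = c) (hdet : g.1.det = 1) :
    c ^ 2 = 1 ∧ (g ^ (p + 1)).1 = c • g.1 ∧ (g ^ (p + 1)) ^ p = 1 := by
  have hN := sub_smul_one_sq_zero_of_double_root hc hdc
  set N := g.1 - c • (1 : Matrix (Fin 2) (Fin 2) k) with hNdef
  have hg : g.1 = c • (1 : Matrix (Fin 2) (Fin 2) k) + N := by rw [hNdef]; abel
  have hc2 : c ^ 2 = 1 := by
    have h1 := det_smul_one_add_of_sq_zero hN c
    rw [← hg, hdet] at h1
    exact h1.symm
  obtain ⟨m, hm⟩ : ∃ m, p = 2 * m + 1 := (Fact.out : p.Prime).odd_of_ne_two hp2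
  have hcp : c ^ p = c := by rw [hm, pow_succ, pow_mul, hc2, one_pow, one_mul]
  have hcp1 : c ^ (p + 1) = 1 := by rw [pow_succ, hcp, ← sq, hc2]
  have hpk : (p : k) = 0 := CharP.cast_eq_zero k p
  have hval : (g ^ (p + 1)).1 = c • g.1 := by
    rw [Units.val_pow_eq_pow_val]
    conv_lhs => rw [hg]
    rw [smul_one_add_pow_succ hN c p, hcp1, hpk, zero_add, one_mul, hcp, one_smul]
    conv_rhs => rw [hg]
    rw [smul_add, smul_smul, ← sq, hc2, one_smul]
  refine ⟨hc2, hval, ?_⟩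
  apply Units.ext
  rw [Units.val_pow_eq_pow_val, hval, Units.val_one]
  have h1 : c • g.1 = 1 + c • N := by
    conv_lhs => rw [hg]
    rw [smul_add, smul_smul, ← sq, hc2, one_smul]
  have hN' : (c • N) * (c • N) = 0 := by
    rw [Matrix.smul_mul, Matrix.mul_smul, hN, smul_zero, smul_zero]
  rw [h1, one_add_pow_of_sq_zero hN', hpk, zero_smul, add_zero]

end powerTrick

/-! ### the point at infinity and the upper unitriangular group -/

/-- the point `∞ = [1 : 0]` of the projective line. -/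
noncomputable def pInf : ℙ k (Fin 2 → k) :=
  Projectivization.mk k ![1, 0] (by
    intro h
    have h0 := congrFun h 0
    simp at h0)

theorem smul_pInf_eq_iff (g : GL (Fin 2) k) :
    g • (pInf : ℙ k (Fin 2 → k)) = pInf ↔ g.1 1 0 = 0 := by
  unfold pInf
  rw [smul_mk_eq_iff]
  constructor
  · rintro ⟨e, he⟩
    rw [Matrix.mulVec_fin_two] at he
    have h1 := congrFun he 1
    simpa using h1
  · intro h
    refine ⟨g.1 0 0, ?_⟩
    rw [Matrix.mulVec_fin_two]
    ext i
    fin_cases i <;> simp [h]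

/-- the upper unitriangular matrices. -/
def upperUni : Subgroup (GL (Fin 2) k) where
  carrier := {g | g.1 1 0 = 0 ∧ g.1 0 0 = 1 ∧ g.1 1 1 = 1}
  one_mem' := by simp
  mul_mem' := by
    rintro a b ⟨ha1, ha2, ha3⟩ ⟨hb1, hb2, hb3⟩
    change (a * b).1 1 0 = 0 ∧ (a * b).1 0 0 = 1 ∧ (a * b).1 1 1 = 1
    simp only [Units.val_mul, Matrix.mul_apply, Fin.sum_univ_two]
    rw [ha1, ha2, ha3, hb1, hb2, hb3]
    simp
  inv_mem' := by
    rintro a ⟨ha1, ha2, ha3⟩
    have h : (a⁻¹).1 * a.1 = 1 := by rw [← Units.val_mul, inv_mul_cancel, Units.val_one]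
    have h00 := congrFun (congrFun h 0) 0
    have h10 := congrFun (congrFun h 1) 0
    have h11 := congrFun (congrFun h 1) 1
    simp only [Matrix.mul_apply, Fin.sum_univ_two, ha1, ha2, ha3, mul_one, mul_zero, add_zero,
      Matrix.one_apply_eq] at h00 h10 h11
    rw [Matrix.one_apply_ne (by decide)] at h10
    change (a⁻¹).1 1 0 = 0 ∧ (a⁻¹).1 0 0 = 1 ∧ (a⁻¹).1 1 1 = 1
    refine ⟨h10, h00, ?_⟩
    rw [h10, zero_mul, zero_add] at h11
    exact h11

theorem mem_upperUni_iff (g : GL (Fin 2) k) :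
    g ∈ (upperUni : Subgroup (GL (Fin 2) k)) ↔ g.1 1 0 = 0 ∧ g.1 0 0 = 1 ∧ g.1 1 1 = 1 :=
  Iff.rfl

/-- the diagonal entries of an upper triangular matrix are its eigenvalues. -/
theorem isRoot_of_upper {M : Matrix (Fin 2) (Fin 2) k} (h10 : M 1 0 = 0) :
    M.charpoly.IsRoot (M 0 0) ∧ M.trace - M 0 0 = M 1 1 := by
  constructor
  · rw [isRoot_charpoly_fin_two_iff, Matrix.trace_fin_two, Matrix.det_fin_two, h10]
    ring
  · rw [Matrix.trace_fin_two]
    ring

/-- the determinant of an upper triangular matrix. -/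
theorem det_of_upper {M : Matrix (Fin 2) (Fin 2) k} (h10 : M 1 0 = 0) :
    M.det = M 0 0 * M 1 1 := by
  rw [Matrix.det_fin_two, h10]
  ring

section unipotentPower

variable (p : ℕ) [Fact p.Prime] [CharP k p]

/-- an upper triangular matrix of determinant one with equal diagonal entries: its
`(p+1)`-st power is upper unitriangular and proportional to it. -/
theorem pow_succ_mem_upperUni (hp2 : p ≠ 2) {g : GL (Fin 2) k} (h10 : g.1 1 0 = 0)
    (hdiag : g.1 1 1 = g.1 0 0) (hdet : g.1.det = 1) :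
    g ^ (p + 1) ∈ (upperUni : Subgroup (GL (Fin 2) k)) ∧ (g ^ (p + 1)).1 = g.1 0 0 • g.1 := by
  obtain ⟨hroot, htr⟩ := isRoot_of_upper h10
  rw [hdiag] at htr
  obtain ⟨hc2, hval, -⟩ := pow_succ_char_of_double_root p hp2 hroot htr hdet
  refine ⟨?_, hval⟩
  rw [mem_upperUni_iff, hval]
  simp only [Matrix.smul_apply, smul_eq_mul]
  rw [h10, hdiag, mul_zero, ← sq, hc2]
  exact ⟨rfl, rfl, rfl⟩

end unipotentPower

/-! ### the torus-size bound -/

section main

variable [Finite k] (p : ℕ) [Fact p.Prime] [CharP k p]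

/-- **The torus-size bound for split subgroups of `SL₂(k)`.** -/
theorem ncard_unipotent_le (hp2 : p ≠ 2) (H : Subgroup (GL (Fin 2) k))
    (hdet : ∀ g ∈ H, g.1.det = 1)
    (hsplit : ∀ g ∈ H, ∃ c : k, g.1.charpoly.IsRoot c)
    (hirr : ∃ g ∈ H, g.1 1 0 ≠ 0)
    (hSyl : ∀ g ∈ H, g ^ p = 1 → ∃ γ ∈ H, (γ⁻¹ * g * γ).1 1 0 = 0) :
    {g : GL (Fin 2) k | g ∈ H ∧ g.1 1 0 = 0 ∧ g.1 0 0 = 1 ∧ g.1 1 1 = 1}.ncard ≤
      2 * {t : k | ∃ g ∈ H, g.1 1 0 = 0 ∧ t = g.1 0 0 / g.1 1 1}.ncard + 1 := by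
  classical
  have hsm : ∀ (g : H) (x : ℙ k (Fin 2 → k)), g • x = (g : GL (Fin 2) k) • x := fun _ _ => rfl
  have hfb : ∀ g : H, fixedBy (ℙ k (Fin 2 → k)) g = fixedBy (ℙ k (Fin 2 → k)) (g : GL (Fin 2) k) :=
    fun _ => rfl
  have hstab : ∀ g : H, g ∈ stabilizer H (pInf : ℙ k (Fin 2 → k)) ↔ (g : GL (Fin 2) k).1 1 0 = 0 := by
    intro g
    rw [mem_stabilizer_iff, hsm, smul_pInf_eq_iff]
  set P : Subgroup H := (upperUni : Subgroup (GL (Fin 2) k)).subgroupOf H with hP
  have hmemP : ∀ g : H, g ∈ P ↔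
      (g : GL (Fin 2) k).1 1 0 = 0 ∧ (g : GL (Fin 2) k).1 0 0 = 1 ∧ (g : GL (Fin 2) k).1 1 1 = 1 :=
    fun g => by rw [hP, Subgroup.mem_subgroupOf, mem_upperUni_iff]
  -- the `(p+1)`-st power of an element with equal diagonal entries
  have hpow : ∀ g : H, (g : GL (Fin 2) k).1 1 0 = 0 →
      (g : GL (Fin 2) k).1 1 1 = (g : GL (Fin 2) k).1 0 0 →
      g ^ (p + 1) ∈ P ∧ ∀ x : ℙ k (Fin 2 → k), (g ^ (p + 1)) • x = g • x := by
    intro g h10 hdiag
    obtain ⟨h1, h2⟩ := pow_succ_mem_upperUni p hp2 h10 hdiag (hdet g g.2)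
    refine ⟨?_, fun x => ?_⟩
    · rw [hP, Subgroup.mem_subgroupOf, Subgroup.coe_pow]
      exact h1
    · rw [hsm, hsm, Subgroup.coe_pow]
      exact smul_eq_smul_of_val_eq_smul h2 x
  -- (h12)
  have h12 : ∀ g : H, (∃ x : ℙ k (Fin 2 → k), g • x ≠ x) →
      (fixedBy (ℙ k (Fin 2 → k)) g).ncard = 1 ∨ (fixedBy (ℙ k (Fin 2 → k)) g).ncard = 2 := by
    intro g hmv
    have hns := not_scalar_of_moves (g := (g : GL (Fin 2) k)) hmv
    obtain ⟨c, hc⟩ := hsplit g g.2
    rw [hfb]
    by_cases hdc : (g : GL (Fin 2) k).1.trace - c = c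
    · exact Or.inl (fixedBy_ncard_eq_one_of_eq hc hdc hns)
    · exact Or.inr (fixedBy_ncard_eq_two_of_ne hc hdc)
  have hPB : P ≤ stabilizer H (pInf : ℙ k (Fin 2 → k)) := by
    intro g hg
    rw [hstab]
    exact ((hmemP g).mp hg).1
  have hPK : ∀ g ∈ P, (∀ x : ℙ k (Fin 2 → k), g • x = x) → g = 1 := by
    intro g hg hall
    obtain ⟨h10, h00, h11⟩ := (hmemP g).mp hg
    obtain ⟨c, hc⟩ := scalar_of_forall_smul_eq (g : GL (Fin 2) k) hall
    have hc1 : c = 1 := by
      have h1 := congrFun (congrFun hc 0) 0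
      rw [h00] at h1
      simpa using h1.symm
    apply Subtype.ext
    apply Units.ext
    rw [hc, hc1, one_smul]
    rfl
  have hP1 : ∀ g ∈ stabilizer H (pInf : ℙ k (Fin 2 → k)),
      (∃ x : ℙ k (Fin 2 → k), g • x ≠ x) →
      ((fixedBy (ℙ k (Fin 2 → k)) g).ncard = 1 ↔
        ∃ h ∈ P, ∀ x : ℙ k (Fin 2 → k), g • x = h • x) := by
    intro g hg hmv
    have h10 := (hstab g).mp hg
    obtain ⟨hroot, htr⟩ := isRoot_of_upper h10
    constructor
    · intro h1
      have hdiag : (g : GL (Fin 2) k).1 1 1 = (g : GL (Fin 2) k).1 0 0 := by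
        by_contra hne
        have h2 := fixedBy_ncard_eq_two_of_ne hroot (by rw [htr]; exact hne)
        rw [hfb] at h1
        omega
      obtain ⟨hmem, hact⟩ := hpow g h10 hdiag
      exact ⟨g ^ (p + 1), hmem, fun x => (hact x).symm⟩
    · rintro ⟨h, hh, hact⟩
      obtain ⟨h10', h00', h11'⟩ := (hmemP h).mp hh
      have hfix : fixedBy (ℙ k (Fin 2 → k)) g = fixedBy (ℙ k (Fin 2 → k)) (h : GL (Fin 2) k) := by
        ext x
        rw [mem_fixedBy, mem_fixedBy, hact x, hsm]
      have hmv' : ∃ x : ℙ k (Fin 2 → k), (h : GL (Fin 2) k) • x ≠ x := by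
        obtain ⟨x, hx⟩ := hmv
        exact ⟨x, by rw [← hsm, ← hact x]; exact hx⟩
      obtain ⟨hroot', htr'⟩ := isRoot_of_upper h10'
      rw [hfix]
      exact fixedBy_ncard_eq_one_of_eq hroot' (by rw [htr', h11', h00'])
        (not_scalar_of_moves hmv')
  have hconj : ∀ g : H, (∃ x : ℙ k (Fin 2 → k), g • x ≠ x) →
      (fixedBy (ℙ k (Fin 2 → k)) g).ncard = 1 →
      ∃ γ : H, g • γ • (pInf : ℙ k (Fin 2 → k)) = γ • pInf := by
    intro g hmv h1
    obtain ⟨c, hc⟩ := hsplit g g.2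
    have hdc : (g : GL (Fin 2) k).1.trace - c = c := by
      by_contra hne
      have h2 := fixedBy_ncard_eq_two_of_ne hc hne
      rw [hfb] at h1
      omega
    obtain ⟨-, hval, hpw⟩ := pow_succ_char_of_double_root p hp2 hc hdc (hdet g g.2)
    obtain ⟨γ, hγ, hγ10⟩ := hSyl _ (H.pow_mem g.2 (p + 1)) hpw
    refine ⟨⟨γ, hγ⟩, ?_⟩
    rw [hsm, hsm]
    change (g : GL (Fin 2) k) • γ • (pInf : ℙ k (Fin 2 → k)) = γ • pInf
    rw [← smul_eq_smul_of_val_eq_smul hval]
    have h3 := (smul_pInf_eq_iff _).mpr hγ10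
    rw [mul_smul, mul_smul, inv_smul_eq_iff] at h3
    exact h3
  have hmove : ∃ γ : H, γ • (pInf : ℙ k (Fin 2 → k)) ≠ pInf := by
    obtain ⟨g, hg, hg10⟩ := hirr
    refine ⟨⟨g, hg⟩, fun h => hg10 ?_⟩
    rw [hsm] at h
    exact (smul_pInf_eq_iff g).mp h
  have hθ : ∀ β ∈ stabilizer H (pInf : ℙ k (Fin 2 → k)),
      ∀ β' ∈ stabilizer H (pInf : ℙ k (Fin 2 → k)),
      (fun g : H => (g : GL (Fin 2) k).1 0 0 / (g : GL (Fin 2) k).1 1 1) β =
        (fun g : H => (g : GL (Fin 2) k).1 0 0 / (g : GL (Fin 2) k).1 1 1) β' →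
      ∃ h ∈ P, ∀ x : ℙ k (Fin 2 → k), β' • x = β • h • x := by
    intro β hβ β' hβ' hθeq
    simp only at hθeq
    have hb10 := (hstab β).mp hβ
    have hb10' := (hstab β').mp hβ'
    have hbdet := hdet β β.2
    have hbdet' := hdet β' β'.2
    rw [det_of_upper hb10] at hbdet
    rw [det_of_upper hb10'] at hbdet'
    have hb00 : (β : GL (Fin 2) k).1 0 0 ≠ 0 := left_ne_zero_of_mul_eq_one hbdet
    have hb11 : (β : GL (Fin 2) k).1 1 1 ≠ 0 := right_ne_zero_of_mul_eq_one hbdet
    have hb11' : (β' : GL (Fin 2) k).1 1 1 ≠ 0 := right_ne_zero_of_mul_eq_one hbdet'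
    rw [div_eq_div_iff hb11 hb11'] at hθeq
    set δ : H := β⁻¹ * β' with hδ
    have hmul : (β : GL (Fin 2) k).1 * (δ : GL (Fin 2) k).1 = (β' : GL (Fin 2) k).1 := by
      rw [← Units.val_mul, ← Subgroup.coe_mul, hδ, mul_inv_cancel_left]
    have e00 := congrFun (congrFun hmul 0) 0
    have e10 := congrFun (congrFun hmul 1) 0
    have e11 := congrFun (congrFun hmul 1) 1
    simp only [Matrix.mul_apply, Fin.sum_univ_two, hb10, hb10', zero_mul, zero_add] at e00 e10 e11
    have hd10 : (δ : GL (Fin 2) k).1 1 0 = 0 := by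
      rcases mul_eq_zero.mp e10 with h | h
      · exact absurd h hb11
      · exact h
    rw [hd10, mul_zero, add_zero] at e00
    have hddiag : (δ : GL (Fin 2) k).1 1 1 = (δ : GL (Fin 2) k).1 0 0 := by
      apply mul_left_cancel₀ (mul_ne_zero hb00 hb11)
      calc (β : GL (Fin 2) k).1 0 0 * (β : GL (Fin 2) k).1 1 1 * (δ : GL (Fin 2) k).1 1 1
          = (β : GL (Fin 2) k).1 0 0 * ((β : GL (Fin 2) k).1 1 1 * (δ : GL (Fin 2) k).1 1 1) := by
            ring
        _ = (β : GL (Fin 2) k).1 0 0 * (β' : GL (Fin 2) k).1 1 1 := by rw [e11]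
        _ = (β' : GL (Fin 2) k).1 0 0 * (β : GL (Fin 2) k).1 1 1 := hθeq
        _ = (β : GL (Fin 2) k).1 0 0 * (δ : GL (Fin 2) k).1 0 0 * (β : GL (Fin 2) k).1 1 1 := by
            rw [e00]
        _ = (β : GL (Fin 2) k).1 0 0 * (β : GL (Fin 2) k).1 1 1 * (δ : GL (Fin 2) k).1 0 0 := by
            ring
    obtain ⟨hmem, hact⟩ := hpow δ hd10 hddiag
    refine ⟨δ ^ (p + 1), hmem, fun x => ?_⟩
    rw [hact x, ← mul_smul, hδ, mul_inv_cancel_left]
  have key := Fermat.Agent.GP.TW.TorusSize.card_sub_one_le_two_mul_ncard_image h12 pInf P hPB hPK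
    hP1 hconj hmove (fun g : H => (g : GL (Fin 2) k).1 0 0 / (g : GL (Fin 2) k).1 1 1) hθ
  -- translate the cardinalities
  have hcardP : Nat.card P =
      {g : GL (Fin 2) k | g ∈ H ∧ g.1 1 0 = 0 ∧ g.1 0 0 = 1 ∧ g.1 1 1 = 1}.ncard := by
    have e1 : Nat.card P = (P : Set H).ncard := Nat.card_coe_set_eq (P : Set H)
    rw [e1, ← Set.ncard_image_of_injective (P : Set H) Subtype.val_injective]
    congr 1
    ext g
    simp only [Set.mem_image, SetLike.mem_coe, Set.mem_ofPred_eq]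
    constructor
    · rintro ⟨h, hh, rfl⟩
      exact ⟨h.2, (hmemP h).mp hh⟩
    · rintro ⟨hg, hg'⟩
      exact ⟨⟨g, hg⟩, (hmemP ⟨g, hg⟩).mpr hg', rfl⟩
  have hsub : ((fun g : H => (g : GL (Fin 2) k).1 0 0 / (g : GL (Fin 2) k).1 1 1) ''
      (stabilizer H (pInf : ℙ k (Fin 2 → k)) : Set H)) ⊆
      {t : k | ∃ g ∈ H, g.1 1 0 = 0 ∧ t = g.1 0 0 / g.1 1 1} := by
    rintro t ⟨g, hg, rfl⟩
    exact ⟨g, g.2, (hstab g).mp hg, rfl⟩
  have hle := Set.ncard_le_ncard hsub (Set.toFinite _)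
  rw [← hcardP]
  omega

end main

end Fermat.Agent.GP.TW.TorusSizeGL2
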