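import Mathlib

/-!
# S56, bridge [P-GW] ↔ [P-TW]: trace-form self-duality of `ad⁰` over the prime field (helper55)

`[P-GW]` works with `N = ad⁰ρ̄` as a representation over `F = 𝔽_p` and with
`N* = Hom_F(N, F)(1)` (`Rep.dualTwist`); `[P-TW]` works with traceless `2 × 2` matrices over the
residue field `k` and the action `X ↦ ω(σ) • ρ̄(σ) X ρ̄(σ)⁻¹`.  The bridge is

  `Φ : ad⁰ → Hom_F(ad⁰, F)`,  `Φ(x)(y) = Tr_{k/F} (tr (x y))`,

which is `F`-linear, bijective (`2 ≠ 0` in `k`, `k/F` finite separable) and satisfies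
`Φ(c • g x g⁻¹) = c • (Φ(x) ∘ Ad(g⁻¹))` for `c ∈ F` — the action of `Rep.dualTwist`.

Mathlib only.
-/

set_option autoImplicit false

noncomputable section

namespace Fermat.Agent.GP.TW.TrDual

open Matrix

variable (F : Type*) {k : Type*} [Field F] [Field k] [Algebra F k]

/-- the trace form of `k/F` separates points (true for finite separable extensions) -/
def TraceSeparating (k : Type*) [Field k] [Algebra F k] : Prop :=
  ∀ a : k, (∀ c : k, Algebra.trace F k (c * a) = 0) → a = 0

theorem traceSeparating_of_isSeparable [FiniteDimensional F k] [Algebra.IsSeparable F k] :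
    TraceSeparating F k := by
  intro a ha
  have h := (traceForm_nondegenerate F k).2
  exact h a fun c => by rw [Algebra.traceForm_apply]; exact ha c

/-- finite fields -/
theorem traceSeparating_of_finite [Finite k] : TraceSeparating F k := by
  have : Finite F := Finite.of_injective (algebraMap F k) (algebraMap F k).injective
  have : FiniteDimensional F k := Module.Finite.of_finite
  exact traceSeparating_of_isSeparable F

/-- traceless `2 × 2` matrices over `k`, as an `F`-space -/
def sl2 (k : Type*) [Field k] [Algebra F k] : Submodule F (Matrix (Fin 2) (Fin 2) k) :=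
  LinearMap.ker (Matrix.traceLinearMap (Fin 2) F k)

variable {F}

theorem mem_sl2 {x : Matrix (Fin 2) (Fin 2) k} : x ∈ sl2 F k ↔ x.trace = 0 := by
  simp [sl2]

variable (F)

/-- `(x, y) ↦ Tr_{k/F} (tr (x y))` on all `2 × 2` matrices -/
def trFormAll (k : Type*) [Field k] [Algebra F k] :
    Matrix (Fin 2) (Fin 2) k →ₗ[F] Matrix (Fin 2) (Fin 2) k →ₗ[F] F :=
  LinearMap.mk₂ F (fun x y => Algebra.trace F k (x * y).trace)
    (fun x x' y => by simp [add_mul, Matrix.trace_add])
    (fun c x y => by
      rw [Matrix.smul_mul, Matrix.trace_smul, map_smul])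
    (fun x y y' => by simp [mul_add, Matrix.trace_add])
    (fun c x y => by
      rw [Matrix.mul_smul, Matrix.trace_smul, map_smul])

@[simp]
theorem trFormAll_apply (x y : Matrix (Fin 2) (Fin 2) k) :
    trFormAll F k x y = Algebra.trace F k (x * y).trace := rfl

theorem trFormAll_comm (x y : Matrix (Fin 2) (Fin 2) k) : trFormAll F k x y = trFormAll F k y x := by
  rw [trFormAll_apply, trFormAll_apply, Matrix.trace_mul_comm]

/-- invariance under simultaneous conjugation (`g * g' = 1`) -/
theorem trFormAll_conj {g g' : Matrix (Fin 2) (Fin 2) k} (h : g * g' = 1)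
    (x y : Matrix (Fin 2) (Fin 2) k) :
    trFormAll F k (g * x * g') (g * y * g') = trFormAll F k x y := by
  have h' : g' * g = 1 := mul_eq_one_comm.mp h
  rw [trFormAll_apply, trFormAll_apply]
  congr 1
  calc (g * x * g' * (g * y * g')).trace = (g * (x * y) * g').trace := by
        congr 1
        calc g * x * g' * (g * y * g') = g * x * (g' * g) * y * g' := by simp only [mul_assoc]
          _ = g * (x * y) * g' := by rw [h', mul_one]; simp only [mul_assoc]
    _ = (g' * (g * (x * y))).trace := Matrix.trace_mul_comm _ _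
    _ = (x * y).trace := by rw [← mul_assoc, h', one_mul]

/-- the form moves a conjugation to the other side -/
theorem trFormAll_conj_left {g g' : Matrix (Fin 2) (Fin 2) k} (h : g * g' = 1)
    (x y : Matrix (Fin 2) (Fin 2) k) :
    trFormAll F k (g * x * g') y = trFormAll F k x (g' * y * g) := by
  have h' : g' * g = 1 := mul_eq_one_comm.mp h
  have e : g' * (g * x * g') * g = x := by
    calc g' * (g * x * g') * g = (g' * g) * x * (g' * g) := by simp only [mul_assoc]
      _ = x := by rw [h', one_mul, mul_one]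
  rw [← trFormAll_conj F h' (g * x * g') y, e]

variable {F}

/-- **nondegeneracy on traceless matrices** -/
theorem eq_zero_of_trFormAll_eq_zero (hk : TraceSeparating F k) (h2 : (2 : k) ≠ 0)
    {x : Matrix (Fin 2) (Fin 2) k} (hx : x.trace = 0)
    (h : ∀ y : Matrix (Fin 2) (Fin 2) k, y.trace = 0 → trFormAll F k x y = 0) : x = 0 := by
  rw [Matrix.trace_fin_two] at hx
  have h11 : x 1 1 = -x 0 0 := by linear_combination hx
  have tr_mul : ∀ y : Matrix (Fin 2) (Fin 2) k,
      (x * y).trace = x 0 0 * y 0 0 + x 0 1 * y 1 0 + x 1 0 * y 0 1 + x 1 1 * y 1 1 := by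
    intro y
    rw [Matrix.trace_fin_two, Matrix.mul_apply, Matrix.mul_apply, Fin.sum_univ_two,
      Fin.sum_univ_two]
    ring
  have h01 : x 0 1 = 0 := by
    apply hk
    intro c
    have := h !![0, 0; c, 0] (by simp [Matrix.trace_fin_two])
    rw [trFormAll_apply, tr_mul] at this
    simpa [mul_comm] using this
  have h10 : x 1 0 = 0 := by
    apply hk
    intro c
    have := h !![0, c; 0, 0] (by simp [Matrix.trace_fin_two])
    rw [trFormAll_apply, tr_mul] at this
    simpa [mul_comm] using this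
  have h00 : x 0 0 = 0 := by
    have h200 : 2 * x 0 0 = 0 := by
      apply hk
      intro c
      have := h !![c, 0; 0, -c] (by simp [Matrix.trace_fin_two])
      rw [trFormAll_apply, tr_mul, h11] at this
      have e : x 0 0 * !![c, 0; 0, -c] 0 0 + x 0 1 * !![c, 0; 0, -c] 1 0 +
          x 1 0 * !![c, 0; 0, -c] 0 1 + -x 0 0 * !![c, 0; 0, -c] 1 1 = c * (2 * x 0 0) := by
        simp
        ring
      rw [e] at this
      exact this
    rcases mul_eq_zero.mp h200 with h | h
    · exact absurd h h2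
    · exact h
  ext i j
  fin_cases i <;> fin_cases j
  · exact h00
  · exact h01
  · exact h10
  · simpa [h00] using h11

variable (F)

/-- the trace form on traceless matrices -/
def trForm (k : Type*) [Field k] [Algebra F k] : sl2 F k →ₗ[F] sl2 F k →ₗ[F] F :=
  (trFormAll F k).compl₁₂ (sl2 F k).subtype (sl2 F k).subtype

@[simp]
theorem trForm_apply (x y : sl2 F k) :
    trForm F k x y = Algebra.trace F k ((x : Matrix (Fin 2) (Fin 2) k) * y).trace := rfl

variable {F}

theorem trForm_separatingLeft (hk : TraceSeparating F k) (h2 : (2 : k) ≠ 0) :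
    ∀ x : sl2 F k, (∀ y : sl2 F k, trForm F k x y = 0) → x = 0 := by
  intro x hx
  apply Subtype.ext
  exact eq_zero_of_trFormAll_eq_zero hk h2 (mem_sl2.mp x.2) fun y hy => hx ⟨y, mem_sl2.mpr hy⟩

instance [FiniteDimensional F k] : FiniteDimensional F (sl2 F k) := by
  have : FiniteDimensional F (Matrix (Fin 2) (Fin 2) k) := by
    have : FiniteDimensional k (Matrix (Fin 2) (Fin 2) k) := inferInstance
    exact FiniteDimensional.trans F k (Matrix (Fin 2) (Fin 2) k)
  infer_instance

/-- **`ad⁰ ≃ (ad⁰)^*` over `F`** -/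
def toDual [FiniteDimensional F k] (hk : TraceSeparating F k) (h2 : (2 : k) ≠ 0) :
    sl2 F k ≃ₗ[F] Module.Dual F (sl2 F k) :=
  LinearEquiv.ofInjectiveOfFinrankEq (trForm F k)
    (by
      rw [← LinearMap.ker_eq_bot, LinearMap.ker_eq_bot']
      intro x hx
      exact trForm_separatingLeft hk h2 x fun y => by rw [hx]; rfl)
    Subspace.dual_finrank_eq.symm

@[simp]
theorem toDual_apply [FiniteDimensional F k] (hk : TraceSeparating F k) (h2 : (2 : k) ≠ 0)
    (x y : sl2 F k) :
    toDual hk h2 x y = Algebra.trace F k ((x : Matrix (Fin 2) (Fin 2) k) * y).trace := rfl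


/-! ### conjugation and equivariance -/

/-- conjugation `x ↦ g x g'` (`g g' = 1`) on traceless matrices, `F`-linear -/
def conjSl2 (g g' : Matrix (Fin 2) (Fin 2) k) (h : g * g' = 1) : sl2 F k →ₗ[F] sl2 F k where
  toFun x := ⟨g * x * g', by
    rw [mem_sl2, Matrix.trace_mul_comm, ← mul_assoc, mul_eq_one_comm.mp h, one_mul]
    exact mem_sl2.mp x.2⟩
  map_add' x y := by
    apply Subtype.ext
    simp [mul_add, add_mul]
  map_smul' c x := by
    apply Subtype.ext
    simp

@[simp]
theorem conjSl2_coe (g g' : Matrix (Fin 2) (Fin 2) k) (h : g * g' = 1) (x : sl2 F k) :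
    ((conjSl2 g g' h x : sl2 F k) : Matrix (Fin 2) (Fin 2) k) = g * x * g' := rfl

theorem conjSl2_one : conjSl2 (F := F) (1 : Matrix (Fin 2) (Fin 2) k) 1 (one_mul 1) = 1 := by
  ext x : 1
  apply Subtype.ext
  simp

theorem conjSl2_mul {g g' h h' : Matrix (Fin 2) (Fin 2) k} (hg : g * g' = 1) (hh : h * h' = 1)
    (hgh : (g * h) * (h' * g') = 1) :
    conjSl2 (F := F) (g * h) (h' * g') hgh = conjSl2 g g' hg * conjSl2 h h' hh := by
  ext x : 1
  apply Subtype.ext
  simp [mul_assoc]

/-- **equivariance**: `Φ (c • g x g⁻¹) = c • (Φ x ∘ Ad g⁻¹)`, the action of `Rep.dualTwist` -/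
theorem toDual_smul_conj [FiniteDimensional F k] (hk : TraceSeparating F k) (h2 : (2 : k) ≠ 0)
    {g g' : Matrix (Fin 2) (Fin 2) k} (h : g * g' = 1) (c : F) (x : sl2 F k) :
    toDual hk h2 (c • conjSl2 g g' h x) =
      c • (toDual hk h2 x).comp (conjSl2 g' g (mul_eq_one_comm.mp h)) := by
  ext y
  rw [map_smul, LinearMap.smul_apply, LinearMap.smul_apply, LinearMap.comp_apply, toDual_apply,
    toDual_apply, conjSl2_coe, conjSl2_coe]
  congr 1
  have := trFormAll_conj_left F h (x : Matrix (Fin 2) (Fin 2) k) y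
  simpa using this

/-! ### representations -/

section Rep

variable {G : Type*} [Group G]

/-- the adjoint representation on traceless matrices, over `F`, twisted by `χ : G →* Fˣ` -/
def adTwist (R : G →* (Matrix (Fin 2) (Fin 2) k)ˣ) (χ : G →* Fˣ) :
    Representation F G (sl2 F k) where
  toFun s := (χ s : F) • conjSl2 (R s : Matrix (Fin 2) (Fin 2) k) ((R s)⁻¹ : (Matrix (Fin 2) (Fin 2) k)ˣ)
    (Units.mul_inv _)
  map_one' := by
    ext x : 1
    apply Subtype.ext
    simp
  map_mul' s t := by
    ext x : 1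
    apply Subtype.ext
    show ((χ (s * t) : Fˣ) : F) • ((R (s * t) : Matrix (Fin 2) (Fin 2) k) * x *
        ((R (s * t))⁻¹ : (Matrix (Fin 2) (Fin 2) k)ˣ)) =
      (χ s : F) • ((R s : Matrix (Fin 2) (Fin 2) k) *
        ((χ t : F) • ((R t : Matrix (Fin 2) (Fin 2) k) * x *
          ((R t)⁻¹ : (Matrix (Fin 2) (Fin 2) k)ˣ))) * ((R s)⁻¹ : (Matrix (Fin 2) (Fin 2) k)ˣ))
    rw [map_mul, map_mul, Units.val_mul, Units.val_mul, _root_.mul_inv_rev, Units.val_mul,
      Matrix.mul_smul, Matrix.smul_mul, smul_smul]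
    simp only [mul_assoc]

theorem adTwist_apply_coe (R : G →* (Matrix (Fin 2) (Fin 2) k)ˣ) (χ : G →* Fˣ) (s : G)
    (x : sl2 F k) :
    ((adTwist R χ s x : sl2 F k) : Matrix (Fin 2) (Fin 2) k) =
      (χ s : F) • ((R s : Matrix (Fin 2) (Fin 2) k) * x *
        ((R s)⁻¹ : (Matrix (Fin 2) (Fin 2) k)ˣ)) := rfl

/-- the adjoint representation (no twist) -/
def ad (R : G →* (Matrix (Fin 2) (Fin 2) k)ˣ) : Representation F G (sl2 F k) :=
  adTwist R 1

/-- **`ad⁰(χ) ≃ (ad⁰)^*(χ)`**: `Φ` intertwines `adTwist R χ` with the `χ`-twisted dual of `ad R`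
(the formula of `Rep.dualTwist`) -/
theorem toDual_adTwist [FiniteDimensional F k] (hk : TraceSeparating F k) (h2 : (2 : k) ≠ 0)
    (R : G →* (Matrix (Fin 2) (Fin 2) k)ˣ) (χ : G →* Fˣ) (s : G) (x : sl2 F k) :
    toDual hk h2 (adTwist R χ s x) = (χ s : F) • (toDual hk h2 x).comp (ad (F := F) R s⁻¹) := by
  have h1 : ad (F := F) R s⁻¹ = conjSl2 ((R s)⁻¹ : (Matrix (Fin 2) (Fin 2) k)ˣ)
      (R s : Matrix (Fin 2) (Fin 2) k) (Units.inv_mul _) := by
    ext y : 1
    apply Subtype.ext
    simp [ad, adTwist]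
  rw [h1]
  exact toDual_smul_conj hk h2 (Units.mul_inv _) (χ s : F) x

end Rep

end Fermat.Agent.GP.TW.TrDual

end
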