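import Fermat.Prelude.Def_GroupCohomology_Selmer
import Fermat.Agent.GP.TW.TrDual

/-!
# S56, bridge [P-GW] ↔ [P-TW]: `ad⁰(χ) ≅ (ad⁰)^*(χ)` as an isomorphism in `Rep F G` (helper55)

`Rep`-level form of `GP/TW/TrDual.lean`, against the frozen `Rep.dualTwist`
(`Fermat/Prelude/Def_GroupCohomology_Selmer.lean`): for `R : G →* GL₂(k)` (as units of the matrix
ring), `k/F` finite separable, `2 ≠ 0` in `k`, `χ : G →* Fˣ`,

  `adDualIso : Rep.of (adTwist R χ) ≅ (Rep.of (ad R)).dualTwist χ`,  `x ↦ (y ↦ Tr_{k/F} tr (x y))`.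
-/

set_option autoImplicit false

noncomputable section

namespace Fermat.Agent.GP.TW.TrDual

open Matrix

universe u

variable {F k G : Type u} [Field F] [Field k] [Algebra F k] [Group G]

/-- `ad⁰(χ)` as an object of `Rep F G` -/
abbrev adTwistRep (R : G →* (Matrix (Fin 2) (Fin 2) k)ˣ) (χ : G →* Fˣ) : Rep F G :=
  Rep.of (adTwist R χ)

/-- `ad⁰` as an object of `Rep F G` -/
abbrev adRep (R : G →* (Matrix (Fin 2) (Fin 2) k)ˣ) : Rep F G :=
  Rep.of (ad (F := F) R)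

/-- **`ad⁰(χ) ≅ (ad⁰)^*(χ)` in `Rep F G`** -/
def adDualIso [FiniteDimensional F k] (hk : TraceSeparating F k) (h2 : (2 : k) ≠ 0)
    (R : G →* (Matrix (Fin 2) (Fin 2) k)ˣ) (χ : G →* Fˣ) :
    adTwistRep R χ ≅ (adRep (F := F) R).dualTwist χ :=
  Rep.mkIso (Representation.Equiv.mk (toDual hk h2) fun s => by
    refine LinearMap.ext fun x => ?_
    exact toDual_adTwist hk h2 R χ s x)

theorem adDualIso_hom_apply [FiniteDimensional F k] (hk : TraceSeparating F k) (h2 : (2 : k) ≠ 0)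
    (R : G →* (Matrix (Fin 2) (Fin 2) k)ˣ) (χ : G →* Fˣ) (x y : sl2 F k) :
    (((adDualIso hk h2 R χ).hom.hom x : (adRep (F := F) R).dualTwist χ) :
        Module.Dual F (sl2 F k)) y =
      Algebra.trace F k ((x : Matrix (Fin 2) (Fin 2) k) * y).trace := rfl

end Fermat.Agent.GP.TW.TrDual

end
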